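import Mathlib

/-!
# GATE-L / L6a-ABS (helper7): a noetherian normal domain is the intersection of its height-one
localisations

`B` a noetherian integrally closed domain with fraction field `F`.

* `den x` : the denominator ideal `{s : B | s • x ∈ B}` of `x : F`.
* `exists_heightOne_of_not_mem` : if `x ∉ B` there is a prime `𝔭` of height one with
  `s • x ∉ B` for all `s ∉ 𝔭` (i.e. `x ∉ B_𝔭`).
* `mem_range_of_forall_heightOne` : `B = ⋂_{ht 𝔭 = 1} B_𝔭` (fraction-free form).
-/

set_option autoImplicit false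
set_option linter.unusedSectionVars false

namespace Fermat.Agent.GL.KrullHeightOne

variable {B F : Type*} [CommRing B] [IsDomain B] [Field F] [Algebra B F] [IsFractionRing B F]

/-- the denominator ideal of `x : F` -/
def den (x : F) : Ideal B :=
  (LinearMap.range (Algebra.linearMap B F)).comap (LinearMap.toSpanSingleton B F x)

theorem mem_den {x : F} {s : B} : s ∈ den (B := B) x ↔ ∃ a : B, algebraMap B F a = s • x := by
  simp only [den, Submodule.mem_comap, LinearMap.toSpanSingleton_apply, LinearMap.mem_range,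
    Algebra.linearMap_apply]

theorem one_mem_den_iff {x : F} : (1 : B) ∈ den (B := B) x ↔ x ∈ (algebraMap B F).range := by
  rw [mem_den, one_smul]
  rfl

theorem den_smul_le (c : B) (x : F) : den (B := B) x ≤ den (B := B) (c • x) := by
  intro s hs
  obtain ⟨a, ha⟩ := mem_den.1 hs
  refine mem_den.2 ⟨c * a, ?_⟩
  rw [map_mul, ha, Algebra.smul_def, Algebra.smul_def, Algebra.smul_def]
  ring

theorem den_ne_bot (x : F) : den (B := B) x ≠ ⊥ := by
  obtain ⟨a, s, hs, rfl⟩ := IsFractionRing.div_surjective (A := B) x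
  have hs0 : s ≠ 0 := nonZeroDivisors.ne_zero hs
  intro h
  have : s ∈ den (B := B) (algebraMap B F a / algebraMap B F s) := by
    refine mem_den.2 ⟨a, ?_⟩
    rw [Algebra.smul_def]
    have : algebraMap B F s ≠ 0 := by
      intro h0
      exact hs0 ((map_eq_zero_iff _ (IsFractionRing.injective B F)).1 h0)
    field_simp
  rw [h] at this
  exact hs0 this

/-! ### A prime denominator ideal -/

section Noeth

variable [IsNoetherianRing B]

/-- If `x ∉ B`, some multiple `c • x ∉ B` has a PRIME denominator ideal (an associated prime of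
`(B + B x) / B`). -/
theorem exists_isPrime_den {x : F} (hx : x ∉ (algebraMap B F).range) :
    ∃ c : B, c • x ∉ (algebraMap B F).range ∧ (den (B := B) (c • x)).IsPrime := by
  classical
  let 𝒮 : Set (Ideal B) := {I | ∃ c : B, c • x ∉ (algebraMap B F).range ∧ I = den (c • x)}
  have hne : 𝒮.Nonempty := ⟨den ((1 : B) • x), 1, by rwa [one_smul], rfl⟩
  obtain ⟨𝔭, ⟨c, hc, rfl⟩, hmax⟩ :=
    (set_has_maximal_iff_noetherian (R := B) (M := B)).2 inferInstance 𝒮 hne
  refine ⟨c, hc, ?_⟩
  rw [Ideal.isPrime_iff]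
  refine ⟨?_, ?_⟩
  · intro htop
    apply hc
    rw [← one_mem_den_iff, htop]
    trivial
  · intro s t hst
    by_contra hcon
    push Not at hcon
    obtain ⟨hs, ht⟩ := hcon
    have hs' : (s * c) • x ∉ (algebraMap B F).range := by
      rintro ⟨a, ha⟩
      exact hs (mem_den.2 ⟨a, by rw [ha, mul_smul]⟩)
    have hle : den (B := B) (c • x) ≤ den ((s * c) • x) := by
      rw [mul_smul]
      exact den_smul_le s _
    have hmem : den (B := B) ((s * c) • x) ∈ 𝒮 := ⟨s * c, hs', rfl⟩
    have heq : den (B := B) (c • x) = den ((s * c) • x) := by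
      by_contra hne'
      exact hmax _ hmem (lt_of_le_of_ne hle hne')
    apply ht
    rw [heq]
    obtain ⟨a, ha⟩ := mem_den.1 hst
    refine mem_den.2 ⟨a, ?_⟩
    rw [ha, mul_smul, mul_smul]
    exact smul_comm s t _

/-- **The key step**: a prime denominator ideal of an element `y ∉ B` has height one (`B`
noetherian and integrally closed). -/
theorem height_den_eq_one [IsIntegrallyClosed B] {y : F} (hy : y ∉ (algebraMap B F).range)
    (hp : (den (B := B) y).IsPrime) : (den (B := B) y).height = 1 := by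
  by_cases hstab : ∀ s ∈ den (B := B) y, ∀ a : B, algebraMap B F a = s • y → a ∈ den (B := B) y
  · -- `y • 𝔭 ⊆ 𝔭`: then `y` is integral over `B`
    exfalso
    apply hy
    have hint : IsIntegral B y := by
      refine isIntegral_of_smul_mem_submodule (M := F)
        (Submodule.map (Algebra.linearMap B F) (den (B := B) y)) ?_ ?_ y ?_
      · intro h
        apply den_ne_bot (B := B) y
        rw [eq_bot_iff]
        intro s hs
        have hmem : algebraMap B F s ∈
            Submodule.map (Algebra.linearMap B F) (den (B := B) y) := ⟨s, hs, rfl⟩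
        rw [h, Submodule.mem_bot] at hmem
        exact (Submodule.mem_bot B).2 ((map_eq_zero_iff _ (IsFractionRing.injective B F)).1 hmem)
      · exact Submodule.FG.map _ (IsNoetherian.noetherian _)
      · rintro _ ⟨s, hs, rfl⟩
        obtain ⟨a, ha⟩ := mem_den.1 hs
        refine ⟨a, hstab s hs a ha, ?_⟩
        rw [Algebra.linearMap_apply, Algebra.linearMap_apply, ha, Algebra.smul_def, smul_eq_mul,
          mul_comm]
    obtain ⟨a, ha⟩ := IsIntegrallyClosed.isIntegral_iff.1 hint
    exact ⟨a, ha⟩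
  · push Not at hstab
    obtain ⟨t₀, ht₀, u, hu, hup⟩ := hstab
    have hmin : den (B := B) y ∈ (Ideal.span {t₀}).minimalPrimes := by
      refine ⟨⟨hp, (Ideal.span_singleton_le_iff_mem _).2 ht₀⟩, ?_⟩
      rintro 𝔮 ⟨hq, hq'⟩ hle m hm
      obtain ⟨b, hb⟩ := mem_den.1 hm
      have hum : u * m = t₀ * b := by
        apply IsFractionRing.injective B F
        rw [map_mul, map_mul, hu, hb, Algebra.smul_def, Algebra.smul_def]
        ring
      have h1 : u * m ∈ 𝔮 := by
        rw [hum]
        exact 𝔮.mul_mem_right _ (hq' (Ideal.mem_span_singleton_self t₀))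
      rcases hq.mem_or_mem h1 with h | h
      · exact absurd (hle h) hup
      · exact h
    have h1 : (den (B := B) y).height ≤ 1 :=
      Ideal.height_le_one_of_isPrincipal_of_mem_minimalPrimes _ _ hmin
    have h0 : (den (B := B) y).height ≠ 0 := by
      rw [Ne, Ideal.height_eq_zero_iff_eq_bot]
      exact den_ne_bot y
    exact le_antisymm h1 (Order.one_le_iff_ne_zero.2 h0)

variable [IsIntegrallyClosed B]

/-- If `x ∉ B` there is a height-one prime `𝔭` with `x ∉ B_𝔭`. -/
theorem exists_heightOne_of_not_mem {x : F} (hx : x ∉ (algebraMap B F).range) :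
    ∃ 𝔭 : Ideal B, 𝔭.IsPrime ∧ 𝔭.height = 1 ∧
      ∀ s : B, s ∉ 𝔭 → s • x ∉ (algebraMap B F).range := by
  obtain ⟨c, hc, hp⟩ := exists_isPrime_den hx
  refine ⟨den (c • x), hp, height_den_eq_one hc hp, fun s hs h => hs ?_⟩
  obtain ⟨a, ha⟩ := h
  refine mem_den.2 ⟨c * a, ?_⟩
  rw [map_mul, ha, smul_comm, Algebra.smul_def c]

/-- **`B = ⋂_{ht 𝔭 = 1} B_𝔭`**, fraction-free form. -/
theorem mem_range_of_forall_heightOne (x : F)
    (h : ∀ 𝔭 : Ideal B, 𝔭.IsPrime → 𝔭.height = 1 →
      ∃ s : B, s ∉ 𝔭 ∧ s • x ∈ (algebraMap B F).range) :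
    x ∈ (algebraMap B F).range := by
  by_contra hx
  obtain ⟨𝔭, hp, h1, hs⟩ := exists_heightOne_of_not_mem hx
  obtain ⟨s, hs1, hs2⟩ := h 𝔭 hp h1
  exact hs s hs1 hs2

end Noeth

/-! ### The height-one localisations as (discrete) valuation subrings of `F` -/

section LocSub

variable (𝔭 : Ideal B) [hp : 𝔭.IsPrime]

theorem primeCompl_le_nonZeroDivisors : 𝔭.primeCompl ≤ nonZeroDivisors B := fun _ hs =>
  mem_nonZeroDivisors_of_ne_zero fun h => hs (h ▸ 𝔭.zero_mem)

variable (F) in
/-- `B_𝔭` as a subalgebra of the fraction field `F`. -/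
noncomputable def locSub : Subalgebra B F :=
  Localization.subalgebra.ofField F 𝔭.primeCompl (primeCompl_le_nonZeroDivisors 𝔭)

instance : IsLocalization.AtPrime (locSub F 𝔭) 𝔭 :=
  Localization.subalgebra.isLocalization_ofField F 𝔭.primeCompl (primeCompl_le_nonZeroDivisors 𝔭)

instance : IsFractionRing (locSub F 𝔭) F :=
  Localization.subalgebra.isFractionRing_ofField F 𝔭.primeCompl (primeCompl_le_nonZeroDivisors 𝔭)

theorem algebraMap_ne_zero_of_not_mem {s : B} (hs : s ∉ 𝔭) : algebraMap B F s ≠ 0 := fun h0 =>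
  hs (((map_eq_zero_iff _ (IsFractionRing.injective B F)).1 h0) ▸ 𝔭.zero_mem)

/-- fraction-free description of `B_𝔭 ⊆ F` -/
theorem mem_locSub_iff {x : F} :
    x ∈ locSub F 𝔭 ↔ ∃ s : B, s ∉ 𝔭 ∧ s • x ∈ (algebraMap B F).range := by
  constructor
  · rintro ⟨a, s, hs, rfl⟩
    refine ⟨s, hs, a, ?_⟩
    have h0 := algebraMap_ne_zero_of_not_mem (F := F) 𝔭 hs
    rw [Algebra.smul_def]
    field_simp
  · rintro ⟨s, hs, a, ha⟩
    refine ⟨a, s, hs, ?_⟩
    have h0 := algebraMap_ne_zero_of_not_mem (F := F) 𝔭 hs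
    rw [ha, Algebra.smul_def]
    field_simp

theorem algebraMap_mem_locSub (b : B) : algebraMap B F b ∈ locSub F 𝔭 :=
  (locSub F 𝔭).algebraMap_mem b

variable [IsNoetherianRing B] [IsIntegrallyClosed B]

/-- **`B_𝔭` is a discrete valuation ring for `𝔭` of height one.** -/
theorem isDiscreteValuationRing_locSub (h1 : 𝔭.height = 1) :
    IsDiscreteValuationRing (locSub F 𝔭) := by
  have : IsLocalRing (locSub F 𝔭) := IsLocalization.AtPrime.isLocalRing (locSub F 𝔭) 𝔭
  have : IsNoetherianRing (locSub F 𝔭) :=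
    IsLocalization.isNoetherianRing 𝔭.primeCompl (locSub F 𝔭) inferInstance
  have : IsIntegrallyClosed (locSub F 𝔭) :=
    isIntegrallyClosed_of_isLocalization (locSub F 𝔭) 𝔭.primeCompl
      (primeCompl_le_nonZeroDivisors 𝔭)
  have hdim : ringKrullDim (locSub F 𝔭) = 1 := by
    rw [IsLocalization.AtPrime.ringKrullDim_eq_height 𝔭 (locSub F 𝔭), h1]
    rfl
  have hnf : ¬ IsField (locSub F 𝔭) := fun hf => by
    have := ringKrullDim_eq_zero_of_isField hf
    rw [hdim] at this
    exact one_ne_zero this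
  have hle : Ring.KrullDimLE 1 (locSub F 𝔭) := Ring.krullDimLE_iff.mpr (by rw [hdim]; rfl)
  have key : IsDiscreteValuationRing (locSub F 𝔭) ↔
      (IsIntegrallyClosed (locSub F 𝔭) ∧ ∃! P : Ideal (locSub F 𝔭), P ≠ ⊥ ∧ P.IsPrime) :=
    (IsDiscreteValuationRing.TFAE (locSub F 𝔭) hnf).out 0 3
  refine key.2 ⟨inferInstance, ?_⟩
  have hm : IsLocalRing.maximalIdeal (locSub F 𝔭) ≠ ⊥ :=
    IsLocalRing.isField_iff_maximalIdeal_eq.not.mp hnf
  refine ⟨IsLocalRing.maximalIdeal _, ⟨hm, inferInstance⟩, ?_⟩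
  rintro P ⟨hP0, hPp⟩
  exact IsLocalRing.eq_maximalIdeal
    (Ring.krullDimLE_one_iff_of_noZeroDivisors.mp hle P hP0 hPp)

/-- the valuation subring `B_𝔭 ⊆ F` of a height-one prime -/
noncomputable def valSub (h1 : 𝔭.height = 1) : ValuationSubring F :=
  { (locSub F 𝔭).toSubring with
    mem_or_inv_mem' := fun x => by
      have := isDiscreteValuationRing_locSub (F := F) 𝔭 h1
      rcases ValuationRing.isInteger_or_isInteger (locSub F 𝔭) x with ⟨a, ha⟩ | ⟨a, ha⟩
      · left
        rw [← ha]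
        exact a.2
      · right
        rw [← ha]
        exact a.2 }

theorem mem_valSub_iff (h1 : 𝔭.height = 1) {x : F} :
    x ∈ valSub 𝔭 h1 ↔ ∃ s : B, s ∉ 𝔭 ∧ s • x ∈ (algebraMap B F).range :=
  mem_locSub_iff 𝔭

theorem algebraMap_mem_valSub (h1 : 𝔭.height = 1) (b : B) : algebraMap B F b ∈ valSub 𝔭 h1 :=
  algebraMap_mem_locSub 𝔭 b

end LocSub

/-! ### Consumer forms -/

section Consumers

variable [IsNoetherianRing B] [IsIntegrallyClosed B]

/-- **`B = ⋂_{ht 𝔭 = 1} B_𝔭`**, valuation-subring form. -/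
theorem mem_range_iff_forall_valSub (x : F) :
    x ∈ (algebraMap B F).range ↔
      ∀ (𝔭 : Ideal B) (_ : 𝔭.IsPrime) (h1 : 𝔭.height = 1), x ∈ valSub 𝔭 h1 := by
  constructor
  · rintro ⟨b, rfl⟩ 𝔭 _ h1
    exact algebraMap_mem_valSub 𝔭 h1 b
  · intro h
    refine mem_range_of_forall_heightOne x fun 𝔭 hp h1 => ?_
    exact (mem_valSub_iff 𝔭 h1).1 (h 𝔭 hp h1)

/-- A family of valuation subrings containing all the height-one ones cuts out `B`. -/
theorem mem_range_of_forall_mem {ι : Type*} (V : ι → ValuationSubring F)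
    (hV : ∀ (𝔭 : Ideal B) (_ : 𝔭.IsPrime) (h1 : 𝔭.height = 1), ∃ i, V i ≤ valSub 𝔭 h1)
    (x : F) (hx : ∀ i, x ∈ V i) : x ∈ (algebraMap B F).range := by
  rw [mem_range_iff_forall_valSub]
  intro 𝔭 hp h1
  obtain ⟨i, hi⟩ := hV 𝔭 hp h1
  exact hi (hx i)

/-- a height-one prime containing `π ≠ 0` is a minimal prime of `(π)` -/
theorem mem_minimalPrimes_span_of_height_one {π : B} (hπ : π ≠ 0) (𝔮 : Ideal B) [𝔮.IsPrime]
    (h1 : 𝔮.height = 1) (hπq : π ∈ 𝔮) : 𝔮 ∈ (Ideal.span {π}).minimalPrimes := by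
  refine Ideal.mem_minimalPrimes_of_height_le ((Ideal.span_singleton_le_iff_mem _).2 hπq) ?_
  rw [h1]
  exact Ideal.one_le_height_span_singleton_of_mem_nonZeroDivisors
    (mem_nonZeroDivisors_of_ne_zero hπ)

/-- conversely a minimal prime of `(π)`, `π ≠ 0`, has height one (Krull) -/
theorem height_eq_one_of_mem_minimalPrimes_span {π : B} (hπ : π ≠ 0) {𝔮 : Ideal B}
    (hq : 𝔮 ∈ (Ideal.span {π}).minimalPrimes) : 𝔮.height = 1 := by
  have h1 : 𝔮.height ≤ 1 := Ideal.height_le_one_of_isPrincipal_of_mem_minimalPrimes _ _ hq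
  have h0 : 𝔮.height ≠ 0 := by
    rw [Ne, Ideal.height_eq_zero_iff_eq_bot]
    intro h
    apply hπ
    have : π ∈ 𝔮 := hq.1.2 (Ideal.mem_span_singleton_self π)
    rw [h] at this
    exact this
  exact le_antisymm h1 (Order.one_le_iff_ne_zero.2 h0)

/-- **vertical / horizontal form**: `x ∈ B` iff `x ∈ B[1/π]` (`x` is regular on the generic
fibre) and `x ∈ B_𝔮` for the finitely many minimal primes `𝔮` of `(π)` (the vertical
valuations). -/
theorem mem_range_of_horizontal_of_vertical {π : B} (hπ : π ≠ 0) (x : F)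
    (hhor : ∃ n : ℕ, π ^ n • x ∈ (algebraMap B F).range)
    (hver : ∀ 𝔮 ∈ (Ideal.span {π}).minimalPrimes,
      ∃ s : B, s ∉ 𝔮 ∧ s • x ∈ (algebraMap B F).range) :
    x ∈ (algebraMap B F).range := by
  refine mem_range_of_forall_heightOne x fun 𝔮 hq h1 => ?_
  by_cases hπq : π ∈ 𝔮
  · exact hver 𝔮 (mem_minimalPrimes_span_of_height_one hπ 𝔮 h1 hπq)
  · obtain ⟨n, hn⟩ := hhor
    exact ⟨π ^ n, fun h => hπq (hq.mem_of_pow_mem n h), hn⟩

/-- the vertical valuation subrings: minimal primes of `(π)` -/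
noncomputable def vertSub {π : B} (hπ : π ≠ 0) (𝔮 : (Ideal.span {π}).minimalPrimes) :
    ValuationSubring F :=
  haveI := 𝔮.2.isPrime
  valSub 𝔮.1 (height_eq_one_of_mem_minimalPrimes_span hπ 𝔮.2)

theorem finite_minimalPrimes_span (π : B) : (Ideal.span {π}).minimalPrimes.Finite :=
  Ideal.finite_minimalPrimes_of_isNoetherianRing B _

/-- `π` is a non-unit of every vertical valuation subring. -/
theorem not_inv_mem_vertSub {π : B} (hπ : π ≠ 0) (𝔮 : (Ideal.span {π}).minimalPrimes) :
    (algebraMap B F π)⁻¹ ∉ vertSub (F := F) hπ 𝔮 := by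
  have := 𝔮.2.isPrime
  intro h
  obtain ⟨s, hs, a, ha⟩ := (mem_valSub_iff 𝔮.1 _).1 h
  apply hs
  have hπq : π ∈ 𝔮.1 := 𝔮.2.1.2 (Ideal.mem_span_singleton_self π)
  have h0 : algebraMap B F π ≠ 0 := fun h0 =>
    hπ ((map_eq_zero_iff _ (IsFractionRing.injective B F)).1 h0)
  have : s = π * a := by
    apply IsFractionRing.injective B F
    rw [map_mul, ha, Algebra.smul_def]
    field_simp
  rw [this]
  exact 𝔮.1.mul_mem_right _ hπq

end Consumers

/-! ### The integral-closure package (FRAME): `B := integralClosure A F` for `A = R[j]` -/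

section Package

variable (A K : Type*) [CommRing A] [IsDomain A] [IsNoetherianRing A] [IsIntegrallyClosed A]
  [Field K] [Algebra A K] [IsFractionRing A K]
  (L : Type*) [Field L] [Algebra K L] [Algebra A L] [IsScalarTower A K L]
  [FiniteDimensional K L] [Algebra.IsSeparable K L]

include K in
/-- The integral closure of a noetherian integrally closed domain `A` in a finite separable
extension `L` of `Frac A` is a noetherian integrally closed domain, finite over `A`, with fraction
field `L`. -/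
theorem integralClosure_package :
    IsNoetherianRing (integralClosure A L) ∧ Module.Finite A (integralClosure A L) ∧
      IsIntegrallyClosed (integralClosure A L) ∧ IsFractionRing (integralClosure A L) L :=
  ⟨IsIntegralClosure.isNoetherianRing A K L (integralClosure A L),
    IsIntegralClosure.finite A K L (integralClosure A L),
    integralClosure.isIntegrallyClosedOfFiniteExtension K,
    integralClosure.isFractionRing_of_finite_extension K L⟩

include K in
/-- **FRAME, abstract form**: an element of `L` lying in every height-one localisation of the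
integral closure `B` of `A` in `L` is integral over `A`. -/
theorem isIntegral_of_forall_heightOne (x : L)
    (h : ∀ 𝔭 : Ideal (integralClosure A L), 𝔭.IsPrime → 𝔭.height = 1 →
      ∃ s : integralClosure A L, s ∉ 𝔭 ∧ IsIntegral A ((s : L) * x)) : IsIntegral A x := by
  obtain ⟨h1, -, h3, h4⟩ := integralClosure_package A K L
  have hx : x ∈ (algebraMap (integralClosure A L) L).range := by
    refine mem_range_of_forall_heightOne x fun 𝔭 hp hh => ?_
    obtain ⟨s, hs, hsx⟩ := h 𝔭 hp hh
    exact ⟨s, hs, ⟨⟨_, hsx⟩, by rw [Algebra.smul_def]; rfl⟩⟩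
  obtain ⟨b, rfl⟩ := hx
  exact b.2

end Package

end Fermat.Agent.GL.KrullHeightOne
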