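/-
GATE-L prep brick INTCLOSURE-VAL (helper79).  Mathlib only.

`A` an integrally closed domain with fraction field `K`, `F / K` an algebraic field extension,
`B` the integral closure of `A` in `F`.  If `A = ⋂_{p ∈ Ps} A_p` for a set `Ps` of primes with every
`A_p` a rank-one valuation ring (height-one primes of a Krull domain; the prime elements of a UFD),
then

  `x ∈ B  ↔  x ∈ V` for every valuation subring `V` of `F` with `V ∩ K = A_p` for some `p ∈ Ps`

("the integral closure is the intersection of ALL extensions of the essential valuations of `A`").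
For `A = R[h]` (`R` a DVR with uniformiser `q`): `B_R` := integral closure of `R[h]` in `F_L` is
cut out by the horizontal places regular at `h` and ALL extensions of the Gauss valuation.
Everything is stated fraction-free.
-/
import Mathlib

set_option autoImplicit false
set_option linter.unusedSectionVars false

namespace Fermat.Agent.GL.IntClosureVal

open Polynomial

section Generic

variable {A : Type*} [CommRing A] [IsDomain A]
variable {K : Type*} [Field K] [Algebra A K] [IsFractionRing A K]

/-- `y ∈ A_p`, fraction-free. -/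
def InLoc (p : Ideal A) (y : K) : Prop :=
  ∃ a s : A, s ∉ p ∧ y * algebraMap A K s = algebraMap A K a

theorem inLoc_algebraMap (p : Ideal A) [p.IsPrime] (a : A) : InLoc p (algebraMap A K a) :=
  ⟨a, 1, fun h => (Ideal.IsPrime.ne_top ‹_›) ((Ideal.eq_top_iff_one p).mpr h), by simp⟩

theorem algebraMap_ne_zero_of_notMem {p : Ideal A} {s : A} (hs : s ∉ p) :
    algebraMap A K s ≠ 0 := by
  intro h
  apply hs
  rw [(map_eq_zero_iff _ (IsFractionRing.injective A K)).mp h]
  exact p.zero_mem

/-- the localisation `A_p` as a subalgebra of `K` (Mathlib's `Localization.subalgebra.ofField`). -/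
noncomputable abbrev locSub (K : Type*) [Field K] [Algebra A K] [IsFractionRing A K]
    (p : Ideal A) [p.IsPrime] : Subalgebra A K :=
  Localization.subalgebra.ofField K p.primeCompl p.primeCompl_le_nonZeroDivisors

theorem inLoc_iff_mem_locSub (p : Ideal A) [p.IsPrime] (y : K) :
    InLoc p y ↔ y ∈ locSub K p := by
  constructor
  · rintro ⟨a, s, hs, h⟩
    refine ⟨a, s, hs, ?_⟩
    rw [← h, mul_assoc, mul_inv_cancel₀ (algebraMap_ne_zero_of_notMem hs), mul_one]
  · rintro ⟨a, s, hs, h⟩
    refine ⟨a, s, hs, ?_⟩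
    rw [h, mul_assoc, inv_mul_cancel₀ (algebraMap_ne_zero_of_notMem hs), mul_one]

theorem InLoc.mul {p : Ideal A} [p.IsPrime] {y z : K} (hy : InLoc p y) (hz : InLoc p z) :
    InLoc p (y * z) := by
  rw [inLoc_iff_mem_locSub] at *
  exact mul_mem hy hz

theorem InLoc.pow {p : Ideal A} [p.IsPrime] {y : K} (hy : InLoc p y) (n : ℕ) :
    InLoc p (y ^ n) := by
  rw [inLoc_iff_mem_locSub] at *
  exact pow_mem hy n

theorem inLoc_inv_algebraMap {p : Ideal A} {s : A} (hs : s ∉ p) :
    InLoc p (algebraMap A K s)⁻¹ :=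
  ⟨1, s, hs, by rw [inv_mul_cancel₀ (algebraMap_ne_zero_of_notMem hs), map_one]⟩

variable {F : Type*} [Field F] [Algebra A F] [Algebra K F] [IsScalarTower A K F]

theorem mul_mem_nonunits (V : ValuationSubring F) {a b : F} (ha : a ∈ V.nonunits) (hb : b ∈ V) :
    a * b ∈ V.nonunits := by
  rw [V.mem_nonunits_iff] at *
  have hb' : V.valuation b ≤ 1 := (V.valuation_le_one_iff b).mpr hb
  calc V.valuation (a * b) = V.valuation a * V.valuation b := map_mul _ _ _
    _ ≤ V.valuation a * 1 := mul_le_mul' le_rfl hb'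
    _ < 1 := by simpa using ha

/-- a valuation subring of an algebraic extension `F / K` containing `K` is everything. -/
theorem mem_of_forall_algebraMap_mem [Algebra.IsAlgebraic K F] (V : ValuationSubring F)
    (hK : ∀ y : K, algebraMap K F y ∈ V) (x : F) : x ∈ V := by
  have hx : IsIntegral K x := (Algebra.IsAlgebraic.isAlgebraic x).isIntegral
  let φ : K →+* V := (algebraMap K F).codRestrict V.toSubring hK
  have hint : IsIntegral V x := by
    refine ⟨(minpoly K x).map φ, (minpoly.monic hx).map φ, ?_⟩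
    rw [Polynomial.eval₂_map]
    have : (algebraMap V F).comp φ = algebraMap K F := by
      ext y; rfl
    rw [this]
    exact minpoly.aeval K x
  obtain ⟨y, hy⟩ := (IsIntegrallyClosed.isIntegral_iff (R := V) (K := F)).mp hint
  rw [← hy]
  exact y.2

/-- **Layer 1**: an element which is not integral over `A_p` is missed by some valuation subring
containing `A_p`. -/
theorem exists_valuationSubring_of_not_isIntegral (p : Ideal A) [p.IsPrime] (x : F)
    (hx : ¬ IsIntegral (locSub K p) x) :
    ∃ V : ValuationSubring F, (∀ y : K, InLoc p y → algebraMap K F y ∈ V) ∧ x ∉ V := by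
  have hxR : x ∉ (integralClosure (locSub K p) F).toSubring := fun h => hx h
  obtain ⟨V, hV, hxV⟩ := Subring.exists_le_valuationSubring_of_isIntegrallyClosedIn hxR
  refine ⟨V, fun y hy => hV ?_, hxV⟩
  rw [inLoc_iff_mem_locSub] at hy
  have : IsIntegral (locSub K p) (algebraMap (locSub K p) F ⟨y, hy⟩) := isIntegral_algebraMap
  exact this

/-- if some coefficient of the minimal polynomial over `K` is not in `A_p`, then `x` is not
integral over `A_p` (`A` integrally closed). -/
theorem not_isIntegral_locSub_of_coeff [IsIntegrallyClosed A] (p : Ideal A) [p.IsPrime] (x : F)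
    (i : ℕ) (hc : ¬ InLoc p ((minpoly K x).coeff i)) : ¬ IsIntegral (locSub K p) x := by
  intro h
  have : IsIntegrallyClosed (locSub K p) :=
    isIntegrallyClosed_of_isLocalization (locSub K p) p.primeCompl p.primeCompl_le_nonZeroDivisors
  have h1 := minpoly.isIntegrallyClosed_eq_field_fractions' K h
  apply hc
  rw [h1, Polynomial.coeff_map, inLoc_iff_mem_locSub]
  exact ((minpoly (locSub K p) x).coeff i).2

/-- **generic theorem**.  `Ps` a set of primes of the integrally closed domain `A` such that every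
`A_p` (`p ∈ Ps`) is a valuation ring of rank one and `A = ⋂_{p ∈ Ps} A_p`.  An element `x` of the
algebraic extension `F / K` lying in every valuation subring `V` of `F` with `V ∩ K = A_p`
for some `p ∈ Ps` is integral over `A`. -/
theorem isIntegral_of_forall_mem [IsIntegrallyClosed A] [Algebra.IsAlgebraic K F]
    (Ps : Set (Ideal A)) (hprime : ∀ p ∈ Ps, p.IsPrime)
    (hv1 : ∀ p ∈ Ps, ∀ y : K, y ≠ 0 → InLoc p y ∨ InLoc p y⁻¹)
    (hv2 : ∀ p ∈ Ps, ∀ t ∈ p, t ≠ 0 → ∀ z : K, ∃ n : ℕ, InLoc p (z * algebraMap A K t ^ n))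
    (hH : ∀ c : K, (∀ p ∈ Ps, InLoc p c) → c ∈ (algebraMap A K).range)
    (x : F)
    (hx : ∀ V : ValuationSubring F, ∀ p ∈ Ps,
      (∀ y : K, algebraMap K F y ∈ V ↔ InLoc p y) → x ∈ V) :
    IsIntegral A x := by
  by_contra hni
  have hxK : IsIntegral K x := (Algebra.IsAlgebraic.isAlgebraic x).isIntegral
  -- some coefficient of the minimal polynomial is not in `A`
  have hcoef : ∃ i, (minpoly K x).coeff i ∉ (algebraMap A K).range := by
    by_contra hall
    push Not at hall
    apply hni
    have hl : minpoly K x ∈ Polynomial.lifts (algebraMap A K) := by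
      rw [Polynomial.lifts_iff_coeff_lifts]
      intro n
      exact hall n
    obtain ⟨g, hg, -, hgm⟩ := Polynomial.lifts_and_degree_eq_and_monic hl (minpoly.monic hxK)
    refine ⟨g, hgm, ?_⟩
    have h0 : Polynomial.aeval x (g.map (algebraMap A K)) = 0 := by
      rw [hg]; exact minpoly.aeval K x
    rwa [Polynomial.aeval_map_algebraMap] at h0
  obtain ⟨i, hi⟩ := hcoef
  have hp : ∃ p ∈ Ps, ¬ InLoc p ((minpoly K x).coeff i) := by
    by_contra hall
    push Not at hall
    exact hi (hH _ hall)
  obtain ⟨p, hpPs, hpi⟩ := hp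
  have := hprime p hpPs
  obtain ⟨V, hV, hxV⟩ := exists_valuationSubring_of_not_isIntegral p x
    (not_isIntegral_locSub_of_coeff p x i hpi)
  apply hxV
  -- the centre of `V` on `A` is `p`
  have hcentre : ∀ t ∈ p, algebraMap A F t ∈ V.nonunits := by
    intro t ht
    by_contra hnon
    have ht0 : t ≠ 0 := by
      rintro rfl
      apply hnon
      rw [map_zero]
      exact V.nonunits.zero_mem
    have htF : algebraMap A F t ≠ 0 := by
      rw [IsScalarTower.algebraMap_apply A K F]
      intro h0
      have := (map_eq_zero_iff _ (algebraMap K F).injective).mp h0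
      exact ht0 ((map_eq_zero_iff _ (IsFractionRing.injective A K)).mp this)
    have htV : algebraMap A F t ∈ V := by
      rw [IsScalarTower.algebraMap_apply A K F]
      exact hV _ (inLoc_algebraMap p t)
    -- `t` is a unit of `V`
    have hinv : (algebraMap A F t)⁻¹ ∈ V := by
      by_contra hinv
      apply hnon
      have := (V.inv_mem_nonunits_iff (x := (algebraMap A F t)⁻¹)).mpr (Or.inr hinv)
      rwa [inv_inv] at this
    refine hxV (mem_of_forall_algebraMap_mem (K := K) V (fun z => ?_) x)
    obtain ⟨n, hn⟩ := hv2 p hpPs t ht ht0 z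
    have h1 := hV _ hn
    have h2 : algebraMap K F z =
        algebraMap K F (z * algebraMap A K t ^ n) * ((algebraMap A F t)⁻¹) ^ n := by
      rw [map_mul, map_pow, ← IsScalarTower.algebraMap_apply A K F, mul_assoc, ← mul_pow,
        mul_inv_cancel₀ htF, one_pow, mul_one]
    rw [h2]
    exact V.mul_mem _ _ h1 (pow_mem hinv n)
  refine hx V p hpPs (fun y => ⟨fun hy => ?_, hV y⟩)
  by_contra hny
  have hy0 : y ≠ 0 := by
    rintro rfl
    exact hny (by simpa using inLoc_algebraMap (K := K) p 0)
  obtain ⟨a, s, hs, has⟩ := (hv1 p hpPs y hy0).resolve_left hny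
  -- `y⁻¹ = a / s` with `a ∈ p`
  have hap : a ∈ p := by
    by_contra hap
    apply hny
    refine ⟨s, a, hap, ?_⟩
    rw [← has, mul_comm y, mul_comm y⁻¹, mul_assoc, inv_mul_cancel₀ hy0, mul_one]
  have hyF : algebraMap K F y ≠ 0 := fun h0 =>
    hy0 ((map_eq_zero_iff _ (algebraMap K F).injective).mp h0)
  -- `y⁻¹ = a * s⁻¹` is a non-unit of `V`, but `y ∈ V`
  have h1 : (algebraMap K F y)⁻¹ = algebraMap A F a * algebraMap K F (algebraMap A K s)⁻¹ := by
    rw [IsScalarTower.algebraMap_apply A K F, ← map_mul, ← has, mul_assoc,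
      mul_inv_cancel₀ (algebraMap_ne_zero_of_notMem hs), mul_one, map_inv₀]
  have h2 : (algebraMap K F y)⁻¹ ∈ V.nonunits := by
    rw [h1]
    exact mul_mem_nonunits V (hcentre a hap) (hV _ (inLoc_inv_algebraMap hs))
  rcases (V.inv_mem_nonunits_iff).mp h2 with h3 | h3
  · exact hyF h3
  · exact h3 hy

/-- integral elements lie in every valuation subring containing `A` (the easy direction). -/
theorem mem_of_isIntegral (V : ValuationSubring F) (hA : ∀ a : A, algebraMap A F a ∈ V) {x : F}
    (hx : IsIntegral A x) : x ∈ V := by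
  let φ : A →+* V := (algebraMap A F).codRestrict V.toSubring hA
  obtain ⟨g, hgm, hg⟩ := hx
  have hint : IsIntegral V x := by
    refine ⟨g.map φ, hgm.map φ, ?_⟩
    rw [Polynomial.eval₂_map]
    have : (algebraMap V F).comp φ = algebraMap A F := by
      ext y; rfl
    rw [this]
    exact hg
  obtain ⟨y, hy⟩ := (IsIntegrallyClosed.isIntegral_iff (R := V) (K := F)).mp hint
  rw [← hy]
  exact y.2

/-- a valuation subring `V` with `V ∩ K = A_p` contains `A` and has centre `p` on `A`. -/
theorem centre_of_comap_eq (p : Ideal A) [p.IsPrime] (V : ValuationSubring F)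
    (hV : ∀ y : K, algebraMap K F y ∈ V ↔ InLoc p y) :
    (∀ a : A, algebraMap A F a ∈ V) ∧ ∀ a : A, algebraMap A F a ∈ V.nonunits ↔ a ∈ p := by
  refine ⟨fun a => ?_, fun a => ?_⟩
  · rw [IsScalarTower.algebraMap_apply A K F]
    exact (hV _).mpr (inLoc_algebraMap p a)
  · rw [V.mem_nonunits_iff_or, IsScalarTower.algebraMap_apply A K F, ← map_inv₀, hV]
    constructor
    · rintro (h0 | h)
      · have h1 := (map_eq_zero_iff _ (algebraMap K F).injective).mp h0
        rw [(map_eq_zero_iff _ (IsFractionRing.injective A K)).mp h1]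
        exact p.zero_mem
      · by_contra hap
        exact h (inLoc_inv_algebraMap hap)
    · intro hap
      by_cases ha0 : a = 0
      · left; rw [ha0, map_zero, map_zero]
      · right
        rintro ⟨b, s, hs, h⟩
        apply hs
        have haK : algebraMap A K a ≠ 0 := fun h0 =>
          ha0 ((map_eq_zero_iff _ (IsFractionRing.injective A K)).mp h0)
        have : s = a * b := by
          apply IsFractionRing.injective A K
          rw [map_mul, ← h, ← mul_assoc, mul_inv_cancel₀ haK, one_mul]
        rw [this]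
        exact p.mul_mem_right _ hap

/-- conversely: a valuation subring containing `A` with centre `p`, where `A_p` is a valuation
ring, satisfies `V ∩ K = A_p`. -/
theorem comap_eq_of_centre (p : Ideal A) [p.IsPrime]
    (hv1 : ∀ y : K, y ≠ 0 → InLoc p y ∨ InLoc p y⁻¹) (V : ValuationSubring F)
    (hA : ∀ a : A, algebraMap A F a ∈ V)
    (hc : ∀ a : A, algebraMap A F a ∈ V.nonunits ↔ a ∈ p) (y : K) :
    algebraMap K F y ∈ V ↔ InLoc p y := by
  have hunit : ∀ s : A, s ∉ p → (algebraMap A F s)⁻¹ ∈ V := by
    intro s hs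
    by_contra hinv
    apply hs
    rw [← hc, V.mem_nonunits_iff_or]
    exact Or.inr hinv
  have hloc : ∀ z : K, InLoc p z → algebraMap K F z ∈ V := by
    rintro z ⟨a, s, hs, h⟩
    have hsK := algebraMap_ne_zero_of_notMem (K := K) hs
    have : z = algebraMap A K a * (algebraMap A K s)⁻¹ := by
      rw [← h, mul_assoc, mul_inv_cancel₀ hsK, mul_one]
    rw [this, map_mul, map_inv₀, ← IsScalarTower.algebraMap_apply A K F,
      ← IsScalarTower.algebraMap_apply A K F]
    exact V.mul_mem _ _ (hA a) (hunit s hs)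
  refine ⟨fun hy => ?_, hloc y⟩
  by_contra hny
  have hy0 : y ≠ 0 := by
    rintro rfl
    exact hny (by simpa using inLoc_algebraMap (K := K) p 0)
  obtain ⟨a, s, hs, has⟩ := (hv1 y hy0).resolve_left hny
  have hap : a ∈ p := by
    by_contra hap
    apply hny
    refine ⟨s, a, hap, ?_⟩
    rw [← has, mul_comm y, mul_comm y⁻¹, mul_assoc, inv_mul_cancel₀ hy0, mul_one]
  have hyF : algebraMap K F y ≠ 0 := fun h0 =>
    hy0 ((map_eq_zero_iff _ (algebraMap K F).injective).mp h0)
  have h1 : (algebraMap K F y)⁻¹ = algebraMap A F a * algebraMap K F (algebraMap A K s)⁻¹ := by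
    rw [IsScalarTower.algebraMap_apply A K F, ← map_mul, ← has, mul_assoc,
      mul_inv_cancel₀ (algebraMap_ne_zero_of_notMem hs), mul_one, map_inv₀]
  have h2 : (algebraMap K F y)⁻¹ ∈ V.nonunits := by
    rw [h1]
    exact mul_mem_nonunits V ((hc a).mpr hap) (hloc _ (inLoc_inv_algebraMap hs))
  rcases (V.inv_mem_nonunits_iff).mp h2 with h3 | h3
  · exact hyF h3
  · exact h3 hy

end Generic

section UFD

variable {A : Type*} [CommRing A] [IsDomain A] [UniqueFactorizationMonoid A]
variable {K : Type*} [Field K] [Algebra A K] [IsFractionRing A K]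

/-- in a UFD every nonzero `y ∈ K` is `π ^ (i - j) * (a / s)` with `π ∤ a`, `π ∤ s`. -/
theorem exists_pow_decomp {π : A} (hπ : Prime π) (y : K) (hy : y ≠ 0) :
    ∃ (i j : ℕ) (a s : A), ¬ π ∣ a ∧ ¬ π ∣ s ∧
      y * (algebraMap A K π ^ j * algebraMap A K s) =
        algebraMap A K π ^ i * algebraMap A K a := by
  obtain ⟨c, d, hd, rfl⟩ := IsFractionRing.div_surjective (A := A) y
  have hd0 : d ≠ 0 := nonZeroDivisors.ne_zero hd
  have hdK : algebraMap A K d ≠ 0 := fun h0 =>
    hd0 ((map_eq_zero_iff _ (IsFractionRing.injective A K)).mp h0)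
  have hc0 : c ≠ 0 := by
    rintro rfl
    apply hy
    rw [map_zero, zero_div]
  obtain ⟨i, a, ha, hca⟩ := WfDvdMonoid.max_power_factor hc0 hπ.irreducible
  obtain ⟨j, s, hs, hds⟩ := WfDvdMonoid.max_power_factor hd0 hπ.irreducible
  refine ⟨i, j, a, s, ha, hs, ?_⟩
  rw [← map_pow, ← map_pow, ← map_mul, ← map_mul, ← hca, ← hds, div_mul_cancel₀ _ hdK]

theorem valuationRing_span_prime {π : A} (hπ : Prime π) (y : K) (hy : y ≠ 0) :
    InLoc (Ideal.span {π}) y ∨ InLoc (Ideal.span {π}) y⁻¹ := by
  obtain ⟨i, j, a, s, ha, hs, h⟩ := exists_pow_decomp hπ y hy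
  have hP : algebraMap A K π ≠ 0 := fun h0 =>
    hπ.ne_zero ((map_eq_zero_iff _ (IsFractionRing.injective A K)).mp h0)
  rcases le_total j i with hji | hij
  · left
    obtain ⟨k, rfl⟩ := Nat.exists_eq_add_of_le hji
    refine ⟨π ^ k * a, s, by rwa [Ideal.mem_span_singleton], ?_⟩
    have hPj : algebraMap A K π ^ j ≠ 0 := pow_ne_zero _ hP
    apply mul_left_cancel₀ hPj
    rw [map_mul, map_pow]
    rw [pow_add] at h
    linear_combination h
  · right
    obtain ⟨k, rfl⟩ := Nat.exists_eq_add_of_le hij
    refine ⟨π ^ k * s, a, by rwa [Ideal.mem_span_singleton], ?_⟩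
    have hPi : algebraMap A K π ^ i ≠ 0 := pow_ne_zero _ hP
    apply mul_left_cancel₀ hPi
    apply mul_left_cancel₀ hy
    rw [map_mul, map_pow]
    rw [pow_add] at h
    have hyy : y * y⁻¹ = 1 := mul_inv_cancel₀ hy
    linear_combination (-1 : K) * h + (algebraMap A K π ^ i * algebraMap A K a) * hyy

theorem rankOne_span_prime {π : A} (hπ : Prime π) (t : A) (ht : t ∈ Ideal.span {π}) (z : K) :
    ∃ n : ℕ, InLoc (Ideal.span {π}) (z * algebraMap A K t ^ n) := by
  by_cases hz : z = 0
  · refine ⟨0, 0, 1, ?_, by simp [hz]⟩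
    rw [Ideal.mem_span_singleton]
    exact hπ.not_dvd_one
  obtain ⟨i, j, a, s, ha, hs, h⟩ := exists_pow_decomp hπ z hz
  obtain ⟨t', rfl⟩ := Ideal.mem_span_singleton.mp ht
  refine ⟨j, π ^ i * a * t' ^ j, s, by rwa [Ideal.mem_span_singleton], ?_⟩
  simp only [map_mul, map_pow]
  linear_combination (algebraMap A K t' ^ j) * h

/-- **Hartogs for a UFD**: `A = ⋂_π A_(π)`. -/
theorem mem_range_of_forall_prime (c : K)
    (h : ∀ π : A, Prime π → InLoc (Ideal.span {π}) c) : c ∈ (algebraMap A K).range := by
  obtain ⟨a, b, hrel, hab⟩ := IsFractionRing.exists_reduced_fraction A c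
  have hb0 : (b : A) ≠ 0 := nonZeroDivisors.ne_zero b.2
  have hcb : c * algebraMap A K b = algebraMap A K a := by
    rw [← hab, IsLocalization.mk'_spec]
  by_cases hbu : IsUnit (b : A)
  · obtain ⟨u, hu⟩ := hbu
    refine ⟨a * ↑u⁻¹, ?_⟩
    have hbF : algebraMap A K (b : A) ≠ 0 :=
      IsFractionRing.to_map_ne_zero_of_mem_nonZeroDivisors b.2
    apply mul_right_cancel₀ hbF
    rw [hcb, ← map_mul, ← hu, mul_assoc, Units.inv_mul, mul_one]
  · exfalso
    obtain ⟨π, hπ, hπb⟩ := WfDvdMonoid.exists_irreducible_factor hbu hb0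
    have hπp : Prime π := UniqueFactorizationMonoid.irreducible_iff_prime.mp hπ
    obtain ⟨a', s, hs, hst⟩ := h π hπp
    rw [Ideal.mem_span_singleton] at hs
    have hats : a * s = b * a' := by
      apply IsFractionRing.injective A K
      rw [map_mul, map_mul, ← hcb, ← hst]
      ring
    have hπat : π ∣ a * s := hats ▸ Dvd.dvd.mul_right hπb a'
    have hπa : π ∣ a := (hπp.dvd_or_dvd hπat).resolve_right hs
    exact hπp.not_isUnit (hrel hπa hπb)

variable {F : Type*} [Field F] [Algebra A F] [Algebra K F] [IsScalarTower A K F]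

/-- **UFD form, `V ∩ K = A_(π)`**.  `A` a UFD with fraction field `K`, `F / K` algebraic.  An
element of `F` lying in every valuation subring `V` of `F` with `V ∩ K = A_(π)` for some prime
element `π` is integral over `A`. -/
theorem isIntegral_of_forall_mem_ufd [Algebra.IsAlgebraic K F] (x : F)
    (hx : ∀ V : ValuationSubring F, ∀ π : A, Prime π →
      (∀ y : K, algebraMap K F y ∈ V ↔ InLoc (Ideal.span {π}) y) → x ∈ V) :
    IsIntegral A x := by
  refine isIntegral_of_forall_mem (K := K) {p | ∃ π : A, Prime π ∧ p = Ideal.span {π}}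
    ?_ ?_ ?_ ?_ x ?_
  · rintro p ⟨π, hπ, rfl⟩
    exact (Ideal.span_singleton_prime hπ.ne_zero).mpr hπ
  · rintro p ⟨π, hπ, rfl⟩ y hy
    exact valuationRing_span_prime hπ y hy
  · rintro p ⟨π, hπ, rfl⟩ t ht _ z
    exact rankOne_span_prime hπ t ht z
  · intro c hc
    exact mem_range_of_forall_prime c (fun π hπ => hc _ ⟨π, hπ, rfl⟩)
  · rintro V p ⟨π, hπ, rfl⟩ hV
    exact hx V π hπ hV

/-- **UFD form, centre version**: `x ∈ F` is integral over the UFD `A` iff it lies in every
valuation subring `V ⊇ A` of `F` whose centre on `A` is generated by a prime element. -/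
theorem isIntegral_iff_forall_centre [Algebra.IsAlgebraic K F] (x : F) :
    IsIntegral A x ↔ ∀ V : ValuationSubring F, (∀ a : A, algebraMap A F a ∈ V) →
      (∃ π : A, Prime π ∧ ∀ a : A, algebraMap A F a ∈ V.nonunits ↔ π ∣ a) → x ∈ V := by
  constructor
  · intro hx V hA _
    exact mem_of_isIntegral V hA hx
  · intro h
    refine isIntegral_of_forall_mem_ufd (K := K) x (fun V π hπ hV => ?_)
    have : (Ideal.span {π}).IsPrime := (Ideal.span_singleton_prime hπ.ne_zero).mpr hπ
    obtain ⟨hA, hc⟩ := centre_of_comap_eq (Ideal.span {π}) V hV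
    refine h V hA ⟨π, hπ, fun a => ?_⟩
    rw [hc a, Ideal.mem_span_singleton]

end UFD

section KFree

variable {A : Type*} [CommRing A] [IsDomain A] [UniqueFactorizationMonoid A]
variable {F : Type*} [Field F] [Algebra A F] [FaithfulSMul A F] [Algebra.IsAlgebraic A F]

/-- **UFD form without a named fraction field**: `A` a UFD inside a field `F` algebraic over it.
`x ∈ F` is integral over `A` iff it lies in every valuation subring `V ⊇ A` of `F` whose centre
on `A` is generated by a prime element. -/
theorem isIntegral_iff_forall_centre' (x : F) :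
    IsIntegral A x ↔ ∀ V : ValuationSubring F, (∀ a : A, algebraMap A F a ∈ V) →
      (∃ π : A, Prime π ∧ ∀ a : A, algebraMap A F a ∈ V.nonunits ↔ π ∣ a) → x ∈ V := by
  let _ : Algebra (FractionRing A) F := FractionRing.liftAlgebra A F
  have : IsScalarTower A (FractionRing A) F := FractionRing.isScalarTower_liftAlgebra A F
  have : Algebra.IsAlgebraic (FractionRing A) F :=
    (IsFractionRing.comap_isAlgebraic_iff (A := A) (K := FractionRing A) (C := F)).mp
      ‹Algebra.IsAlgebraic A F›
  exact isIntegral_iff_forall_centre (K := FractionRing A) x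

end KFree

end Fermat.Agent.GL.IntClosureVal
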