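/-
GATE-L prep brick INTCLOSURE-SPLIT (helper79).  Mathlib + GL/Alg/IntClosureVal.

Vertical / horizontal form of INTCLOSURE-VAL for a UFD `A` with a distinguished prime element `q`
(think `A = R[t]`, `q` the uniformiser of the DVR `R`): the integral closure `B` of `A` in an
algebraic extension `F` of `Frac A` is cut out by
  * the VERTICAL valuation subrings: `V ⊇ A` with centre `(q)` on `A` (all the extensions of the
    Gauss valuation), and
  * the HORIZONTAL ones: `V ⊇ A[1/q]`.
In particular (`hdiv` of the FRAME interface): `z ∈ B` and `z / q ∈ V` for every vertical `V`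
imply `z / q ∈ B`.
-/
import Mathlib
import Fermat.Agent.GL.Alg.IntClosureVal

set_option autoImplicit false
set_option linter.unusedSectionVars false
set_option linter.style.haveILetI false

namespace Fermat.Agent.GL.IntClosureSplit

open Fermat.Agent.GL.IntClosureVal

variable {A : Type*} [CommRing A] [IsDomain A] [UniqueFactorizationMonoid A]
variable {F : Type*} [Field F] [Algebra A F] [FaithfulSMul A F] [Algebra.IsAlgebraic A F]

/-- `V` is a VERTICAL valuation subring for `(A, q)`: it contains `A` and its centre on `A` is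
the prime ideal `(q)`. -/
def IsVertical (q : A) (V : ValuationSubring F) : Prop :=
  (∀ a : A, algebraMap A F a ∈ V) ∧ ∀ a : A, algebraMap A F a ∈ V.nonunits ↔ q ∣ a

/-- `V` is a HORIZONTAL valuation subring for `(A, q)`: it contains `A` and `q` is a unit. -/
def IsHorizontal (q : A) (V : ValuationSubring F) : Prop :=
  (∀ a : A, algebraMap A F a ∈ V) ∧ (algebraMap A F q)⁻¹ ∈ V

/-- a valuation subring `V ⊇ A` whose centre is generated by a prime element is vertical or
horizontal. -/
theorem isVertical_or_isHorizontal {q : A} (hq : Prime q) (V : ValuationSubring F)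
    (hA : ∀ a : A, algebraMap A F a ∈ V)
    (hc : ∃ π : A, Prime π ∧ ∀ a : A, algebraMap A F a ∈ V.nonunits ↔ π ∣ a) :
    IsVertical q V ∨ IsHorizontal q V := by
  obtain ⟨π, hπ, hπc⟩ := hc
  by_cases hqn : algebraMap A F q ∈ V.nonunits
  · left
    have hπq : π ∣ q := (hπc q).mp hqn
    have hassoc : Associated π q := by
      obtain ⟨c, hc⟩ := hπq
      have hcu : IsUnit c := by
        rcases hq.irreducible.isUnit_or_isUnit hc with h | h
        · exact absurd h hπ.not_isUnit
        · exact h
      obtain ⟨u, rfl⟩ := hcu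
      exact ⟨u, hc.symm⟩
    exact ⟨hA, fun a => by rw [hπc a]; exact hassoc.dvd_iff_dvd_left⟩
  · right
    refine ⟨hA, ?_⟩
    rw [V.mem_nonunits_iff_or] at hqn
    push Not at hqn
    exact hqn.2

/-- **vertical / horizontal criterion**: `x` is integral over the UFD `A` as soon as it lies in
every vertical and in every horizontal valuation subring of `F`. -/
theorem isIntegral_of_vertical_of_horizontal {q : A} (hq : Prime q) (x : F)
    (hver : ∀ V : ValuationSubring F, IsVertical q V → x ∈ V)
    (hhor : ∀ V : ValuationSubring F, IsHorizontal q V → x ∈ V) : IsIntegral A x := by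
  rw [isIntegral_iff_forall_centre']
  intro V hA hc
  rcases isVertical_or_isHorizontal hq V hA hc with h | h
  · exact hver V h
  · exact hhor V h

theorem isIntegral_iff_vertical_horizontal {q : A} (hq : Prime q) (x : F) :
    IsIntegral A x ↔ (∀ V : ValuationSubring F, IsVertical q V → x ∈ V) ∧
      (∀ V : ValuationSubring F, IsHorizontal q V → x ∈ V) :=
  ⟨fun hx => ⟨fun V hV => mem_of_isIntegral V hV.1 hx, fun V hV => mem_of_isIntegral V hV.1 hx⟩,
    fun h => isIntegral_of_vertical_of_horizontal hq x h.1 h.2⟩

/-- **`hdiv`**: if `z` is integral over `A` and `z / q` lies in every vertical valuation subring,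
then `z / q` is integral over `A`: the integral closure is cut out VERTICALLY by the extensions
of the `q`-adic (Gauss) valuation. -/
theorem isIntegral_div_of_vertical {q : A} (hq : Prime q) {z : F} (hz : IsIntegral A z)
    (hver : ∀ V : ValuationSubring F, IsVertical q V → z / algebraMap A F q ∈ V) :
    IsIntegral A (z / algebraMap A F q) := by
  refine isIntegral_of_vertical_of_horizontal hq _ hver (fun V hV => ?_)
  rw [div_eq_mul_inv]
  exact V.mul_mem _ _ (mem_of_isIntegral V hV.1 hz) hV.2

/-- more generally: `z` integral over `A`, `n : ℕ`, `z / q ^ n` in every vertical valuation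
subring ⟹ `z / q ^ n` integral over `A`. -/
theorem isIntegral_div_pow_of_vertical {q : A} (hq : Prime q) {z : F} (hz : IsIntegral A z)
    (n : ℕ) (hver : ∀ V : ValuationSubring F, IsVertical q V → z / algebraMap A F q ^ n ∈ V) :
    IsIntegral A (z / algebraMap A F q ^ n) := by
  refine isIntegral_of_vertical_of_horizontal hq _ hver (fun V hV => ?_)
  rw [div_eq_mul_inv, ← inv_pow]
  exact V.mul_mem _ _ (mem_of_isIntegral V hV.1 hz) (pow_mem hV.2 n)

/-- an element which becomes integral after multiplication by a power of `q` ("integral over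
`A[1/q]`", regular on the generic fibre) and lies in every vertical valuation subring is
integral over `A`. -/
theorem isIntegral_of_pow_mul_of_vertical {q : A} (hq : Prime q) {x : F} (n : ℕ)
    (hx : IsIntegral A (algebraMap A F q ^ n * x))
    (hver : ∀ V : ValuationSubring F, IsVertical q V → x ∈ V) : IsIntegral A x := by
  have hq0 : algebraMap A F q ≠ 0 := by
    intro h0
    exact hq.ne_zero ((map_eq_zero_iff _ (FaithfulSMul.algebraMap_injective A F)).mp h0)
  have : x = (algebraMap A F q ^ n * x) / algebraMap A F q ^ n := by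
    field_simp
  rw [this]
  refine isIntegral_div_pow_of_vertical hq hx n (fun V hV => ?_)
  rw [← this]
  exact hver V hV

/-! ### The polynomial case `A = R[t]`, in the language `Algebra.adjoin R {t}` -/

section Poly

open Polynomial

variable {R : Type*} [CommRing R] [IsDomain R] [UniqueFactorizationMonoid R]
variable {F : Type*} [Field F] [Algebra R F]

/-- `V` is an extension of the Gauss valuation of `R[t]` attached to the prime element `q` of
`R`: `V ⊇ R[t]` and `g(t)` is a non-unit of `V` iff `q` divides (all the coefficients of) `g`. -/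
def IsGaussExt (q : R) (t : F) (V : ValuationSubring F) : Prop :=
  (∀ g : R[X], aeval t g ∈ V) ∧ ∀ g : R[X], aeval t g ∈ V.nonunits ↔ C q ∣ g

/-- `V ⊇ R[t]` and `q` is a unit of `V` (a "horizontal" valuation subring). -/
def IsHorizontalExt (q : R) (t : F) (V : ValuationSubring F) : Prop :=
  (∀ g : R[X], aeval t g ∈ V) ∧ (algebraMap R F q)⁻¹ ∈ V

/-- the `R[X]`-algebra structure on `F` given by `t`. -/
@[reducible] noncomputable def polyAlgebra (t : F) : Algebra R[X] F :=
  (aeval t : R[X] →ₐ[R] F).toRingHom.toAlgebra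

/-- the surjection `R[X] → R[t]`. -/
noncomputable def toAdjoin (t : F) : R[X] →+* Algebra.adjoin R {t} :=
  (aeval t : R[X] →ₐ[R] F).toRingHom.codRestrict (Algebra.adjoin R {t}).toSubring (fun g => by
    rw [Algebra.adjoin_singleton_eq_range_aeval]
    exact ⟨g, rfl⟩)

theorem toAdjoin_surjective (t : F) : Function.Surjective (toAdjoin (R := R) t) := by
  rintro ⟨y, hy⟩
  rw [Algebra.adjoin_singleton_eq_range_aeval] at hy
  obtain ⟨g, hg⟩ := hy
  exact ⟨g, Subtype.ext hg⟩

theorem algebraMap_comp_toAdjoin (t : F) :
    (algebraMap (Algebra.adjoin R {t}) F).comp (toAdjoin t) =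
      ((aeval t : R[X] →ₐ[R] F) : R[X] →+* F) := by
  ext g <;> rfl

theorem isIntegral_poly_iff (t x : F) :
    letI := polyAlgebra (R := R) t
    IsIntegral R[X] x ↔ IsIntegral (Algebra.adjoin R {t}) x := by
  letI := polyAlgebra (R := R) t
  constructor
  · rintro ⟨p, hpm, hp⟩
    refine ⟨p.map (toAdjoin t), hpm.map _, ?_⟩
    rw [Polynomial.eval₂_map, algebraMap_comp_toAdjoin]
    exact hp
  · rintro ⟨p, hpm, hp⟩
    have hl : p ∈ Polynomial.lifts (toAdjoin (R := R) t) := by
      rw [Polynomial.lifts_iff_coeff_lifts]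
      intro n
      exact toAdjoin_surjective t _
    obtain ⟨p', hp', -, hpm'⟩ := Polynomial.lifts_and_degree_eq_and_monic hl hpm
    refine ⟨p', hpm', ?_⟩
    rw [← hp', Polynomial.eval₂_map, algebraMap_comp_toAdjoin] at hp
    exact hp

theorem isAlgebraic_poly (t : F) [Algebra.IsAlgebraic (Algebra.adjoin R {t}) F] :
    letI := polyAlgebra (R := R) t
    Algebra.IsAlgebraic R[X] F := by
  letI := polyAlgebra (R := R) t
  refine ⟨fun x => ?_⟩
  obtain ⟨p, hp0, hp⟩ := Algebra.IsAlgebraic.isAlgebraic (R := Algebra.adjoin R {t}) x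
  have hl : p ∈ Polynomial.lifts (toAdjoin (R := R) t) := by
    rw [Polynomial.lifts_iff_coeff_lifts]
    intro n
    exact toAdjoin_surjective t _
  obtain ⟨p', hp'⟩ := hl
  refine ⟨p', ?_, ?_⟩
  · rintro rfl
    apply hp0
    rw [← hp']
    exact Polynomial.map_zero _
  · rw [← hp'] at hp
    rw [Polynomial.aeval_def] at hp ⊢
    rw [Polynomial.coe_mapRingHom, Polynomial.eval₂_map, algebraMap_comp_toAdjoin] at hp
    exact hp

theorem isVertical_C_iff (q : R) (t : F) (V : ValuationSubring F) :
    letI := polyAlgebra (R := R) t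
    IsVertical (C q) V ↔ IsGaussExt q t V := by
  letI := polyAlgebra (R := R) t
  exact Iff.rfl

/-- **POLY-FRAME**: `R` a UFD (e.g. a DVR), `q ∈ R` a prime element, `t ∈ F` transcendental over
`R`, `F` algebraic over `R[t]`.  `x ∈ F` is integral over `R[t]` iff it lies in every extension of
the Gauss valuation (vertical) and in every valuation subring containing `R[t][1/q]`
(horizontal). -/
theorem isIntegral_adjoin_iff {q : R} (hq : Prime q) {t : F} (ht : Transcendental R t)
    [Algebra.IsAlgebraic (Algebra.adjoin R {t}) F] (x : F) :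
    IsIntegral (Algebra.adjoin R {t}) x ↔
      (∀ V : ValuationSubring F, IsGaussExt q t V → x ∈ V) ∧
      (∀ V : ValuationSubring F, IsHorizontalExt q t V → x ∈ V) := by
  letI := polyAlgebra (R := R) t
  haveI : FaithfulSMul R[X] F :=
    (faithfulSMul_iff_algebraMap_injective R[X] F).mpr (transcendental_iff_injective.mp ht)
  haveI : Algebra.IsAlgebraic R[X] F := isAlgebraic_poly t
  have hCq : Prime (C q : R[X]) := Polynomial.prime_C_iff.mpr hq
  rw [← isIntegral_poly_iff, isIntegral_iff_vertical_horizontal hCq]
  have hCqF : algebraMap R[X] F (C q) = algebraMap R F q := Polynomial.aeval_C t q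
  constructor
  · rintro ⟨h1, h2⟩
    exact ⟨fun V hV => h1 V hV, fun V hV => h2 V ⟨hV.1, by rw [hCqF]; exact hV.2⟩⟩
  · rintro ⟨h1, h2⟩
    exact ⟨fun V hV => h1 V hV, fun V hV => h2 V ⟨hV.1, by rw [← hCqF]; exact hV.2⟩⟩

/-- **`hdiv` for `R[t]`**: `z` integral over `R[t]` and `z / q` in every extension of the Gauss
valuation ⟹ `z / q` integral over `R[t]`. -/
theorem isIntegral_adjoin_div_of_gauss {q : R} (hq : Prime q) {t : F} (ht : Transcendental R t)
    [Algebra.IsAlgebraic (Algebra.adjoin R {t}) F] {z : F}
    (hz : IsIntegral (Algebra.adjoin R {t}) z)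
    (hver : ∀ V : ValuationSubring F, IsGaussExt q t V → z / algebraMap R F q ∈ V) :
    IsIntegral (Algebra.adjoin R {t}) (z / algebraMap R F q) := by
  rw [isIntegral_adjoin_iff hq ht]
  refine ⟨hver, fun V hV => ?_⟩
  rw [div_eq_mul_inv]
  refine V.mul_mem _ _ ?_ hV.2
  exact ((isIntegral_adjoin_iff hq ht z).mp hz).2 V hV

/-- an element integral over `R[t]` after multiplication by `q ^ n` and lying in every extension
of the Gauss valuation is integral over `R[t]`. -/
theorem isIntegral_adjoin_of_pow_mul_of_gauss {q : R} (hq : Prime q) {t : F}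
    (ht : Transcendental R t) [Algebra.IsAlgebraic (Algebra.adjoin R {t}) F] {x : F} (n : ℕ)
    (hx : IsIntegral (Algebra.adjoin R {t}) (algebraMap R F q ^ n * x))
    (hver : ∀ V : ValuationSubring F, IsGaussExt q t V → x ∈ V) :
    IsIntegral (Algebra.adjoin R {t}) x := by
  rw [isIntegral_adjoin_iff hq ht]
  refine ⟨hver, fun V hV => ?_⟩
  have hq0 : algebraMap R F q ≠ 0 := by
    intro h0
    have := hV.2
    rw [h0, inv_zero] at this
    -- `q = 0` in `F` contradicts transcendence (`C q ≠ 0` maps to `0`)
    have hinj := transcendental_iff_injective.mp ht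
    have : (aeval t : R[X] →ₐ[R] F) (C q) = 0 := by rw [Polynomial.aeval_C, h0]
    have hC : (C q : R[X]) = 0 := hinj (by rw [this, map_zero])
    exact hq.ne_zero (Polynomial.C_eq_zero.mp hC)
  have h1 := ((isIntegral_adjoin_iff hq ht _).mp hx).2 V hV
  have : x = (algebraMap R F q ^ n * x) * ((algebraMap R F q)⁻¹) ^ n := by
    rw [mul_comm (algebraMap R F q ^ n) x, mul_assoc, ← mul_pow, mul_inv_cancel₀ hq0, one_pow,
      mul_one]
  rw [this]
  exact V.mul_mem _ _ h1 (pow_mem hV.2 n)

/-- `hdiv` in the shape of the FRAME interface: a family `W i` of valuation subrings containing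
(up to inclusion) every extension of the Gauss valuation (NOEXT) cuts the integral closure of
`R[t]` out vertically. -/
theorem isIntegral_adjoin_div_of_family {q : R} (hq : Prime q) {t : F} (ht : Transcendental R t)
    [Algebra.IsAlgebraic (Algebra.adjoin R {t}) F] {ι : Type*} (W : ι → ValuationSubring F)
    (hnoext : ∀ V : ValuationSubring F, IsGaussExt q t V → ∃ i, W i ≤ V) {z : F}
    (hz : IsIntegral (Algebra.adjoin R {t}) z) (hW : ∀ i, z / algebraMap R F q ∈ W i) :
    IsIntegral (Algebra.adjoin R {t}) (z / algebraMap R F q) := by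
  refine isIntegral_adjoin_div_of_gauss hq ht hz (fun V hV => ?_)
  obtain ⟨i, hi⟩ := hnoext V hV
  exact hi (hW i)

/-- membership form: `x` integral over `R[t]` iff integral over `R[t]` after multiplying by a
power of `q` and in every `W i`, for a family `W` of valuation subrings containing `R[t]` which
contains (up to inclusion) every extension of the Gauss valuation. -/
theorem isIntegral_adjoin_iff_of_family {q : R} (hq : Prime q) {t : F} (ht : Transcendental R t)
    [Algebra.IsAlgebraic (Algebra.adjoin R {t}) F] {ι : Type*} (W : ι → ValuationSubring F)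
    (hW : ∀ i, ∀ g : R[X], aeval t g ∈ W i)
    (hnoext : ∀ V : ValuationSubring F, IsGaussExt q t V → ∃ i, W i ≤ V) (x : F) :
    IsIntegral (Algebra.adjoin R {t}) x ↔
      (∃ n : ℕ, IsIntegral (Algebra.adjoin R {t}) (algebraMap R F q ^ n * x)) ∧ ∀ i, x ∈ W i := by
  constructor
  · intro hx
    refine ⟨⟨0, by simpa using hx⟩, fun i => ?_⟩
    letI := polyAlgebra (R := R) t
    exact mem_of_isIntegral (A := R[X]) (W i) (hW i) ((isIntegral_poly_iff t x).mpr hx)
  · rintro ⟨⟨n, hn⟩, hx⟩
    refine isIntegral_adjoin_of_pow_mul_of_gauss hq ht n hn (fun V hV => ?_)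
    obtain ⟨i, hi⟩ := hnoext V hV
    exact hi (hx i)

theorem isGaussExt_iff_coeff (q : R) (t : F) (V : ValuationSubring F) :
    IsGaussExt q t V ↔ (∀ g : R[X], aeval t g ∈ V) ∧
      ∀ g : R[X], aeval t g ∈ V.nonunits ↔ ∀ n, q ∣ g.coeff n := by
  unfold IsGaussExt
  simp only [Polynomial.C_dvd_iff_dvd_coeff]

end Poly

end Fermat.Agent.GL.IntClosureSplit
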