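/-
GATE-L prep brick REG2-UFD (helper93).  Mathlib only.

A Noetherian local DOMAIN whose maximal ideal is generated by two elements and which
has a prime ideal strictly between `⊥` and the maximal ideal (i.e. a two-dimensional
regular local domain) is a UFD: every prime ideal other than the maximal one is principal.
Elementary proof (no homological algebra, no Auslander–Buchsbaum).
-/
import Mathlib

set_option autoImplicit false

namespace Fermat.Agent.GL.RegTwo

open IsLocalRing

section PrincipalMax

variable {S : Type*} [CommRing S] [IsLocalRing S] [IsNoetherianRing S]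

/-- In a Noetherian local ring whose maximal ideal is principal, generated by `t`,
every nonzero ideal is generated by a power of `t`. -/
theorem exists_eq_span_pow_of_maximalIdeal_eq_span {t : S}
    (ht : maximalIdeal S = Ideal.span {t}) (I : Ideal S) (hI : I ≠ ⊥) :
    ∃ n : ℕ, I = Ideal.span {t ^ n} := by
  classical
  have hex : ∃ n : ℕ, ¬ I ≤ maximalIdeal S ^ n := by
    by_contra hcon
    push Not at hcon
    apply hI
    have : I ≤ ⨅ n : ℕ, maximalIdeal S ^ n := le_iInf hcon
    rw [Ideal.iInf_pow_eq_bot_of_isLocalRing (maximalIdeal S) (Ideal.IsPrime.ne_top inferInstance)]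
      at this
    exact le_bot_iff.mp this
  set n := Nat.find hex with hn
  have hn1 : ¬ I ≤ maximalIdeal S ^ n := Nat.find_spec hex
  have hn0 : n ≠ 0 := by
    intro h0
    apply hn1
    rw [h0, pow_zero, Ideal.one_eq_top]
    exact le_top
  obtain ⟨k, hk⟩ := Nat.exists_eq_succ_of_ne_zero hn0
  have hle : I ≤ maximalIdeal S ^ k := by
    by_contra hcon
    have := Nat.find_min' hex hcon
    omega
  refine ⟨k, le_antisymm ?_ ?_⟩
  · rw [← Ideal.span_singleton_pow, ← ht]
    exact hle
  · obtain ⟨a, haI, haN⟩ := Set.not_subset.mp hn1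
    have hak : a ∈ Ideal.span {t ^ k} := by
      rw [← Ideal.span_singleton_pow, ← ht]
      exact hle haI
    obtain ⟨u, rfl⟩ := Ideal.mem_span_singleton'.mp hak
    have hu : IsUnit u := by
      by_contra hu
      apply haN
      have hum : u ∈ maximalIdeal S := (IsLocalRing.mem_maximalIdeal u).mpr hu
      rw [hk, pow_succ]
      have htk : t ^ k ∈ maximalIdeal S ^ k := by
        rw [ht, Ideal.span_singleton_pow]
        exact Ideal.mem_span_singleton_self _
      rw [mul_comm u (t ^ k)]
      exact Ideal.mul_mem_mul htk hum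
    rw [Ideal.span_singleton_le_iff_mem]
    have : t ^ k = ↑hu.unit⁻¹ * (u * t ^ k) := by
      rw [← mul_assoc, IsUnit.val_inv_mul, one_mul]
    rw [this]
    exact I.mul_mem_left _ haI

end PrincipalMax

section Main

variable {O : Type*} [CommRing O] [IsLocalRing O] [IsNoetherianRing O]

/-- Nakayama step of the regularity lemma: `m = (x, y) + m²` implies `m = (x, y)`. -/
theorem maximalIdeal_eq_span_pair_of_le_sup_sq {x y : O} (hx : x ∈ maximalIdeal O)
    (hy : y ∈ maximalIdeal O)
    (h : maximalIdeal O ≤ Ideal.span {x, y} ⊔ maximalIdeal O • maximalIdeal O) :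
    maximalIdeal O = Ideal.span {x, y} := by
  refine le_antisymm ?_ ?_
  · exact Submodule.le_of_le_smul_of_le_jacobson_bot (I := maximalIdeal O)
      (IsNoetherian.noetherian _) (IsLocalRing.maximalIdeal_le_jacobson ⊥) h
  · rw [Ideal.span_le]
    rintro z (rfl | rfl)
    · exact hx
    · exact hy

/-- If `x` lies in a prime `P` different from the maximal ideal `(x, y)`, then `P = (x)`. -/
theorem eq_span_of_mem_of_isPrime {x y : O} (hm : maximalIdeal O = Ideal.span {x, y})
    (P : Ideal O) [hP : P.IsPrime] (hPm : P ≠ maximalIdeal O) (hx : x ∈ P) :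
    P = Ideal.span {x} := by
  have hPle : P ≤ maximalIdeal O := IsLocalRing.le_maximalIdeal hP.ne_top
  have hy : y ∉ P := by
    intro hy
    apply hPm
    refine le_antisymm hPle ?_
    rw [hm, Ideal.span_le]
    rintro z (rfl | rfl)
    · exact hx
    · exact hy
  have hym : y ∈ maximalIdeal O := by
    rw [hm]; exact Ideal.subset_span (by simp)
  refine le_antisymm ?_ ((Ideal.span_singleton_le_iff_mem P).mpr hx)
  refine Submodule.le_of_le_smul_of_le_jacobson_bot (I := maximalIdeal O)
    (IsNoetherian.noetherian P) (IsLocalRing.maximalIdeal_le_jacobson ⊥) ?_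
  intro a ha
  have ham : a ∈ Ideal.span {x, y} := hm ▸ hPle ha
  obtain ⟨α, β, hab⟩ := Ideal.mem_span_pair.mp ham
  have hβy : β * y ∈ P := by
    have : β * y = a - α * x := by rw [← hab]; ring
    rw [this]
    exact P.sub_mem ha (P.mul_mem_left _ hx)
  have hβ : β ∈ P := (hP.mem_or_mem hβy).resolve_right hy
  rw [← hab]
  refine Submodule.add_mem_sup ?_ ?_
  · exact Ideal.mul_mem_left _ _ (Ideal.mem_span_singleton_self x)
  · rw [mul_comm]
    exact Submodule.smul_mem_smul hym hβ

/-- A prime ideal not containing `x` and contained in `(x)` is zero. -/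
theorem eq_bot_of_le_span_of_notMem {x : O} (hxm : x ∈ maximalIdeal O)
    (P : Ideal O) [hP : P.IsPrime] (hx : x ∉ P) (hle : P ≤ Ideal.span {x}) : P = ⊥ := by
  have key : ∀ n : ℕ, ∀ a ∈ P, a ∈ Ideal.span {x ^ n} := by
    intro n
    induction n with
    | zero => intro a _; simp
    | succ n ih =>
      intro a ha
      obtain ⟨b, rfl⟩ := Ideal.mem_span_singleton'.mp (hle ha)
      have hb : b ∈ P := (hP.mem_or_mem ha).resolve_right hx
      obtain ⟨c, rfl⟩ := Ideal.mem_span_singleton'.mp (ih b hb)
      rw [pow_succ, mul_assoc]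
      exact Ideal.mul_mem_left _ _ (Ideal.mem_span_singleton_self _)
  rw [eq_bot_iff]
  intro a ha
  have h1 : a ∈ ⨅ n : ℕ, Ideal.span {x} ^ n := by
    rw [Ideal.mem_iInf]
    intro n
    rw [Ideal.span_singleton_pow]
    exact key n a ha
  have hne : Ideal.span {x} ≠ ⊤ := by
    intro h
    have : (1 : O) ∈ maximalIdeal O := by
      have h1 : (1 : O) ∈ Ideal.span {x} := h ▸ Submodule.mem_top
      exact (Ideal.span_singleton_le_iff_mem _).mpr hxm h1
    exact (Ideal.ne_top_iff_one _).mp (Ideal.IsPrime.ne_top inferInstance) this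
  rw [Ideal.iInf_pow_eq_bot_of_isLocalRing _ hne] at h1
  exact h1

/-- **Main lemma.**  In a Noetherian local domain whose maximal ideal is generated by two
elements, every prime ideal different from the maximal ideal is principal. -/
theorem isPrincipal_of_isPrime {x y : O} (hm : maximalIdeal O = Ideal.span {x, y})
    (P : Ideal O) [hP : P.IsPrime] (hPm : P ≠ maximalIdeal O) : P.IsPrincipal := by
  classical
  by_cases hx : x ∈ P
  · rw [eq_span_of_mem_of_isPrime hm P hPm hx]
    exact ⟨⟨x, rfl⟩⟩
  by_cases hbot : P = ⊥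
  · rw [hbot]; exact bot_isPrincipal
  have hPle : P ≤ maximalIdeal O := IsLocalRing.le_maximalIdeal hP.ne_top
  have hxm : x ∈ maximalIdeal O := by
    rw [hm]; exact Ideal.subset_span (by simp)
  have hym : y ∈ maximalIdeal O := by
    rw [hm]; exact Ideal.subset_span (by simp)
  -- the quotient ring `O / (x)`
  set I : Ideal O := Ideal.span {x} with hI
  have hIne : I ≠ ⊤ := by
    intro h
    have : (1 : O) ∈ maximalIdeal O := by
      have h1 : (1 : O) ∈ I := h ▸ Submodule.mem_top
      exact (Ideal.span_singleton_le_iff_mem _).mpr hxm h1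
    exact (Ideal.ne_top_iff_one _).mp (Ideal.IsPrime.ne_top inferInstance) this
  have : Nontrivial (O ⧸ I) := Ideal.Quotient.nontrivial_iff.mpr hIne
  have : IsLocalRing (O ⧸ I) :=
    IsLocalRing.of_surjective' (Ideal.Quotient.mk I) Ideal.Quotient.mk_surjective
  have hmax : maximalIdeal (O ⧸ I) = Ideal.span {Ideal.Quotient.mk I y} := by
    rw [← IsLocalRing.map_maximalIdeal_of_surjective (Ideal.Quotient.mk I)
      Ideal.Quotient.mk_surjective, hm, Ideal.map_span]
    apply le_antisymm
    · rw [Ideal.span_le]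
      rintro _ ⟨z, (rfl | rfl), rfl⟩
      · have : Ideal.Quotient.mk I z = 0 :=
          Ideal.Quotient.eq_zero_iff_mem.mpr (Ideal.mem_span_singleton_self z)
        rw [this]; exact Ideal.zero_mem _
      · exact Ideal.mem_span_singleton_self _
    · apply Ideal.span_mono
      rintro _ rfl
      exact ⟨y, by simp, rfl⟩
  -- the image of `P` is nonzero
  have hPbar : P.map (Ideal.Quotient.mk I) ≠ ⊥ := by
    intro h
    apply hbot
    apply eq_bot_of_le_span_of_notMem hxm P hx
    rw [Ideal.map_eq_bot_iff_le_ker, Ideal.mk_ker] at h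
    exact h
  obtain ⟨n, hn⟩ := exists_eq_span_pow_of_maximalIdeal_eq_span hmax _ hPbar
  -- lift a generator
  have hgen : Ideal.Quotient.mk I y ^ n ∈ P.map (Ideal.Quotient.mk I) := by
    rw [hn]; exact Ideal.mem_span_singleton_self _
  obtain ⟨f, hfP, hf⟩ :=
    (Ideal.mem_map_iff_of_surjective _ Ideal.Quotient.mk_surjective).mp hgen
  refine ⟨⟨f, ?_⟩⟩
  change P = Ideal.span {f}
  refine le_antisymm ?_ ((Ideal.span_singleton_le_iff_mem P).mpr hfP)
  refine Submodule.le_of_le_smul_of_le_jacobson_bot (I := maximalIdeal O)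
    (IsNoetherian.noetherian P) (IsLocalRing.maximalIdeal_le_jacobson ⊥) ?_
  intro a ha
  have ha' : Ideal.Quotient.mk I a ∈ Ideal.span {Ideal.Quotient.mk I f} := by
    rw [hf, ← hn]
    exact Ideal.mem_map_of_mem _ ha
  obtain ⟨c', hc'⟩ := Ideal.mem_span_singleton'.mp ha'
  obtain ⟨c, rfl⟩ := Ideal.Quotient.mk_surjective c'
  have hdiff : a - c * f ∈ I := by
    rw [← Ideal.Quotient.eq_zero_iff_mem, map_sub, map_mul, hc', sub_self]
  obtain ⟨b, hb⟩ := Ideal.mem_span_singleton'.mp hdiff
  have hbx : b * x ∈ P := by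
    rw [hb]; exact P.sub_mem ha (P.mul_mem_left _ hfP)
  have hbP : b ∈ P := (hP.mem_or_mem hbx).resolve_right hx
  have : a = c * f + x * b := by
    rw [mul_comm x b, hb]; ring
  rw [this]
  refine Submodule.add_mem_sup ?_ ?_
  · exact Ideal.mul_mem_left _ _ (Ideal.mem_span_singleton_self f)
  · exact Submodule.smul_mem_smul hxm hbP

/-- **REG2-UFD.**  A Noetherian local domain whose maximal ideal is generated by two elements
and which has a prime ideal strictly between `⊥` and the maximal ideal is a UFD. -/
theorem ufd [IsDomain O] {x y : O} (hm : maximalIdeal O = Ideal.span {x, y})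
    (hdim : ∃ P : Ideal O, P.IsPrime ∧ P ≠ ⊥ ∧ P ≠ maximalIdeal O) :
    UniqueFactorizationMonoid O := by
  have key : ∀ P : Ideal O, P.IsPrime → P ≠ ⊥ → P ≠ maximalIdeal O →
      ∃ f ∈ P, Prime f := by
    intro P hPp hPbot hPm
    obtain ⟨⟨f, hf⟩⟩ := isPrincipal_of_isPrime hm P hPm
    have hf' : P = Ideal.span {f} := hf
    have hf0 : f ≠ 0 := by
      rintro rfl
      apply hPbot
      rw [hf']; simp
    refine ⟨f, hf' ▸ Ideal.mem_span_singleton_self f, ?_⟩
    rw [← Ideal.span_singleton_prime hf0, ← hf']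
    exact hPp
  rw [UniqueFactorizationMonoid.iff_exists_prime_mem_of_isPrime]
  intro I hI hIp
  by_cases hIm : I = maximalIdeal O
  · obtain ⟨P, hPp, hPbot, hPm⟩ := hdim
    obtain ⟨f, hfP, hfp⟩ := key P hPp hPbot hPm
    exact ⟨f, hIm ▸ IsLocalRing.le_maximalIdeal hPp.ne_top hfP, hfp⟩
  · exact key I hIp hI hIm

/-- A two-dimensional regular local domain (in the above sense) is integrally closed:
the model ring IS the normalisation. -/
theorem isIntegrallyClosed [IsDomain O] {x y : O} (hm : maximalIdeal O = Ideal.span {x, y})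
    (hdim : ∃ P : Ideal O, P.IsPrime ∧ P ≠ ⊥ ∧ P ≠ maximalIdeal O) :
    IsIntegrallyClosed O := by
  have := ufd hm hdim
  infer_instance

end Main

section Regular

variable {O : Type*} [CommRing O] [IsDomain O]

/-- Version for Mathlib's `IsRegularLocalRing` of Krull dimension two. -/
theorem ufd_of_isRegularLocalRing [IsRegularLocalRing O] (h2 : ringKrullDim O = 2) :
    UniqueFactorizationMonoid O := by
  classical
  have hfg : (maximalIdeal O).FG := IsNoetherian.noetherian _
  have hsf : (maximalIdeal O).spanFinrank = 2 := by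
    have h := IsRegularLocalRing.spanFinrank_maximalIdeal (R := O)
    rw [h2] at h
    exact_mod_cast h
  have hcard : (Submodule.generators (maximalIdeal O)).ncard = 2 := by
    rw [Submodule.FG.generators_ncard hfg, hsf]
  obtain ⟨x, y, -, hxy⟩ := Set.ncard_eq_two.mp hcard
  have hm : maximalIdeal O = Ideal.span {x, y} := by
    rw [← hxy]
    exact (Submodule.span_generators (maximalIdeal O)).symm
  refine ufd hm ?_
  -- a chain of primes of length two
  have hle : ((2 : ℕ) : WithBot ℕ∞) ≤ Order.krullDim (PrimeSpectrum O) := by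
    have : ringKrullDim O = Order.krullDim (PrimeSpectrum O) := rfl
    rw [← this, h2]; rfl
  obtain ⟨l, hl⟩ := Order.le_krullDim_iff.mp hle
  have h01 : l ⟨0, by omega⟩ < l ⟨1, by omega⟩ := l.strictMono (by simp [Fin.lt_def])
  have h12 : l ⟨1, by omega⟩ < l ⟨2, by omega⟩ := l.strictMono (by simp [Fin.lt_def])
  refine ⟨(l ⟨1, by omega⟩).asIdeal, (l ⟨1, by omega⟩).isPrime, ?_, ?_⟩
  · intro hbot
    have : (l ⟨1, by omega⟩).asIdeal ≤ (l ⟨0, by omega⟩).asIdeal := by
      rw [hbot]; exact bot_le
    exact lt_irrefl _ (lt_of_lt_of_le h01 ((PrimeSpectrum.asIdeal_le_asIdeal _ _).mp this))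
  · intro hmax
    have : (l ⟨2, by omega⟩).asIdeal ≤ (l ⟨1, by omega⟩).asIdeal := by
      rw [hmax]; exact IsLocalRing.le_maximalIdeal (l ⟨2, by omega⟩).isPrime.ne_top
    exact lt_irrefl _ (lt_of_lt_of_le h12 ((PrimeSpectrum.asIdeal_le_asIdeal _ _).mp this))

end Regular

section Integer

variable {O : Type*} [CommRing O] [IsDomain O] [UniqueFactorizationMonoid O]
variable {F : Type*} [Field F] [Algebra O F] [IsFractionRing O F]

/-- In a UFD, an element of the fraction field which is a fraction with denominator prime to `π`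
for every prime element `π` ("non-negative valuation at every height-one prime") is an integer.
This is the consumption form of REG2-UFD: `O = ⋂ O_(π)`. -/
theorem exists_algebraMap_eq_of_forall_prime (f : F)
    (h : ∀ π : O, Prime π → ∃ s t : O, ¬ π ∣ t ∧ f * algebraMap O F t = algebraMap O F s) :
    ∃ a : O, algebraMap O F a = f := by
  obtain ⟨a, b, hrel, hab⟩ := IsFractionRing.exists_reduced_fraction O f
  have hb0 : (b : O) ≠ 0 := nonZeroDivisors.ne_zero b.2
  have hfb : f * algebraMap O F b = algebraMap O F a := by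
    rw [← hab, IsLocalization.mk'_spec]
  by_cases hbu : IsUnit (b : O)
  · obtain ⟨u, hu⟩ := hbu
    refine ⟨a * ↑u⁻¹, ?_⟩
    have hbF : algebraMap O F (b : O) ≠ 0 :=
      IsFractionRing.to_map_ne_zero_of_mem_nonZeroDivisors b.2
    apply mul_right_cancel₀ hbF
    rw [hfb, ← map_mul, ← hu, mul_assoc, Units.inv_mul, mul_one]
  · exfalso
    obtain ⟨π, hπ, hπb⟩ := WfDvdMonoid.exists_irreducible_factor hbu hb0
    have hπp : Prime π := UniqueFactorizationMonoid.irreducible_iff_prime.mp hπ
    obtain ⟨s, t, hπt, hst⟩ := h π hπp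
    -- a * t = b * s
    have hats : a * t = b * s := by
      apply IsFractionRing.injective O F
      rw [map_mul, map_mul, ← hfb, ← hst]
      ring
    have hπat : π ∣ a * t := hats ▸ Dvd.dvd.mul_right hπb s
    have hπa : π ∣ a := (hπp.dvd_or_dvd hπat).resolve_right hπt
    exact hπp.not_isUnit (hrel hπa hπb)

end Integer

end Fermat.Agent.GL.RegTwo
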