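/-
GATE-L prep brick REG2-UFD, part 2 (helper93).  Mathlib only.
`O/(x)` a DVR  ==>  `O` is a UFD (helper84 2444 (A) / helper28 2469 (4) in UFD form).
-/
import Fermat.Agent.GL.Alg.RegTwoUFD

set_option autoImplicit false

namespace Fermat.Agent.GL.RegTwo

open IsLocalRing

section QuotDVR

variable {O : Type*} [CommRing O] [IsLocalRing O]

/-- If `O/(x)` is a DVR then the maximal ideal of `O` is generated by `x` and a lift `y` of a
uniformiser of `O/(x)`. -/
theorem exists_maximalIdeal_eq_span_pair_of_quotient_dvr (x : O)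
    [IsDomain (O ⧸ Ideal.span {x})] [IsDiscreteValuationRing (O ⧸ Ideal.span {x})] :
    ∃ y : O, maximalIdeal O = Ideal.span {x, y} := by
  obtain ⟨ϖ, hϖ⟩ := IsDiscreteValuationRing.exists_irreducible (O ⧸ Ideal.span {x})
  obtain ⟨y, rfl⟩ := Ideal.Quotient.mk_surjective ϖ
  refine ⟨y, ?_⟩
  have h1 : maximalIdeal (O ⧸ Ideal.span {x}) = Ideal.span {Ideal.Quotient.mk _ y} :=
    hϖ.maximalIdeal_eq
  have h2 : (maximalIdeal O).map (Ideal.Quotient.mk (Ideal.span {x})) =
      maximalIdeal (O ⧸ Ideal.span {x}) :=
    IsLocalRing.map_maximalIdeal_of_surjective _ Ideal.Quotient.mk_surjective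
  have hxm : Ideal.span {x} ≤ maximalIdeal O := by
    apply IsLocalRing.le_maximalIdeal
    intro h
    have : Subsingleton (O ⧸ Ideal.span {x}) := Ideal.Quotient.subsingleton_iff.mpr h
    exact not_subsingleton _ this
  have h3 : maximalIdeal O =
      ((maximalIdeal O).map (Ideal.Quotient.mk (Ideal.span {x}))).comap
        (Ideal.Quotient.mk (Ideal.span {x})) := by
    rw [Ideal.comap_map_of_surjective _ Ideal.Quotient.mk_surjective, ← RingHom.ker_eq_comap_bot,
      Ideal.mk_ker, sup_eq_left.mpr hxm]
  rw [h3, h2, h1, ← Set.image_singleton, ← Ideal.map_span,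
    Ideal.comap_map_of_surjective _ Ideal.Quotient.mk_surjective, ← RingHom.ker_eq_comap_bot,
    Ideal.mk_ker, sup_comm, ← Ideal.span_union]
  rfl

variable [IsDomain O] [IsNoetherianRing O]

/-- **Consumption form for the regularity route**: a Noetherian local domain `O` with a nonzero
element `x` such that `O/(x)` is a DVR is a UFD (in particular integrally closed, and every
height-one prime / divisorial ideal is principal).  Normality of `O` is a CONSEQUENCE. -/
theorem ufd_of_quotient_dvr (x : O) (hx0 : x ≠ 0)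
    [IsDomain (O ⧸ Ideal.span {x})] [IsDiscreteValuationRing (O ⧸ Ideal.span {x})] :
    UniqueFactorizationMonoid O := by
  obtain ⟨y, hm⟩ := exists_maximalIdeal_eq_span_pair_of_quotient_dvr x
  refine ufd hm ⟨Ideal.span {x}, ?_, ?_, ?_⟩
  · rw [← Ideal.Quotient.isDomain_iff_prime]; infer_instance
  · simpa using hx0
  · intro h
    have hfield : IsField (O ⧸ Ideal.span {x}) := by
      rw [← Ideal.Quotient.maximal_ideal_iff_isField_quotient, h]
      infer_instance
    exact IsDiscreteValuationRing.not_isField _ hfield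

end QuotDVR

end Fermat.Agent.GL.RegTwo
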