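/-
GATE-L / PREP (helper92): the "POW TRICK" local criterion of helper28 2469 (2)(3) and helper50 2486
(abstract half of L-REG / L-REG3; Mathlib + helper93's `GL/Alg/RegTwoQuot.lean` only).

`O` an integrally closed domain, `P` an ideal, `g ∈ O`, `n ≥ 1` with

  `∀ z ∈ P, g ∣ z ^ n`        (e.g. `z^12 / Δ(z)/Δ(qz) ∈ B'`, resp. `z^(q-1) / q ∈ B`),

and ONE `y ∈ P` with `y ^ n = g * unit`.  Then `P = (y)`: for `z ∈ P`, `(z / y) ^ n ∈ O`, so
`z / y ∈ O` (Mathlib: `IsIntegrallyClosed.pow_dvd_pow_iff`).  No divisor theory.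

* `eq_span_singleton_of_pow` : the criterion in `O` itself;
* `pow_mem_span_of_mem_map` : the hypothesis `∀ z ∈ P, g ∣ z ^ n` passes to a localisation;
* `map_eq_span_singleton_of_pow` : the criterion for `P·O`, `O` the localisation of an integrally
  closed domain `B` at a prime `M`, from `y ^ n = g * c` with `c ∉ M`
  ("`red (y^n / g)` does not vanish at the point");
* `dvd_pow_of_mem_of_dvd_pow`, `powDvdIdeal` : `{z | g ∣ z ^ n}` is an ideal of an integrally
  closed domain (so it is enough to check the hypothesis on generators of `P`);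
* `exists_maximalIdeal_eq_span_pair_of_pow`, `ufd_of_pow` : if moreover `O` is local (Noetherian)
  and `O ⧸ P` is a DVR then `𝔪 = (y, t)` and `O` is a UFD: `O` is REGULAR of dimension 2
  (every height-one prime principal: helper93 `RegTwo.isPrincipal_of_isPrime`).
-/
import Fermat.Agent.GL.Alg.RegTwoQuot

set_option autoImplicit false

namespace Fermat.Agent.GL.PowTrick

open IsLocalRing

section Basic

variable {O : Type*} [CommRing O] [IsDomain O] [IsIntegrallyClosed O]

/-- **the pow trick**: if `g ∣ z ^ n` for every `z ∈ P` and some `y ∈ P` has `y ^ n = g * unit`,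
then `P = (y)`. -/
theorem eq_span_singleton_of_pow {P : Ideal O} {g y u : O} {n : ℕ} (hn : n ≠ 0)
    (hP : ∀ z ∈ P, g ∣ z ^ n) (hy : y ∈ P) (hu : IsUnit u) (hyg : y ^ n = g * u) :
    P = Ideal.span {y} := by
  refine le_antisymm (fun z hz => ?_) ((Ideal.span_singleton_le_iff_mem P).mpr hy)
  rw [Ideal.mem_span_singleton]
  refine (IsIntegrallyClosed.pow_dvd_pow_iff hn).mp ?_
  obtain ⟨c, hc⟩ := hP z hz
  obtain ⟨v, rfl⟩ := hu
  refine ⟨↑v⁻¹ * c, ?_⟩
  rw [hc, hyg]
  calc g * c = g * ((↑v * ↑v⁻¹) * c) := by rw [Units.mul_inv, one_mul]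
    _ = g * ↑v * (↑v⁻¹ * c) := by ring

/-- in an integrally closed domain `g ∣ a ^ n`, `g ∣ b ^ n` imply `g ∣` every monomial of degree
`n` in `a, b`. -/
theorem dvd_mul_pow_of_dvd_pow {g a b : O} {n : ℕ} (hn : n ≠ 0) (ha : g ∣ a ^ n) (hb : g ∣ b ^ n)
    {i j : ℕ} (hij : i + j = n) : g ∣ a ^ i * b ^ j := by
  refine (IsIntegrallyClosed.pow_dvd_pow_iff hn).mp ?_
  have h1 : (a ^ i * b ^ j) ^ n = (a ^ n) ^ i * (b ^ n) ^ j := by ring
  have h2 : g ^ n = g ^ i * g ^ j := by rw [← hij, pow_add]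
  rw [h1, h2]
  exact mul_dvd_mul (pow_dvd_pow_of_dvd ha i) (pow_dvd_pow_of_dvd hb j)

/-- `{z | g ∣ z ^ n}` is closed under addition (integrally closed domain). -/
theorem dvd_add_pow_of_dvd_pow {g a b : O} {n : ℕ} (hn : n ≠ 0) (ha : g ∣ a ^ n) (hb : g ∣ b ^ n) :
    g ∣ (a + b) ^ n := by
  rw [add_pow]
  refine Finset.dvd_sum fun m hm => ?_
  have hm' : m ≤ n := Nat.lt_succ_iff.mp (Finset.mem_range.mp hm)
  exact Dvd.dvd.mul_right (dvd_mul_pow_of_dvd_pow hn ha hb (by omega)) _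

/-- the ideal `{z | g ∣ z ^ n}` of an integrally closed domain. -/
def powDvdIdeal (g : O) {n : ℕ} (hn : n ≠ 0) : Ideal O where
  carrier := {z | g ∣ z ^ n}
  add_mem' := fun ha hb => dvd_add_pow_of_dvd_pow hn ha hb
  zero_mem' := by
    show g ∣ (0 : O) ^ n
    rw [zero_pow hn]
    exact dvd_zero g
  smul_mem' := fun c z hz => by
    show g ∣ (c * z) ^ n
    rw [mul_pow]
    exact Dvd.dvd.mul_left hz _

theorem mem_powDvdIdeal {g z : O} {n : ℕ} (hn : n ≠ 0) : z ∈ powDvdIdeal g hn ↔ g ∣ z ^ n :=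
  Iff.rfl

/-- it is enough to check `g ∣ z ^ n` on a generating set of `P`. -/
theorem dvd_pow_of_mem_span {g : O} {n : ℕ} (hn : n ≠ 0) {S : Set O} (hS : ∀ z ∈ S, g ∣ z ^ n)
    {z : O} (hz : z ∈ Ideal.span S) : g ∣ z ^ n := by
  have : Ideal.span S ≤ powDvdIdeal g hn := Ideal.span_le.mpr hS
  exact this hz

end Basic

section Localization

variable {B : Type*} [CommRing B] [IsDomain B] [IsIntegrallyClosed B]
variable (M : Ideal B) [M.IsPrime] (O : Type*) [CommRing O] [Algebra B O]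
  [IsLocalization.AtPrime O M]

omit [IsDomain B] [IsIntegrallyClosed B] in
include M in
/-- the hypothesis of the pow trick passes to the localisation `O = B_M`. -/
theorem pow_mem_span_of_mem_map {P : Ideal B} {g : B} {n : ℕ} (hP : ∀ z ∈ P, g ∣ z ^ n)
    {z : O} (hz : z ∈ P.map (algebraMap B O)) : algebraMap B O g ∣ z ^ n := by
  rw [IsLocalization.mem_map_algebraMap_iff M.primeCompl] at hz
  obtain ⟨⟨⟨x, hx⟩, s⟩, hzs⟩ := hz
  obtain ⟨c, hc⟩ := hP x hx
  have hs : IsUnit (algebraMap B O (s : B)) := IsLocalization.map_units O s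
  obtain ⟨v, hv⟩ := hs
  refine ⟨algebraMap B O c * (↑v⁻¹) ^ n, ?_⟩
  have h1 : z * ↑v = algebraMap B O x := by rw [hv]; exact hzs
  have h2 : z = algebraMap B O x * ↑v⁻¹ := by
    rw [← h1, mul_assoc, Units.mul_inv, mul_one]
  rw [h2, mul_pow, ← map_pow, hc, map_mul]
  ring

include M in
/-- **the pow trick at a point**: `B` integrally closed, `O = B_M`; if `g ∣ z ^ n` for all
`z ∈ P` and `y ∈ P` has `y ^ n = g * c` with `c ∉ M`, then `P·O = (y)`. -/
theorem map_eq_span_singleton_of_pow {P : Ideal B} {g y c : B} {n : ℕ} (hn : n ≠ 0)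
    (hP : ∀ z ∈ P, g ∣ z ^ n) (hy : y ∈ P) (hyg : y ^ n = g * c) (hc : c ∉ M) :
    P.map (algebraMap B O) = Ideal.span {algebraMap B O y} := by
  have hle : M.primeCompl ≤ nonZeroDivisors B := M.primeCompl_le_nonZeroDivisors
  have : IsDomain O := IsLocalization.isDomain_of_le_nonZeroDivisors O hle
  have : IsIntegrallyClosed O := isIntegrallyClosed_of_isLocalization O M.primeCompl hle
  refine eq_span_singleton_of_pow (g := algebraMap B O g) (u := algebraMap B O c) hn
    (fun z hz => pow_mem_span_of_mem_map M O hP hz) (Ideal.mem_map_of_mem _ hy)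
    (IsLocalization.map_units O (⟨c, hc⟩ : M.primeCompl)) ?_
  rw [← map_pow, hyg, map_mul]

end Localization

section Regular

variable {O : Type*} [CommRing O] [IsDomain O] [IsIntegrallyClosed O] [IsLocalRing O]

/-- **regularity from the pow trick**: if moreover `O ⧸ P` is a DVR, then `𝔪 = (y, t)`. -/
theorem exists_maximalIdeal_eq_span_pair_of_pow {P : Ideal O} {g y u : O} {n : ℕ} (hn : n ≠ 0)
    (hP : ∀ z ∈ P, g ∣ z ^ n) (hy : y ∈ P) (hu : IsUnit u) (hyg : y ^ n = g * u)
    [IsDomain (O ⧸ P)] [IsDiscreteValuationRing (O ⧸ P)] :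
    ∃ t : O, maximalIdeal O = Ideal.span {y, t} := by
  obtain rfl := eq_span_singleton_of_pow hn hP hy hu hyg
  exact RegTwo.exists_maximalIdeal_eq_span_pair_of_quotient_dvr y

/-- **regularity from the pow trick**, UFD form (every height-one prime of `O` is principal). -/
theorem ufd_of_pow [IsNoetherianRing O] {P : Ideal O} {g y u : O} {n : ℕ} (hn : n ≠ 0)
    (hP : ∀ z ∈ P, g ∣ z ^ n) (hy : y ∈ P) (hu : IsUnit u) (hyg : y ^ n = g * u) (hy0 : y ≠ 0)
    [IsDomain (O ⧸ P)] [IsDiscreteValuationRing (O ⧸ P)] :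
    UniqueFactorizationMonoid O := by
  obtain rfl := eq_span_singleton_of_pow hn hP hy hu hyg
  exact RegTwo.ufd_of_quotient_dvr y hy0

end Regular

end Fermat.Agent.GL.PowTrick
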