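/-
GATE-L / PREP (helper92): THICKNESS ONE FROM A COUNT — the abstract core of helper28 2469 (1)
(`ord_P (g~) = n` at every node) and the hand-over to the pow trick (2469 (2)); Mathlib only
(+ `GL/Alg/PrincipalCrit.lean`).

`C` the coordinate ring of the smooth affine component (a Dedekind domain), `J` the (radical) node
ideal, `g ∈ C` (the reduction of an eta-quotient), `n ≥ 1` (`= 12`), and the INTEGRALITY input

  `h : ∀ a ∈ J, g ∣ a ^ n`          (`y^12 / g ∈ B'` for every `y` with `w'_2 y ≥ 1`).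

* `pow_le_span_of_forall_dvd_pow` : `J ^ n ≤ (g)` (any integrally closed domain);
* `normalizedFactors_span_le`, `count_span_le` : `ord_P g ≤ n · ord_P J` for every `P`;
* `card_span_le` : `#zeros(g) ≤ n · #factors(J)`;
* **`span_eq_pow_of_card_le`** : if conversely `n · #factors(J) ≤ #zeros(g)` (the degree count
  `(q-1) ψ(M') = 12 |Σ'|`), then `(g) = J ^ n`: `ord_P g = n` at EVERY node and `g` has no other
  zeros;
* `not_le_sq_of_isRadical`, `nodup_normalizedFactors_of_isRadical`,
  `card_normalizedFactors_eq_ncard` : for `J` radical, `#factors(J) = #{P maximal | J ≤ P}`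
  (`= FrobGlue.nodes J`), `count_eq_of_mem_nodes`;
* **`exists_pow_eq_mul_notMem`** : `(g) = J ^ n`, `J` radical, `P` a node ⟹
  `∃ a ∈ J, ∃ c, a ^ n = g * c ∧ c ∉ P` — the element `y` and the unit `h = y^n / g` of the pow
  trick `PowTrick.map_eq_span_singleton_of_pow` (take any lift `y` of `a`).
-/
import Fermat.Agent.GL.Alg.PrincipalCrit

set_option autoImplicit false

namespace Fermat.Agent.GL.ThickCount

open UniqueFactorizationMonoid

section IntClosed

variable {C : Type*} [CommRing C] [IsDomain C] [IsIntegrallyClosed C]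

/-- `g ∣ a ^ n` for all `a ∈ J` gives `g ^ k ∣ x ^ n` for all `x ∈ J ^ k`. -/
theorem pow_dvd_pow_of_mem_pow {J : Ideal C} {g : C} {n : ℕ} (hn : n ≠ 0)
    (h : ∀ a ∈ J, g ∣ a ^ n) (k : ℕ) : ∀ x ∈ J ^ k, g ^ k ∣ x ^ n := by
  induction k with
  | zero => intro x _; simp
  | succ k ih =>
    intro x hx
    have hle : J ^ (k + 1) ≤ PowTrick.powDvdIdeal (g ^ (k + 1)) hn := by
      rw [pow_succ]
      refine Ideal.mul_le.mpr fun a ha b hb => ?_
      show g ^ (k + 1) ∣ (a * b) ^ n
      rw [mul_pow, pow_succ]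
      exact mul_dvd_mul (ih a ha) (h b hb)
    exact hle hx

/-- **`J ^ n ≤ (g)`** from the integrality input. -/
theorem pow_le_span_of_forall_dvd_pow {J : Ideal C} {g : C} {n : ℕ} (hn : n ≠ 0)
    (h : ∀ a ∈ J, g ∣ a ^ n) : J ^ n ≤ Ideal.span {g} := by
  intro x hx
  rw [Ideal.mem_span_singleton]
  exact (IsIntegrallyClosed.pow_dvd_pow_iff hn).mp (pow_dvd_pow_of_mem_pow hn h n x hx)

end IntClosed

section Dedekind

variable {C : Type*} [CommRing C] [IsDedekindDomain C]

/-- `ord_P g ≤ n · ord_P J` for all `P`, multiset form. -/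
theorem normalizedFactors_span_le {J : Ideal C} {g : C} {n : ℕ} (hn : n ≠ 0) (hJ0 : J ≠ ⊥)
    (h : ∀ a ∈ J, g ∣ a ^ n) :
    normalizedFactors (Ideal.span {g}) ≤ n • normalizedFactors J := by
  have hle := pow_le_span_of_forall_dvd_pow hn h
  have hJn : J ^ n ≠ ⊥ := pow_ne_zero n hJ0
  have hg : Ideal.span {g} ≠ ⊥ := fun h0 => hJn (le_bot_iff.mp (h0 ▸ hle))
  rw [← normalizedFactors_pow]
  exact (dvd_iff_normalizedFactors_le_normalizedFactors hg hJn).mp (Ideal.dvd_iff_le.mpr hle)

open Classical in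
/-- `ord_P g ≤ n · ord_P J`. -/
theorem count_span_le {J : Ideal C} {g : C} {n : ℕ} (hn : n ≠ 0) (hJ0 : J ≠ ⊥)
    (h : ∀ a ∈ J, g ∣ a ^ n) (P : Ideal C) :
    Multiset.count P (normalizedFactors (Ideal.span {g})) ≤
      n * Multiset.count P (normalizedFactors J) := by
  have := Multiset.le_iff_count.mp (normalizedFactors_span_le hn hJ0 h) P
  rwa [Multiset.count_nsmul] at this

/-- `#zeros(g) ≤ n · #factors(J)` (with multiplicities). -/
theorem card_span_le {J : Ideal C} {g : C} {n : ℕ} (hn : n ≠ 0) (hJ0 : J ≠ ⊥)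
    (h : ∀ a ∈ J, g ∣ a ^ n) :
    (normalizedFactors (Ideal.span {g})).card ≤ n * (normalizedFactors J).card := by
  have := Multiset.card_le_card (normalizedFactors_span_le hn hJ0 h)
  rwa [Multiset.card_nsmul] at this

/-- **thickness from the count**: if `g` has at least `n · #factors(J)` zeros, then
`(g) = J ^ n`. -/
theorem span_eq_pow_of_card_le {J : Ideal C} {g : C} {n : ℕ} (hn : n ≠ 0) (hJ0 : J ≠ ⊥)
    (h : ∀ a ∈ J, g ∣ a ^ n)
    (hcard : n * (normalizedFactors J).card ≤ (normalizedFactors (Ideal.span {g})).card) :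
    Ideal.span {g} = J ^ n := by
  have hle := pow_le_span_of_forall_dvd_pow hn h
  have hJn : J ^ n ≠ ⊥ := pow_ne_zero n hJ0
  have hg : Ideal.span {g} ≠ ⊥ := fun h0 => hJn (le_bot_iff.mp (h0 ▸ hle))
  have heq : normalizedFactors (Ideal.span {g}) = n • normalizedFactors J :=
    Multiset.eq_of_le_of_card_le (normalizedFactors_span_le hn hJ0 h)
      (by rw [Multiset.card_nsmul]; exact hcard)
  rw [← normalizedFactors_pow] at heq
  exact associated_iff_eq.mp
    ((associated_iff_normalizedFactors_eq_normalizedFactors hg hJn).mpr heq)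

/-- a nonzero radical ideal of a Dedekind domain is contained in no `P ^ 2`. -/
theorem not_le_sq_of_isRadical {J : Ideal C} (hJ0 : J ≠ ⊥) (hJ : J.IsRadical) (P : Ideal C)
    (hP : P ≠ ⊤) : ¬ J ≤ P ^ 2 := by
  intro hle
  obtain ⟨K, hK⟩ := Ideal.dvd_iff_le.mpr hle
  have h1 : (P * K) ^ 2 ≤ J := by
    rw [hK, mul_pow]
    calc P ^ 2 * K ^ 2 = P ^ 2 * K * K := by ring
      _ ≤ P ^ 2 * K := Ideal.mul_le_left
  have h2 : P * K ≤ J := by
    have h2' := (Ideal.IsRadical.radical_le_iff hJ).mpr h1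
    rw [Ideal.radical_pow _ two_ne_zero] at h2'
    exact (Ideal.IsRadical.radical_le_iff hJ).mp h2'
  have h3 : P ^ 2 * K ∣ P * K := by rw [← hK]; exact Ideal.dvd_iff_le.mpr h2
  have hPK : P * K ≠ 0 := by
    intro h0
    apply hJ0
    rw [hK, sq, mul_assoc, h0, mul_zero]
    rfl
  have h4 : P * K * P ∣ P * K * 1 := by
    rw [mul_one]
    calc P * K * P = P ^ 2 * K := by ring
      _ ∣ P * K := h3
  have h5 : P ∣ 1 := (mul_dvd_mul_iff_left hPK).mp h4
  exact hP (Ideal.isUnit_iff.mp (isUnit_of_dvd_one h5))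

open Classical in
/-- the factors of a radical ideal are distinct. -/
theorem nodup_normalizedFactors_of_isRadical {J : Ideal C} (hJ0 : J ≠ ⊥) (hJ : J.IsRadical) :
    (normalizedFactors J).Nodup := by
  rw [Multiset.nodup_iff_count_le_one]
  intro P
  by_contra hcount
  rw [not_le] at hcount
  by_cases hPmem : P ∈ normalizedFactors J
  · have hPprime := (Ideal.mem_normalizedFactors_iff hJ0).mp hPmem
    have hPtop : P ≠ ⊤ := hPprime.1.ne_top
    apply not_le_sq_of_isRadical hJ0 hJ P hPtop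
    have : Multiset.replicate 2 P ≤ normalizedFactors J := Multiset.le_count_iff_replicate_le.mp hcount
    have hdvd : (Multiset.replicate 2 P).prod ∣ (normalizedFactors J).prod :=
      Multiset.prod_dvd_prod_of_le this
    rw [Multiset.prod_replicate, Ideal.prod_normalizedFactors_eq_self hJ0] at hdvd
    exact Ideal.dvd_iff_le.mp hdvd
  · rw [Multiset.count_eq_zero_of_notMem hPmem] at hcount
    omega

open Classical in
/-- **`#factors(J) = #nodes`** for a radical node ideal. -/
theorem card_normalizedFactors_eq_ncard {J : Ideal C} (hJ0 : J ≠ ⊥) (hJ : J.IsRadical) :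
    (normalizedFactors J).card = {P : Ideal C | P.IsMaximal ∧ J ≤ P}.ncard := by
  have hset : {P : Ideal C | P.IsMaximal ∧ J ≤ P} = ↑(normalizedFactors J).toFinset := by
    ext P
    simp only [Set.mem_ofPred_eq, Finset.mem_coe, Multiset.mem_toFinset,
      Ideal.mem_normalizedFactors_iff hJ0]
    constructor
    · rintro ⟨hP, hle⟩
      exact ⟨hP.isPrime, hle⟩
    · rintro ⟨hP, hle⟩
      exact ⟨hP.isMaximal (fun h0 => hJ0 (le_bot_iff.mp (h0 ▸ hle))), hle⟩
  rw [hset, Set.ncard_coe_finset,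
    Multiset.toFinset_card_of_nodup (nodup_normalizedFactors_of_isRadical hJ0 hJ)]

open Classical in
/-- at a node of a radical ideal the multiplicity is one. -/
theorem count_eq_one_of_le {J : Ideal C} (hJ0 : J ≠ ⊥) (hJ : J.IsRadical) {P : Ideal C}
    (hP : P.IsMaximal) (hle : J ≤ P) : Multiset.count P (normalizedFactors J) = 1 := by
  have h1 : P ∈ normalizedFactors J := (Ideal.mem_normalizedFactors_iff hJ0).mpr ⟨hP.isPrime, hle⟩
  have h2 := Multiset.nodup_iff_count_le_one.mp (nodup_normalizedFactors_of_isRadical hJ0 hJ) P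
  have h3 := Multiset.one_le_count_iff_mem.mpr h1
  omega

/-- a radical ideal has, at each of its nodes `P`, an element with a simple zero: `a ∈ J`,
`a ∉ P ^ 2`. -/
theorem exists_mem_notMem_sq {J : Ideal C} (hJ0 : J ≠ ⊥) (hJ : J.IsRadical) {P : Ideal C}
    (hP : P.IsMaximal) : ∃ a ∈ J, a ∉ P ^ 2 := by
  have := not_le_sq_of_isRadical hJ0 hJ P hP.ne_top
  rw [SetLike.not_le_iff_exists] at this
  exact this

/-- **hand-over to the pow trick**: if `(g) = J ^ n` with `J` radical and `P` is a node, there is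
`a ∈ J` with `a ^ n = g * c`, `c ∉ P` (`a` has a simple zero at `P`, so `a^n / g` is a unit at
`P`). -/
theorem exists_pow_eq_mul_notMem {J : Ideal C} {g : C} {n : ℕ} (hJ0 : J ≠ ⊥) (hJ : J.IsRadical)
    (heq : Ideal.span {g} = J ^ n) {P : Ideal C} (hP : P.IsMaximal) (hle : J ≤ P) :
    ∃ a ∈ J, ∃ c : C, a ^ n = g * c ∧ c ∉ P := by
  obtain ⟨a, haJ, haP⟩ := exists_mem_notMem_sq hJ0 hJ hP
  have han : a ^ n ∈ Ideal.span {g} := by rw [heq]; exact Ideal.pow_mem_pow haJ n
  obtain ⟨c, hc⟩ := Ideal.mem_span_singleton.mp han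
  refine ⟨a, haJ, c, hc, fun hcP => haP ?_⟩
  -- `(a)^n = (g)(c) ≤ J^n P ≤ P^(n+1)`, so `(a) ≤ P^2` unless `n = 0` (then `c = 1 ∉ P`)
  have hPprime : P.IsPrime := hP.isPrime
  have hP0 : P ≠ ⊥ := fun h0 => hJ0 (le_bot_iff.mp (h0 ▸ hle))
  have h1 : Ideal.span {a} ^ n ≤ P ^ (n + 1) := by
    rw [Ideal.span_singleton_pow, hc, ← Ideal.span_singleton_mul_span_singleton, heq, pow_succ]
    exact Ideal.mul_mono (Ideal.pow_right_mono hle n)
      ((Ideal.span_singleton_le_iff_mem P).mpr hcP)
  by_cases hn : n = 0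
  · subst hn
    rw [pow_zero, zero_add, pow_one, Ideal.one_eq_top] at h1
    exact absurd (top_le_iff.mp h1) hP.ne_top
  by_contra haP2
  -- `a ∈ P`, `a ∉ P^2`: the `P`-multiplicity of `(a)` is `1`, that of `(a)^n` is `n < n + 1`
  have haPmem : a ∈ P := hle haJ
  have ha0 : Ideal.span {a} ≠ ⊥ := by
    intro h0
    rw [Ideal.span_singleton_eq_bot] at h0
    exact haP2 (h0 ▸ Ideal.zero_mem _)
  classical
  have hcount1 : Multiset.count P (normalizedFactors (Ideal.span {a})) = 1 :=
    Ideal.count_normalizedFactors_eq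
      (by rw [pow_one]; exact (Ideal.span_singleton_le_iff_mem P).mpr haPmem)
      (by rw [Ideal.span_singleton_le_iff_mem]; exact haP2)
  have hcountn : Multiset.count P (normalizedFactors (Ideal.span {a} ^ n)) = n := by
    rw [normalizedFactors_pow, Multiset.count_nsmul, hcount1, mul_one]
  have hge := Ideal.count_le_of_ideal_ge h1 (pow_ne_zero n ha0) P
  have hPirr : Irreducible P := (Ideal.prime_of_isPrime hP0 hPprime).irreducible
  rw [hcountn, normalizedFactors_pow, Multiset.count_nsmul, normalizedFactors_irreducible hPirr,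
    normalize_eq, Multiset.count_singleton_self] at hge
  omega

end Dedekind

end Fermat.Agent.GL.ThickCount
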