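/-
GATE-L / PREP L3-ABS + L7-ABS (helper46): the 2×3 "vertical" matrix lemma of helper50's audit
(board 2384, items (4) and (6)), in additive and multiplicative form.  Mathlib only.

Setting (`N = q² M'`, unramified DVR base, uniformiser `q`): the Gauss valuation has the three
extensions `w1, w2, w3` to `F_N` with `(e, f) = (1,1), (1,q²), (q-1,1)`.  For a function `u` put
`a1 = w1 u`, `a2 = w2 u`, `b3 = (q-1) * w3 u` (so that everything is an integer; the lattice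
`Lam = ℤ × ℤ × (1/(q-1))ℤ` of report 204 becomes `ℤ³` and its diagonal `ℤ(1,1,1)` becomes
`ℤ (1, 1, q-1)`).  The two degeneracy maps `π, π' : X₀(q²M') → X₀(qM')` give, by the vertical part
of the norm formula,
  `vert (N_π u)  = (a1 + b3, q a2)`,   `vert (N_π' u) = (q a1, a2 + b3)`.
If both norms are `m`-th powers up to constants, then
  `m ∣ a1 + b3 - q a2`   and   `m ∣ q a1 - a2 - b3`.

* `dvd_of_vert`     : then `m ∣ (q+1)(a1 - a2)` and `m ∣ (q+1)(b3 - (q-1) a2)`.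
* `pow_dvd_of_vert` : for `m = p^n` and `q + 1 = p^c * r`, `p ∤ r`:
  `p^(n-c) ∣ a1 - a2` and `p^(n-c) ∣ b3 - (q-1) a2`  (only `q+1` enters, not `q²-1`).
* `mem_diag_add_iff` : `(a1,a2,b3) ∈ ℤ (1,1,q-1) + k ℤ³ ↔ k ∣ a1 - a2 ∧ k ∣ b3 - (q-1) a2`.
* `glue_pow_of_norms` (L7-ABS): the same matrix multiplicatively.  If `a i, b i, d i` are the
  values at the three branches of the glueing class `i` and
  `a i * d i^(q-1) = c * b i^q`, `a i^q = c' * b i * d i^(q-1)` for all `i`, then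
  `a i^(q²-1) = (c c')^(q-1) * b i^(q²-1)` and `d i^(q²-1) * c' = c^q * b i^(q²-1)`:
  the `(q²-1)`-th power of the glueing datum is trivial after ONE global rescaling.
* `ratio_eq_of_pow` : torsion corollaries (`x^k = 1`, `x^m = 1`, `gcd` ⟹ …).
-/
import Mathlib

set_option autoImplicit false

namespace Fermat.Agent.GL.VertMatrix

/-! ### L3-ABS: additive form -/

/-- The two vertical congruences force `(q+1)(a1 - a2) ≡ 0` and `(q+1)(b3 - (q-1) a2) ≡ 0`. -/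
theorem dvd_of_vert {m q a1 a2 b3 : ℤ}
    (h1 : m ∣ a1 + b3 - q * a2) (h2 : m ∣ q * a1 - a2 - b3) :
    m ∣ (q + 1) * (a1 - a2) ∧ m ∣ (q + 1) * (b3 - (q - 1) * a2) := by
  constructor
  · have h := dvd_add h1 h2
    have e : a1 + b3 - q * a2 + (q * a1 - a2 - b3) = (q + 1) * (a1 - a2) := by ring
    rwa [e] at h
  · have h := dvd_sub (Dvd.dvd.mul_left h1 q) h2
    have e : q * (a1 + b3 - q * a2) - (q * a1 - a2 - b3) = (q + 1) * (b3 - (q - 1) * a2) := by
      ring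
    rwa [e] at h

/-- Cancelling the `p`-part of a factor: `p^n ∣ (p^c * r) * x`, `p ∤ r` ⟹ `p^(n-c) ∣ x`. -/
theorem pow_sub_dvd_of_pow_dvd_mul {p : ℤ} (hp : Prime p) {n c : ℕ} {r x : ℤ}
    (hr : ¬ p ∣ r) (h : p ^ n ∣ (p ^ c * r) * x) : p ^ (n - c) ∣ x := by
  rcases le_total n c with hnc | hcn
  · rw [Nat.sub_eq_zero_of_le hnc, pow_zero]
    exact one_dvd x
  · have hn : n = c + (n - c) := by omega
    rw [hn, pow_add, mul_assoc] at h
    have h' : p ^ (n - c) ∣ r * x :=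
      (mul_dvd_mul_iff_left (pow_ne_zero c hp.ne_zero)).1 h
    exact hp.pow_dvd_of_dvd_mul_left (n - c) hr h'

/-- **L3-ABS, `p`-power form.**  With `m = p^n` and `q + 1 = p^c * r`, `p ∤ r`, the two vertical
congruences give `p^(n-c) ∣ a1 - a2` and `p^(n-c) ∣ b3 - (q-1) a2`. -/
theorem pow_dvd_of_vert {p : ℤ} (hp : Prime p) {n c : ℕ} {q r a1 a2 b3 : ℤ}
    (hq : q + 1 = p ^ c * r) (hr : ¬ p ∣ r)
    (h1 : p ^ n ∣ a1 + b3 - q * a2) (h2 : p ^ n ∣ q * a1 - a2 - b3) :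
    p ^ (n - c) ∣ a1 - a2 ∧ p ^ (n - c) ∣ b3 - (q - 1) * a2 := by
  obtain ⟨k1, k2⟩ := dvd_of_vert h1 h2
  rw [hq] at k1 k2
  exact ⟨pow_sub_dvd_of_pow_dvd_mul hp hr k1, pow_sub_dvd_of_pow_dvd_mul hp hr k2⟩

/-- A decomposition `z = p^c * r` with `p ∤ r` exists for every nonzero integer `z`. -/
theorem exists_eq_pow_mul_not_dvd {p : ℤ} (hp : Prime p) {z : ℤ} (hz : z ≠ 0) :
    ∃ (c : ℕ) (r : ℤ), z = p ^ c * r ∧ ¬ p ∣ r := by
  have hfin : FiniteMultiplicity p z :=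
    Int.finiteMultiplicity_iff.2 ⟨fun h => hp.not_isUnit (Int.isUnit_iff_natAbs_eq.2 h), hz⟩
  obtain ⟨r, hr1, hr2⟩ := hfin.exists_eq_pow_mul_and_not_dvd
  exact ⟨_, r, hr1, hr2⟩

/-- **L3-ABS, existential form** (`q + 1 ≠ 0`): there is ONE exponent `c`, depending only on
`p` and `q`, which works for all `n` and all `(a1, a2, b3)`. -/
theorem exists_pow_dvd_of_vert {p : ℤ} (hp : Prime p) {q : ℤ} (hq0 : q + 1 ≠ 0) :
    ∃ c : ℕ, ∀ (n : ℕ) (a1 a2 b3 : ℤ),
      p ^ n ∣ a1 + b3 - q * a2 → p ^ n ∣ q * a1 - a2 - b3 →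
        p ^ (n - c) ∣ a1 - a2 ∧ p ^ (n - c) ∣ b3 - (q - 1) * a2 := by
  obtain ⟨c, r, hq, hr⟩ := exists_eq_pow_mul_not_dvd hp hq0
  exact ⟨c, fun n a1 a2 b3 h1 h2 => pow_dvd_of_vert hp hq hr h1 h2⟩

/-- `(a1, a2, b3)` lies in `ℤ (1, 1, q-1) + k ℤ³` iff `k ∣ a1 - a2` and `k ∣ b3 - (q-1) a2`.
(In the coordinates of report 204: `vert u ∈ ℤ(1,1,1) + k Lam`.) -/
theorem mem_diag_add_iff {k q a1 a2 b3 : ℤ} :
    (∃ t x1 x2 x3 : ℤ, a1 = t + k * x1 ∧ a2 = t + k * x2 ∧ b3 = (q - 1) * t + k * x3) ↔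
      k ∣ a1 - a2 ∧ k ∣ b3 - (q - 1) * a2 := by
  constructor
  · rintro ⟨t, x1, x2, x3, rfl, rfl, rfl⟩
    refine ⟨⟨x1 - x2, by ring⟩, ⟨x3 - (q - 1) * x2, by ring⟩⟩
  · rintro ⟨⟨y1, h1⟩, ⟨y3, h3⟩⟩
    refine ⟨a2, y1, 0, y3, ?_, by ring, ?_⟩
    · linear_combination h1
    · linear_combination h3

/-- Tower step: if the invariants of `u_n` and `u_(n+c)` agree mod `p^n` and those of `u_(n+c)`
vanish mod `p^n`, then those of `u_n` vanish mod `p^n`. -/
theorem dvd_of_congr {k d d' : ℤ} (hcong : k ∣ d - d') (h' : k ∣ d') : k ∣ d := by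
  have := dvd_add hcong h'
  rwa [sub_add_cancel] at this

/-- **L3-ABS, tower form.**  A compatible system: `vert (u_n) ≡ vert (u_(n+c))` modulo
`ℤ(1,1,q-1) + p^n ℤ³` (same class in `Kum_{p^n}`), and every level satisfies the two vertical
congruences.  Then `vert (u_n) ∈ ℤ(1,1,q-1) + p^n ℤ³` for all `n`. -/
theorem vert_tower {p : ℤ} (hp : Prime p) {q : ℤ} (hq0 : q + 1 ≠ 0)
    (a1 a2 b3 : ℕ → ℤ)
    (h1 : ∀ n, p ^ n ∣ a1 n + b3 n - q * a2 n) (h2 : ∀ n, p ^ n ∣ q * a1 n - a2 n - b3 n)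
    (hc1 : ∀ n k, p ^ n ∣ (a1 n - a2 n) - (a1 (n + k) - a2 (n + k)))
    (hc3 : ∀ n k, p ^ n ∣ (b3 n - (q - 1) * a2 n) - (b3 (n + k) - (q - 1) * a2 (n + k))) :
    ∀ n, p ^ n ∣ a1 n - a2 n ∧ p ^ n ∣ b3 n - (q - 1) * a2 n := by
  obtain ⟨c, hc⟩ := exists_pow_dvd_of_vert hp hq0
  intro n
  obtain ⟨k1, k3⟩ := hc (n + c) (a1 (n + c)) (a2 (n + c)) (b3 (n + c)) (h1 (n + c)) (h2 (n + c))
  rw [Nat.add_sub_cancel] at k1 k3
  exact ⟨dvd_of_congr (hc1 n c) k1, dvd_of_congr (hc3 n c) k3⟩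

/-! ### L7-ABS: multiplicative form (glueing constants) -/

section Mul

variable {G : Type*} [CommGroup G]

/-- **L7-ABS.**  `a, b, d` = values (of the `m`-th roots of the three reductions) at the branches
on `C1, C2, C3` of a glueing class.  Triviality of the glueing constants of `π_* v` and `π'_* v`
at level `qM'` reads `a * d^(q-1) = c * b^q` and `a^q = c' * b * d^(q-1)` with GLOBAL constants
`c, c'`.  Then `a^(q²-1) = (c c')^(q-1) * b^(q²-1)` and `d^(q²-1) * c' = c^q * b^(q²-1)`. -/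
theorem glue_pow_of_norms {q : ℕ} (hq : 1 ≤ q) {a b d c c' : G}
    (h1 : a * d ^ (q - 1) = c * b ^ q) (h2 : a ^ q = c' * b * d ^ (q - 1)) :
    a ^ (q ^ 2 - 1) = (c * c') ^ (q - 1) * b ^ (q ^ 2 - 1) ∧
      d ^ (q ^ 2 - 1) * c' = c ^ q * b ^ (q ^ 2 - 1) := by
  obtain ⟨s, rfl⟩ : ∃ s, q = s + 1 := ⟨q - 1, by omega⟩
  simp only [Nat.add_sub_cancel] at h1 h2 ⊢
  have hsq : (s + 1) ^ 2 - 1 = s * (s + 2) := by
    have : (s + 1) ^ 2 = s * (s + 2) + 1 := by ring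
    omega
  rw [hsq]
  -- a^(s+2) = c c' b^(s+2)
  have hA : a ^ (s + 2) = c * c' * b ^ (s + 2) := by
    have : a ^ (s + 2) * d ^ s = c * c' * b ^ (s + 2) * d ^ s := by
      calc a ^ (s + 2) * d ^ s = (a * d ^ s) * a ^ (s + 1) := by
              rw [pow_succ a (s + 1)]; ac_rfl
        _ = (c * b ^ (s + 1)) * (c' * b * d ^ s) := by rw [h1, h2]
        _ = c * c' * b ^ (s + 2) * d ^ s := by
              rw [pow_succ b (s + 1)]; ac_rfl
    exact mul_right_cancel this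
  constructor
  · calc a ^ (s * (s + 2)) = (a ^ (s + 2)) ^ s := by rw [← pow_mul, mul_comm]
      _ = (c * c' * b ^ (s + 2)) ^ s := by rw [hA]
      _ = (c * c') ^ s * b ^ (s * (s + 2)) := by
            rw [mul_pow, ← pow_mul, mul_comm (s + 2) s]
  · -- raise `d^s * a = c * b^(s+1)` to the power `s+2` and substitute `hA`
    have hE : d ^ (s * (s + 2)) * a ^ (s + 2) = c ^ (s + 2) * b ^ ((s + 1) * (s + 2)) := by
      calc d ^ (s * (s + 2)) * a ^ (s + 2) = (a * d ^ s) ^ (s + 2) := by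
              rw [mul_pow, ← pow_mul, mul_comm]
        _ = (c * b ^ (s + 1)) ^ (s + 2) := by rw [h1]
        _ = c ^ (s + 2) * b ^ ((s + 1) * (s + 2)) := by rw [mul_pow, ← pow_mul]
    rw [hA] at hE
    have e1 : (s + 1) * (s + 2) = s * (s + 2) + (s + 2) := by ring
    have : (d ^ (s * (s + 2)) * c') * (c * b ^ (s + 2)) =
        (c ^ (s + 1) * b ^ (s * (s + 2))) * (c * b ^ (s + 2)) := by
      calc (d ^ (s * (s + 2)) * c') * (c * b ^ (s + 2))
            = d ^ (s * (s + 2)) * (c * c' * b ^ (s + 2)) := by ac_rfl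
        _ = c ^ (s + 2) * b ^ ((s + 1) * (s + 2)) := hE
        _ = (c ^ (s + 1) * b ^ (s * (s + 2))) * (c * b ^ (s + 2)) := by
              rw [e1, pow_add b, pow_succ c (s + 1)]; ac_rfl
    exact mul_right_cancel this

/-- Family version: the `(q²-1)`-th powers of the ratios `a i / b i` and `d i / b i` are
constant in `i`. -/
theorem glue_ratio_pow_const {ι : Type*} {q : ℕ} (hq : 1 ≤ q) {a b d : ι → G} {c c' : G}
    (h1 : ∀ i, a i * d i ^ (q - 1) = c * b i ^ q)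
    (h2 : ∀ i, a i ^ q = c' * b i * d i ^ (q - 1)) :
    (∀ i, (a i / b i) ^ (q ^ 2 - 1) = (c * c') ^ (q - 1)) ∧
      ∀ i, (d i / b i) ^ (q ^ 2 - 1) = c ^ q * c'⁻¹ := by
  refine ⟨fun i => ?_, fun i => ?_⟩
  · rw [div_pow, (glue_pow_of_norms hq (h1 i) (h2 i)).1, mul_div_assoc, div_self', mul_one]
  · have h := (glue_pow_of_norms hq (h1 i) (h2 i)).2
    rw [div_pow, div_eq_iff_eq_mul, eq_mul_inv_of_mul_eq h]
    rw [mul_assoc, mul_comm (b i ^ (q ^ 2 - 1)), ← mul_assoc]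

/-- `x^k = 1` and `x^m = 1` ⟹ `x^(gcd k m) = 1`. -/
theorem pow_gcd_eq_one' {x : G} {k m : ℕ} (hk : x ^ k = 1) (hm : x ^ m = 1) :
    x ^ Nat.gcd k m = 1 := by
  have h1 : orderOf x ∣ k := orderOf_dvd_of_pow_eq_one hk
  have h2 : orderOf x ∣ m := orderOf_dvd_of_pow_eq_one hm
  exact orderOf_dvd_iff_pow_eq_one.1 (Nat.dvd_gcd h1 h2)

/-- **Torsion corollary.**  Two families of ratios `r i` (think `a i / b i`) whose `k`-th powers
are constant and whose `m`-th powers are constant (glueing constants are `m`-th roots of unity up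
to one global constant) are constant as soon as `gcd k m = 1`. -/
theorem ratio_const_of_coprime {ι : Type*} {r : ι → G} {k m : ℕ} {C C' : G}
    (hk : ∀ i, r i ^ k = C) (hm : ∀ i, r i ^ m = C') (hcop : Nat.Coprime k m) (i j : ι) :
    r i = r j := by
  have h1 : (r i / r j) ^ k = 1 := by rw [div_pow, hk i, hk j, div_self']
  have h2 : (r i / r j) ^ m = 1 := by rw [div_pow, hm i, hm j, div_self']
  have := pow_gcd_eq_one' h1 h2
  rw [hcop, pow_one] at this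
  exact div_eq_one.1 this

/-- Bounded-torsion form: in general the ratios agree up to `gcd k m`-torsion. -/
theorem ratio_pow_gcd_eq {ι : Type*} {r : ι → G} {k m : ℕ} {C C' : G}
    (hk : ∀ i, r i ^ k = C) (hm : ∀ i, r i ^ m = C') (i j : ι) :
    r i ^ Nat.gcd k m = r j ^ Nat.gcd k m := by
  have h1 : (r i / r j) ^ k = 1 := by rw [div_pow, hk i, hk j, div_self']
  have h2 : (r i / r j) ^ m = 1 := by rw [div_pow, hm i, hm j, div_self']
  have := pow_gcd_eq_one' h1 h2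
  rw [div_pow] at this
  exact div_eq_one.1 this

/-- **L7-ABS, final form.**  Glueing classes `i`, branch values `a i, b i, d i`; the glueing
datum is `m`-torsion up to global constants (`(a i / b i)^m = A`, `(d i / b i)^m = D`), and the
two norm conditions hold.  If `gcd (q²-1) m = 1` the glueing datum is TRIVIAL: `a i / b i` and
`d i / b i` do not depend on `i`. -/
theorem glue_trivial_of_norms {ι : Type*} {q m : ℕ} (hq : 1 ≤ q)
    (hcop : Nat.Coprime (q ^ 2 - 1) m) {a b d : ι → G} {c c' A D : G}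
    (h1 : ∀ i, a i * d i ^ (q - 1) = c * b i ^ q)
    (h2 : ∀ i, a i ^ q = c' * b i * d i ^ (q - 1))
    (hA : ∀ i, (a i / b i) ^ m = A) (hD : ∀ i, (d i / b i) ^ m = D) (i j : ι) :
    a i / b i = a j / b j ∧ d i / b i = d j / b j := by
  obtain ⟨k1, k3⟩ := glue_ratio_pow_const hq h1 h2
  exact ⟨ratio_const_of_coprime (r := fun i => a i / b i) k1 hA hcop i j,
    ratio_const_of_coprime (r := fun i => d i / b i) k3 hD hcop i j⟩

/-- **L7-ABS, bounded-torsion form** (no coprimality): the glueing datum of `g • v`,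
`g = gcd (q²-1) m`, is trivial. -/
theorem glue_pow_gcd_trivial_of_norms {ι : Type*} {q m : ℕ} (hq : 1 ≤ q)
    {a b d : ι → G} {c c' A D : G}
    (h1 : ∀ i, a i * d i ^ (q - 1) = c * b i ^ q)
    (h2 : ∀ i, a i ^ q = c' * b i * d i ^ (q - 1))
    (hA : ∀ i, (a i / b i) ^ m = A) (hD : ∀ i, (d i / b i) ^ m = D) (i j : ι) :
    (a i / b i) ^ Nat.gcd (q ^ 2 - 1) m = (a j / b j) ^ Nat.gcd (q ^ 2 - 1) m ∧
      (d i / b i) ^ Nat.gcd (q ^ 2 - 1) m = (d j / b j) ^ Nat.gcd (q ^ 2 - 1) m := by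
  obtain ⟨k1, k3⟩ := glue_ratio_pow_const hq h1 h2
  exact ⟨ratio_pow_gcd_eq (r := fun i => a i / b i) k1 hA i j,
    ratio_pow_gcd_eq (r := fun i => d i / b i) k3 hD i j⟩

end Mul

end Fermat.Agent.GL.VertMatrix
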