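/-
GATE-L / CHEVALLEY EXTENSION (helper40).  Mathlib only.

`K` a field, `D` a subring of `K`, `k` an algebraically closed field, `χ : D →+* k`.  Then there is
a valuation subring `U ⊇ D` of `K` and a ring homomorphism `e : U →+* k` extending `χ` whose kernel
is the maximal ideal of `U` (`e y ≠ 0 → y⁻¹ ∈ U`)  [Atiyah–Macdonald 5.21, 5.23].

Proof: Zorn on the FUNCTIONAL subrings of `K × k` (graphs of partial homomorphisms).
-/
import Mathlib

set_option autoImplicit false
set_option linter.style.haveILetI false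

namespace Fermat.Agent.GL.Chevalley

open Polynomial

variable {K k : Type*} [Field K] [Field k]

/-- a subring of `K × k` is *functional* if it is the graph of a (partial) map `K → k`. -/
def IsFunctional (G : Subring (K × k)) : Prop := ∀ c : k, ((0 : K), c) ∈ G → c = 0

theorem IsFunctional.snd_eq {G : Subring (K × k)} (hG : IsFunctional G) {x : K} {c d : k}
    (hc : (x, c) ∈ G) (hd : (x, d) ∈ G) : c = d := by
  have h := G.sub_mem hc hd
  have h2 : ((x, c) - (x, d) : K × k) = (0, c - d) := by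
    ext <;> simp
  rw [h2] at h
  exact sub_eq_zero.mp (hG _ h)

/-- the graph of a homomorphism defined on a subring. -/
def graph (S : Subring K) (f : S →+* k) : Subring (K × k) :=
  (S.subtype.prod f).range

theorem mem_graph {S : Subring K} {f : S →+* k} {z : K × k} :
    z ∈ graph S f ↔ ∃ h : z.1 ∈ S, f ⟨z.1, h⟩ = z.2 := by
  constructor
  · rintro ⟨s, rfl⟩
    exact ⟨s.2, rfl⟩
  · rintro ⟨h, hf⟩
    exact ⟨⟨z.1, h⟩, Prod.ext rfl hf⟩

theorem isFunctional_graph (S : Subring K) (f : S →+* k) : IsFunctional (graph S f) := by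
  intro c hc
  obtain ⟨h, hf⟩ := mem_graph.mp hc
  have h0 : (⟨(0 : K), h⟩ : S) = 0 := rfl
  have hf' : f ⟨(0 : K), h⟩ = c := hf
  rw [← hf', h0, map_zero]

/-- the domain of a functional subring. -/
def dom (G : Subring (K × k)) : Subring K := G.map (RingHom.fst K k)

theorem mem_dom {G : Subring (K × k)} {x : K} : x ∈ dom G ↔ ∃ c, (x, c) ∈ G := by
  constructor
  · rintro ⟨z, hz, rfl⟩
    exact ⟨z.2, hz⟩
  · rintro ⟨c, hc⟩
    exact ⟨(x, c), hc, rfl⟩

/-- the value of the partial map. -/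
noncomputable def val (G : Subring (K × k)) (x : dom G) : k := (mem_dom.mp x.2).choose

theorem val_spec (G : Subring (K × k)) (x : dom G) : ((x : K), val G x) ∈ G :=
  (mem_dom.mp x.2).choose_spec

theorem val_eq {G : Subring (K × k)} (hG : IsFunctional G) (x : dom G) {c : k}
    (hc : ((x : K), c) ∈ G) : val G x = c :=
  hG.snd_eq (val_spec G x) hc

/-- the homomorphism of a functional subring. -/
noncomputable def hom {G : Subring (K × k)} (hG : IsFunctional G) : dom G →+* k where
  toFun := val G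
  map_one' := val_eq hG 1 G.one_mem
  map_zero' := val_eq hG 0 G.zero_mem
  map_mul' x y := val_eq hG (x * y) (G.mul_mem (val_spec G x) (val_spec G y))
  map_add' x y := val_eq hG (x + y) (G.add_mem (val_spec G x) (val_spec G y))

theorem hom_eq {G : Subring (K × k)} (hG : IsFunctional G) (x : dom G) {c : k}
    (hc : ((x : K), c) ∈ G) : hom hG x = c := val_eq hG x hc

theorem mem_iff_hom {G : Subring (K × k)} (hG : IsFunctional G) {z : K × k} :
    z ∈ G ↔ ∃ h : z.1 ∈ dom G, hom hG ⟨z.1, h⟩ = z.2 := by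
  constructor
  · intro hz
    have h : z.1 ∈ dom G := mem_dom.mpr ⟨z.2, hz⟩
    exact ⟨h, hom_eq hG ⟨z.1, h⟩ hz⟩
  · rintro ⟨h, hf⟩
    have := val_spec G ⟨z.1, h⟩
    have h2 : val G ⟨z.1, h⟩ = z.2 := hf
    rw [h2] at this
    exact this

theorem graph_hom {G : Subring (K × k)} (hG : IsFunctional G) : graph (dom G) (hom hG) = G := by
  ext z
  rw [mem_graph, mem_iff_hom hG]

theorem dom_graph (S : Subring K) (f : S →+* k) : dom (graph S f) = S := by
  ext x
  rw [mem_dom]
  constructor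
  · rintro ⟨c, hc⟩
    exact (mem_graph.mp hc).1
  · intro hx
    exact ⟨f ⟨x, hx⟩, mem_graph.mpr ⟨hx, rfl⟩⟩

/-! ### Zorn -/

theorem exists_maximal (G0 : Subring (K × k)) (h0 : IsFunctional G0) :
    ∃ G : Subring (K × k), G0 ≤ G ∧ IsFunctional G ∧
      ∀ G' : Subring (K × k), IsFunctional G' → G ≤ G' → G' ≤ G := by
  obtain ⟨G, hG0, hGmax⟩ := zorn_le_nonempty₀ {G : Subring (K × k) | IsFunctional G} (by
    intro c hc hchain y hy
    refine ⟨sSup c, ?_, fun z hz => le_sSup hz⟩
    intro d hd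
    obtain ⟨G, hGc, hdG⟩ := (Subring.mem_sSup_of_directedOn ⟨y, hy⟩ hchain.directedOn).mp hd
    exact hc hGc d hdG) G0 h0
  exact ⟨G, hG0, hGmax.prop, fun G' hG' hle => hGmax.le_of_ge hG' hle⟩

/-! ### (A) inverting an element of nonzero value -/

/-- the subring obtained by inverting `u ∈ G`. -/
def invExt (G : Subring (K × k)) {u : K × k} (hu : u ∈ G) : Subring (K × k) where
  carrier := {z | ∃ n : ℕ, z * u ^ n ∈ G}
  mul_mem' := by
    rintro a b ⟨n, hn⟩ ⟨m, hm⟩
    refine ⟨n + m, ?_⟩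
    have : a * b * u ^ (n + m) = (a * u ^ n) * (b * u ^ m) := by rw [pow_add]; ring
    rw [this]
    exact G.mul_mem hn hm
  one_mem' := ⟨0, by rw [pow_zero, mul_one]; exact G.one_mem⟩
  add_mem' := by
    rintro a b ⟨n, hn⟩ ⟨m, hm⟩
    refine ⟨n + m, ?_⟩
    have : (a + b) * u ^ (n + m) = (a * u ^ n) * u ^ m + (b * u ^ m) * u ^ n := by
      rw [pow_add]; ring
    rw [this]
    exact G.add_mem (G.mul_mem hn (G.pow_mem hu m)) (G.mul_mem hm (G.pow_mem hu n))
  zero_mem' := ⟨0, by rw [zero_mul]; exact G.zero_mem⟩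
  neg_mem' := by
    rintro a ⟨n, hn⟩
    refine ⟨n, ?_⟩
    rw [neg_mul]
    exact G.neg_mem hn

theorem le_invExt (G : Subring (K × k)) {u : K × k} (hu : u ∈ G) : G ≤ invExt G hu := by
  intro z hz
  exact ⟨0, by rw [pow_zero, mul_one]; exact hz⟩

theorem isFunctional_invExt {G : Subring (K × k)} (hG : IsFunctional G) {u : K × k} (hu : u ∈ G)
    (hu2 : u.2 ≠ 0) : IsFunctional (invExt G hu) := by
  rintro c ⟨n, hn⟩
  have h2 : ((0 : K), c) * u ^ n = (0, c * u.2 ^ n) := by
    ext <;> simp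
  rw [h2] at hn
  have := hG _ hn
  rcases mul_eq_zero.mp this with h | h
  · exact h
  · exact absurd (pow_eq_zero_iff (M₀ := k) (n := n) (by
      rintro rfl
      simp at h) |>.mp h) hu2

/-- a maximal functional subring. -/
structure IsMaxFun (G : Subring (K × k)) : Prop where
  fn : IsFunctional G
  max : ∀ G' : Subring (K × k), IsFunctional G' → G ≤ G' → G' ≤ G

theorem IsMaxFun.inv_mem {G : Subring (K × k)} (hG : IsMaxFun G) {s : K} {c : k}
    (h : (s, c) ∈ G) (hc : c ≠ 0) : (s⁻¹, c⁻¹) ∈ G := by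
  have hs : s ≠ 0 := by
    rintro rfl
    exact hc (hG.fn c h)
  apply hG.max _ (isFunctional_invExt hG.fn h hc) (le_invExt G h)
  refine ⟨1, ?_⟩
  have : ((s⁻¹, c⁻¹) : K × k) * (s, c) ^ 1 = 1 := by
    ext
    · simp [hs]
    · simp [hc]
  rw [this]
  exact G.one_mem

/-- the domain of a maximal functional subring contains the inverses of the elements of nonzero
value. -/
theorem IsMaxFun.inv_mem_dom {G : Subring (K × k)} (hG : IsMaxFun G) (x : dom G)
    (hx : hom hG.fn x ≠ 0) : (x : K)⁻¹ ∈ dom G := by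
  have h1 : ((x : K), hom hG.fn x) ∈ G := val_spec G x
  exact mem_dom.mpr ⟨_, hG.inv_mem h1 hx⟩

/-- maximality, in terms of extensions of the homomorphism. -/
theorem IsMaxFun.le_dom {G : Subring (K × k)} (hG : IsMaxFun G) (S' : Subring K) (f' : S' →+* k)
    (hS : dom G ≤ S') (hf : ∀ x : dom G, f' ⟨x, hS x.2⟩ = hom hG.fn x) : S' ≤ dom G := by
  have hle : G ≤ graph S' f' := by
    intro z hz
    obtain ⟨h, hz2⟩ := (mem_iff_hom hG.fn).mp hz
    exact mem_graph.mpr ⟨hS h, by rw [← hz2]; exact hf ⟨z.1, h⟩⟩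
  have := hG.max _ (isFunctional_graph S' f') hle
  intro x hx
  exact mem_dom.mpr ⟨f' ⟨x, hx⟩, this (mem_graph.mpr ⟨hx, rfl⟩)⟩

theorem IsMaxFun.ker_isMaximal {G : Subring (K × k)} (hG : IsMaxFun G) :
    (RingHom.ker (hom hG.fn)).IsMaximal := by
  rw [Ideal.isMaximal_iff]
  refine ⟨fun h1 => ?_, ?_⟩
  · rw [RingHom.mem_ker, map_one] at h1
    exact one_ne_zero h1
  · intro J x _ hx hxJ
    rw [RingHom.mem_ker] at hx
    have hinv := hG.inv_mem_dom x hx
    have hx0 : (x : K) ≠ 0 := by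
      intro h0
      apply hx
      have : x = 0 := Subtype.ext h0
      rw [this, map_zero]
    have : (1 : dom G) = ⟨(x : K)⁻¹, hinv⟩ * x := by
      apply Subtype.ext
      show (1 : K) = (x : K)⁻¹ * (x : K)
      rw [inv_mul_cancel₀ hx0]
    rw [this]
    exact J.mul_mem_left _ hxJ

/-! ### (E') the extension step -/

section Ext

variable [IsAlgClosed k]

set_option synthInstance.maxHeartbeats 200000 in
set_option maxHeartbeats 1000000 in
/-- **(E')**: if the maximal ideal of `S = dom G` does not generate the unit ideal of `S[y]`, then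
`y ∈ S`. -/
theorem IsMaxFun.mem_dom_of_map_ne_top {G : Subring (K × k)} (hG : IsMaxFun G) (y : K)
    (hy : (RingHom.ker (hom hG.fn)).map
      (algebraMap (dom G) (Algebra.adjoin (dom G) ({y} : Set K))) ≠ ⊤) : y ∈ dom G := by
  classical
  haveI hmmax : (RingHom.ker (hom hG.fn)).IsMaximal := hG.ker_isMaximal
  obtain ⟨m', hm'max, hle⟩ := Ideal.exists_le_maximal _ hy
  haveI := hm'max
  letI : Field (dom G ⧸ RingHom.ker (hom hG.fn)) := Ideal.Quotient.field _
  letI : Field (Algebra.adjoin (dom G) ({y} : Set K) ⧸ m') := Ideal.Quotient.field m'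
  -- algebra structures
  have hker1 : ∀ a ∈ RingHom.ker (hom hG.fn),
      algebraMap (dom G) (Algebra.adjoin (dom G) ({y} : Set K) ⧸ m') a = 0 := by
    intro a ha
    rw [IsScalarTower.algebraMap_apply (dom G) (Algebra.adjoin (dom G) ({y} : Set K))
      (Algebra.adjoin (dom G) ({y} : Set K) ⧸ m'), Ideal.Quotient.algebraMap_eq,
      Ideal.Quotient.eq_zero_iff_mem]
    exact hle (Ideal.mem_map_of_mem _ ha)
  letI algRL : Algebra (dom G ⧸ RingHom.ker (hom hG.fn))
      (Algebra.adjoin (dom G) ({y} : Set K) ⧸ m') :=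
    (Ideal.Quotient.lift _ (algebraMap (dom G) (Algebra.adjoin (dom G) ({y} : Set K) ⧸ m'))
      hker1).toAlgebra
  letI algRk : Algebra (dom G ⧸ RingHom.ker (hom hG.fn)) k :=
    (Ideal.Quotient.lift _ (hom hG.fn) (fun a ha => ha)).toAlgebra
  haveI : IsScalarTower (dom G) (dom G ⧸ RingHom.ker (hom hG.fn))
      (Algebra.adjoin (dom G) ({y} : Set K) ⧸ m') :=
    IsScalarTower.of_algebraMap_eq (fun s => rfl)
  -- the generator
  set y' : Algebra.adjoin (dom G) ({y} : Set K) := ⟨y, Algebra.subset_adjoin rfl⟩ with hy'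
  set ybar : Algebra.adjoin (dom G) ({y} : Set K) ⧸ m' := Ideal.Quotient.mk m' y' with hybar
  have hsurj : Function.Surjective
      (aeval (R := dom G ⧸ RingHom.ker (hom hG.fn)) ybar) := by
    intro z'
    obtain ⟨z, rfl⟩ := Ideal.Quotient.mk_surjective z'
    have hz : (z : K) ∈ (aeval (R := dom G) y).range := by
      rw [← Algebra.adjoin_singleton_eq_range_aeval]
      exact z.2
    obtain ⟨p, hp⟩ := hz
    refine ⟨p.map (algebraMap (dom G) (dom G ⧸ RingHom.ker (hom hG.fn))), ?_⟩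
    rw [aeval_map_algebraMap]
    have h1 : aeval ybar p = Ideal.Quotient.mk m' (aeval y' p) := by
      rw [hybar, ← Ideal.Quotient.mkₐ_eq_mk (dom G) m', ← aeval_algHom_apply]
    rw [h1]
    congr 1
    apply Subtype.ext
    rw [aeval_subalgebra_coe]
    exact hp
  haveI : Algebra.FiniteType (dom G ⧸ RingHom.ker (hom hG.fn))
      (Algebra.adjoin (dom G) ({y} : Set K) ⧸ m') :=
    Algebra.FiniteType.of_surjective (aeval ybar) hsurj
  haveI : Module.Finite (dom G ⧸ RingHom.ker (hom hG.fn))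
      (Algebra.adjoin (dom G) ({y} : Set K) ⧸ m') :=
    finite_of_finite_type_of_isJacobsonRing _ _
  haveI : Algebra.IsAlgebraic (dom G ⧸ RingHom.ker (hom hG.fn))
      (Algebra.adjoin (dom G) ({y} : Set K) ⧸ m') := Algebra.IsAlgebraic.of_finite _ _
  haveI tf1 : Module.IsTorsionFree (dom G ⧸ RingHom.ker (hom hG.fn))
      (Algebra.adjoin (dom G) ({y} : Set K) ⧸ m') := DivisionSemiring.to_moduleIsTorsionFree
  haveI tf2 : Module.IsTorsionFree (dom G ⧸ RingHom.ker (hom hG.fn)) k :=
    DivisionSemiring.to_moduleIsTorsionFree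
  let g : (Algebra.adjoin (dom G) ({y} : Set K) ⧸ m') →ₐ[dom G ⧸ RingHom.ker (hom hG.fn)] k :=
    IsAlgClosed.lift
  -- the extension of the homomorphism
  let idH : (Algebra.adjoin (dom G) ({y} : Set K)).toSubring →+*
      Algebra.adjoin (dom G) ({y} : Set K) :=
    { toFun := fun x => ⟨x.1, x.2⟩
      map_one' := rfl
      map_mul' := fun _ _ => rfl
      map_zero' := rfl
      map_add' := fun _ _ => rfl }
  let f' : (Algebra.adjoin (dom G) ({y} : Set K)).toSubring →+* k :=
    (g.toRingHom.comp (Ideal.Quotient.mk m')).comp idH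
  have hS : dom G ≤ (Algebra.adjoin (dom G) ({y} : Set K)).toSubring := by
    intro x hx
    exact (Algebra.adjoin (dom G) ({y} : Set K)).algebraMap_mem ⟨x, hx⟩
  have hf : ∀ x : dom G, f' ⟨x, hS x.2⟩ = hom hG.fn x := by
    intro x
    show g (Ideal.Quotient.mk m' (algebraMap (dom G) (Algebra.adjoin (dom G) ({y} : Set K)) x)) = _
    have h2 : Ideal.Quotient.mk m' (algebraMap (dom G) (Algebra.adjoin (dom G) ({y} : Set K)) x) =
        algebraMap (dom G ⧸ RingHom.ker (hom hG.fn)) (Algebra.adjoin (dom G) ({y} : Set K) ⧸ m')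
          (Ideal.Quotient.mk _ x) := rfl
    rw [h2, g.commutes]
    rfl
  exact hG.le_dom _ f' hS hf (Algebra.subset_adjoin rfl)

/-- integral elements lie in the domain. -/
theorem IsMaxFun.mem_dom_of_isIntegral {G : Subring (K × k)} (hG : IsMaxFun G) {y : K}
    (hy : IsIntegral (dom G) y) : y ∈ dom G := by
  haveI hmmax : (RingHom.ker (hom hG.fn)).IsMaximal := hG.ker_isMaximal
  apply hG.mem_dom_of_map_ne_top y
  haveI : Algebra.IsIntegral (dom G) (Algebra.adjoin (dom G) ({y} : Set K)) :=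
    Algebra.IsIntegral.adjoin (fun s hs => by
      rw [Set.mem_singleton_iff.mp hs]
      exact hy)
  have hinj : Function.Injective
      (algebraMap (dom G) (Algebra.adjoin (dom G) ({y} : Set K))) := by
    intro a b hab
    apply Subtype.ext
    have := congrArg (fun z : Algebra.adjoin (dom G) ({y} : Set K) => (z : K)) hab
    exact this
  obtain ⟨Q, hQmax, hQ⟩ := Ideal.exists_ideal_over_maximal_of_isIntegral
    (S := Algebra.adjoin (dom G) ({y} : Set K)) (RingHom.ker (hom hG.fn)) (by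
      rw [(RingHom.injective_iff_ker_eq_bot _).mp hinj]
      exact bot_le)
  intro htop
  have hle : (RingHom.ker (hom hG.fn)).map
      (algebraMap (dom G) (Algebra.adjoin (dom G) ({y} : Set K))) ≤ Q := by
    rw [Ideal.map_le_iff_le_comap, hQ]
  rw [htop, top_le_iff] at hle
  exact hQmax.ne_top hle

/-- the domain of a maximal functional subring is a valuation subring. -/
theorem IsMaxFun.mem_or_inv_mem {G : Subring (K × k)} (hG : IsMaxFun G) (x : K) :
    x ∈ dom G ∨ x⁻¹ ∈ dom G := by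
  classical
  haveI hmmax : (RingHom.ker (hom hG.fn)).IsMaximal := hG.ker_isMaximal
  by_cases hx : x ∈ dom G
  · exact Or.inl hx
  right
  have hx0 : x ≠ 0 := fun e => hx (e ▸ zero_mem _)
  letI := invertibleOfNonzero hx0
  -- `m S[x] = ⊤`
  have htop : (RingHom.ker (hom hG.fn)).map
      (algebraMap (dom G) (Algebra.adjoin (dom G) ({x} : Set K))) = ⊤ := by
    by_contra hne
    exact hx (hG.mem_dom_of_map_ne_top x hne)
  obtain ⟨p, hp, hpx⟩ := Algebra.exists_aeval_invOf_eq_zero_of_idealMap_adjoin_sup_span_eq_top x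
    (RingHom.ker (hom hG.fn)) hmmax.ne_top (by rw [htop, top_sup_eq])
  -- the leading coefficient is a unit
  have hlc : hom hG.fn p.leadingCoeff ≠ 0 := by
    intro h0
    have h1 : p.leadingCoeff ∈ RingHom.ker (hom hG.fn) := h0
    have := (RingHom.ker (hom hG.fn)).sub_mem h1 hp
    rw [sub_sub_cancel] at this
    exact hmmax.ne_top ((Ideal.eq_top_iff_one _).mpr this)
  have hinv := hG.inv_mem_dom p.leadingCoeff hlc
  have hlc0 : (p.leadingCoeff : K) ≠ 0 := by
    intro h0
    apply hlc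
    have : p.leadingCoeff = 0 := Subtype.ext h0
    rw [this, map_zero]
  apply hG.mem_dom_of_isIntegral
  refine ⟨C (⟨(p.leadingCoeff : K)⁻¹, hinv⟩ : dom G) * p, ?_, ?_⟩
  · rw [Monic, leadingCoeff_mul, leadingCoeff_C]
    apply Subtype.ext
    show (p.leadingCoeff : K)⁻¹ * (p.leadingCoeff : K) = 1
    exact inv_mul_cancel₀ hlc0
  · rw [← aeval_def, map_mul, invOf_eq_inv] at *
    rw [hpx, mul_zero]

/-- **Chevalley's extension theorem**: a homomorphism from a subring `D` of a field `K` to an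
algebraically closed field `k` extends to a valuation subring `U ⊇ D` of `K`, with kernel the
maximal ideal of `U`. -/
theorem exists_valuationSubring_extension (D : Subring K) (χ : D →+* k) :
    ∃ (U : ValuationSubring K) (e : U →+* k), ∃ hDU : ∀ d ∈ D, d ∈ U,
      (∀ (d : K) (hd : d ∈ D), e ⟨d, hDU d hd⟩ = χ ⟨d, hd⟩) ∧
        ∀ (y : K) (hy : y ∈ U), e ⟨y, hy⟩ ≠ 0 → y⁻¹ ∈ U := by
  obtain ⟨G, hG0, hGf, hGmax⟩ := exists_maximal (graph D χ) (isFunctional_graph D χ)
  have hG : IsMaxFun G := ⟨hGf, hGmax⟩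
  let U : ValuationSubring K :=
    { dom G with mem_or_inv_mem' := hG.mem_or_inv_mem }
  let idH : U →+* dom G :=
    { toFun := fun x => ⟨x.1, x.2⟩
      map_one' := rfl
      map_mul' := fun _ _ => rfl
      map_zero' := rfl
      map_add' := fun _ _ => rfl }
  have hDU : ∀ d ∈ D, d ∈ U := by
    intro d hd
    exact mem_dom.mpr ⟨χ ⟨d, hd⟩, hG0 (mem_graph.mpr ⟨hd, rfl⟩)⟩
  refine ⟨U, (hom hG.fn).comp idH, hDU, ?_, ?_⟩
  · intro d hd
    exact hom_eq hG.fn ⟨d, hDU d hd⟩ (hG0 (mem_graph.mpr ⟨hd, rfl⟩))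
  · intro y hy hne
    exact hG.inv_mem_dom ⟨y, hy⟩ hne

end Ext

end Fermat.Agent.GL.Chevalley
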