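/-
GATE-L / (CH) CHEVALLEY EXTENSION (helper4; Mathlib only).

`K` a field, `D` a subring of `K`, `k` an algebraically closed field, `χ : D →+* k`.  Then there is a
valuation subring `U ⊇ D` of `K` and a ring homomorphism `e : U →+* k` extending `χ` whose kernel
is the maximal ideal of `U` (`e y ≠ 0 → y⁻¹ ∈ U`).

Proof (Atiyah–Macdonald 5.21): Zorn on the "functional" subrings of `K × k` (graphs of ring
homomorphisms from a subring of `K` to `k`).
-/
import Mathlib

set_option autoImplicit false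
set_option linter.style.haveILetI false
set_option linter.unusedSectionVars false

namespace Fermat.Agent.GL.Alg.ChevalleyExt

open Polynomial

variable {K k : Type*} [Field K] [Field k]

/-! ### Functional subrings of `K × k` -/

/-- A subring of `K × k` is functional if it is the graph of a map. -/
def Functional (G : Subring (K × k)) : Prop := ∀ x ∈ G, x.1 = 0 → x.2 = 0

theorem exists_maximal_functional (G₀ : Subring (K × k)) (h₀ : Functional G₀) :
    ∃ G, G₀ ≤ G ∧ Maximal (fun G : Subring (K × k) => Functional G) G := by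
  refine zorn_le_nonempty₀ {G : Subring (K × k) | Functional G} ?_ G₀ h₀
  intro c hc hchain y hy
  refine ⟨sSup c, ?_, fun z hz => le_sSup hz⟩
  intro x hx hx1
  obtain ⟨G, hG, hxG⟩ := (Subring.mem_sSup_of_directedOn ⟨y, hy⟩ hchain.directedOn).1 hx
  exact hc hG x hxG hx1

/-- The localisation of `G` at an element `c ∈ G`. -/
def locAt (G : Subring (K × k)) {c : K × k} (hc : c ∈ G) : Subring (K × k) where
  carrier := {x | ∃ n : ℕ, c ^ n * x ∈ G}
  mul_mem' := by
    rintro x y ⟨n, hn⟩ ⟨m, hm⟩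
    refine ⟨n + m, ?_⟩
    have e : c ^ (n + m) * (x * y) = (c ^ n * x) * (c ^ m * y) := by ring
    rw [e]
    exact G.mul_mem hn hm
  one_mem' := ⟨0, by simp⟩
  add_mem' := by
    rintro x y ⟨n, hn⟩ ⟨m, hm⟩
    refine ⟨n + m, ?_⟩
    have e : c ^ (n + m) * (x + y) = c ^ m * (c ^ n * x) + c ^ n * (c ^ m * y) := by ring
    rw [e]
    exact G.add_mem (G.mul_mem (pow_mem hc m) hn) (G.mul_mem (pow_mem hc n) hm)
  zero_mem' := ⟨0, by simp⟩
  neg_mem' := by
    rintro x ⟨n, hn⟩
    refine ⟨n, ?_⟩
    rw [mul_neg]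
    exact G.neg_mem hn

theorem le_locAt (G : Subring (K × k)) {c : K × k} (hc : c ∈ G) : G ≤ locAt G hc :=
  fun x hx => ⟨0, by simpa using hx⟩

theorem functional_locAt {G : Subring (K × k)} (hG : Functional G) {c : K × k} (hc : c ∈ G)
    (hc2 : c.2 ≠ 0) : Functional (locAt G hc) := by
  rintro x ⟨n, hn⟩ hx1
  have h1 : (c ^ n * x).1 = 0 := by
    rw [Prod.fst_mul, hx1, mul_zero]
  have h2 := hG _ hn h1
  rw [Prod.snd_mul, Prod.pow_snd] at h2
  exact (mul_eq_zero.1 h2).resolve_left (pow_ne_zero n hc2)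

/-- **Step 1**: a maximal functional subring contains the inverses of its elements with nonzero
second component. -/
theorem inv_mem_of_maximal {G : Subring (K × k)}
    (hG : Maximal (fun G : Subring (K × k) => Functional G) G) {c : K × k} (hc : c ∈ G)
    (hc2 : c.2 ≠ 0) : (c.1⁻¹, c.2⁻¹) ∈ G := by
  have hc1 : c.1 ≠ 0 := fun h => hc2 (hG.prop c hc h)
  have hle : locAt G hc ≤ G := hG.le_of_ge (functional_locAt hG.prop hc hc2) (le_locAt G hc)
  apply hle
  refine ⟨1, ?_⟩
  have e : c ^ 1 * (c.1⁻¹, c.2⁻¹) = 1 := by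
    rw [pow_one]
    ext
    · simp [hc1]
    · simp [hc2]
  rw [e]
  exact G.one_mem

/-! ### From a functional subring to a pair `(A, f)` -/

section Pair

variable (G : Subring (K × k))

/-- the domain of a functional subring -/
def dom : Subring K := ((RingHom.fst K k).comp G.subtype).range

theorem mem_dom {a : K} : a ∈ dom G ↔ ∃ b : k, (a, b) ∈ G := by
  constructor
  · rintro ⟨g, rfl⟩
    exact ⟨g.1.2, g.2⟩
  · rintro ⟨b, hb⟩
    exact ⟨⟨(a, b), hb⟩, rfl⟩

variable {G}

theorem fst_injective (hG : Functional G) :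
    Function.Injective ((RingHom.fst K k).comp G.subtype).rangeRestrict := by
  rw [injective_iff_map_eq_zero]
  intro g hg
  have h1 : g.1.1 = 0 := congrArg Subtype.val hg
  have h2 : g.1.2 = 0 := hG g.1 g.2 h1
  exact Subtype.ext (Prod.ext h1 h2)

/-- the ring isomorphism of a functional subring with its domain -/
noncomputable def domEquiv (hG : Functional G) : G ≃+* dom G :=
  RingEquiv.ofBijective ((RingHom.fst K k).comp G.subtype).rangeRestrict
    ⟨fst_injective hG, RingHom.rangeRestrict_surjective _⟩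

/-- the function whose graph is the functional subring `G` -/
noncomputable def fn (hG : Functional G) : dom G →+* k :=
  ((RingHom.snd K k).comp G.subtype).comp (domEquiv hG).symm.toRingHom

theorem graph_mem (hG : Functional G) (a : dom G) : ((a : K), fn hG a) ∈ G := by
  have h1 : ((domEquiv hG) ((domEquiv hG).symm a) : K) = (((domEquiv hG).symm a : G) : K × k).1 :=
    rfl
  rw [RingEquiv.apply_symm_apply] at h1
  have h2 : fn hG a = (((domEquiv hG).symm a : G) : K × k).2 := rfl
  rw [h1, h2]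
  exact ((domEquiv hG).symm a).2

theorem fn_eq (hG : Functional G) {a : K} {b : k} (h : (a, b) ∈ G) :
    fn hG ⟨a, (mem_dom G).2 ⟨b, h⟩⟩ = b := by
  have h1 := graph_mem hG ⟨a, (mem_dom G).2 ⟨b, h⟩⟩
  have h2 := G.sub_mem h h1
  have h3 : b - fn hG ⟨a, (mem_dom G).2 ⟨b, h⟩⟩ = 0 := hG _ h2 (by simp)
  exact (sub_eq_zero.1 h3).symm

end Pair

/-! ### Extending a homomorphism along an algebraic residue extension -/

section Ext

/-- **Extension lemma**: `f : A →+* k` with maximal kernel `p`, `k` algebraically closed, `Q` a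
maximal ideal of the `A`-algebra `S` over `p` with `S ⧸ Q` algebraic over `A ⧸ p`: then `f`
extends to `S`. -/
theorem exists_extension {A S : Type*} [CommRing A] [CommRing S] [Algebra A S] [IsAlgClosed k]
    (f : A →+* k) [hp : (RingHom.ker f).IsMaximal] (Q : Ideal S) [hQ : Q.IsMaximal]
    [Q.LiesOver (RingHom.ker f)] [Algebra.IsAlgebraic (A ⧸ RingHom.ker f) (S ⧸ Q)] :
    ∃ f' : S →+* k, ∀ a, f' (algebraMap A S a) = f a := by
  letI : Field (A ⧸ RingHom.ker f) := Ideal.Quotient.field _
  letI : Field (S ⧸ Q) := Ideal.Quotient.field _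
  letI : Algebra (A ⧸ RingHom.ker f) k :=
    (Ideal.Quotient.lift (RingHom.ker f) f (fun a ha => ha)).toAlgebra
  let φ : (S ⧸ Q) →ₐ[A ⧸ RingHom.ker f] k := IsAlgClosed.lift
  refine ⟨(φ : (S ⧸ Q) →+* k).comp (Ideal.Quotient.mk Q), fun a => ?_⟩
  have h1 : Ideal.Quotient.mk Q (algebraMap A S a) =
      algebraMap (A ⧸ RingHom.ker f) (S ⧸ Q) (Ideal.Quotient.mk _ a) := rfl
  rw [RingHom.comp_apply, h1]
  have h2 := φ.commutes (Ideal.Quotient.mk (RingHom.ker f) a)
  rw [RingHom.coe_coe, h2]
  rfl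

end Ext

/-! ### A maximal functional subring is the graph of a place -/

section Max

variable {G : Subring (K × k)} (hG : Maximal (fun G : Subring (K × k) => Functional G) G)

include hG in
/-- maximality, in the language of pairs -/
theorem mem_dom_of_extends {S' : Type*} [CommRing S'] (ι : S' →+* K) (hι : Function.Injective ι)
    (f' : S' →+* k) (h : ∀ a : dom G, ∃ s : S', ι s = a ∧ f' s = fn hG.prop a) (s : S') :
    ι s ∈ dom G := by
  have hfun : Functional (RingHom.prod ι f').range := by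
    rintro x ⟨s, rfl⟩ hx
    have hs : s = 0 := hι (by rw [map_zero]; exact hx)
    simp [hs]
  have hle : G ≤ (RingHom.prod ι f').range := by
    intro g hg
    have ha : g.1 ∈ dom G := (mem_dom G).2 ⟨g.2, hg⟩
    obtain ⟨s, hs1, hs2⟩ := h ⟨g.1, ha⟩
    refine ⟨s, ?_⟩
    rw [RingHom.prod_apply, hs1, hs2, fn_eq hG.prop hg]
  have hge := hG.le_of_ge hfun hle
  exact (mem_dom G).2 ⟨f' s, hge ⟨s, rfl⟩⟩

include hG in
theorem inv_mem_dom (a : dom G) (ha : fn hG.prop a ≠ 0) : (a : K)⁻¹ ∈ dom G :=
  (mem_dom G).2 ⟨_, inv_mem_of_maximal hG (graph_mem hG.prop a) ha⟩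

include hG in
theorem isUnit_of_fn_ne_zero (a : dom G) (ha : fn hG.prop a ≠ 0) : IsUnit a := by
  have ha0 : (a : K) ≠ 0 := by
    intro h0
    apply ha
    have : a = 0 := Subtype.ext h0
    rw [this, map_zero]
  exact isUnit_iff_exists_inv.2 ⟨⟨(a : K)⁻¹, inv_mem_dom hG a ha⟩,
    Subtype.ext (mul_inv_cancel₀ ha0)⟩

include hG in
theorem ker_isMaximal : (RingHom.ker (fn hG.prop)).IsMaximal := by
  rw [Ideal.isMaximal_iff]
  refine ⟨fun h => ?_, fun J x _ hx hxJ => ?_⟩
  · rw [RingHom.mem_ker, map_one] at h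
    exact one_ne_zero h
  · have hu := isUnit_of_fn_ne_zero hG x (fun h => hx ((RingHom.mem_ker).2 h))
    exact (Ideal.eq_top_of_isUnit_mem J hxJ hu) ▸ Submodule.mem_top

variable [IsAlgClosed k]

/-- the canonical injection of a subalgebra of `K` -/
theorem algebraMap_injective_sub (S : Subalgebra (dom G) K) :
    Function.Injective (algebraMap (dom G) S) := fun _ _ h =>
  Subtype.ext (congrArg (fun s : S => (s : K)) h)

include hG in
/-- if `f` extends to the subalgebra `S`, then `S ⊆ dom G` -/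
theorem mem_dom_of_extension (S : Subalgebra (dom G) K) (f' : S →+* k)
    (hf' : ∀ a, f' (algebraMap (dom G) S a) = fn hG.prop a) (s : S) : (s : K) ∈ dom G :=
  mem_dom_of_extends hG (algebraMap S K) Subtype.val_injective f'
    (fun a => ⟨algebraMap (dom G) S a, rfl, hf' a⟩) s

include hG in
/-- **Step 2c**: the domain of a maximal functional subring is integrally closed in `K`. -/
theorem mem_dom_of_isIntegral {z : K} (hz : IsIntegral (dom G) z) : z ∈ dom G := by
  haveI := ker_isMaximal hG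
  let S := Algebra.adjoin (dom G) {z}
  have : Algebra.IsIntegral (dom G) S := Algebra.IsIntegral.adjoin (by simpa)
  have hker : RingHom.ker (algebraMap (dom G) S) ≤ RingHom.ker (fn hG.prop) := by
    rw [(RingHom.injective_iff_ker_eq_bot _).1 (algebraMap_injective_sub S)]
    exact bot_le
  obtain ⟨Q, hQ, e⟩ := Ideal.exists_ideal_over_maximal_of_isIntegral (S := S)
    (RingHom.ker (fn hG.prop)) hker
  haveI : Q.LiesOver (RingHom.ker (fn hG.prop)) := ⟨e.symm⟩
  haveI : Algebra.IsAlgebraic (dom G ⧸ RingHom.ker (fn hG.prop)) (S ⧸ Q) := by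
    letI : Field (dom G ⧸ RingHom.ker (fn hG.prop)) := Ideal.Quotient.field _
    exact Algebra.IsIntegral.isAlgebraic
  obtain ⟨f', hf'⟩ := exists_extension (fn hG.prop) Q
  exact mem_dom_of_extension hG S f' hf' ⟨z, Algebra.self_mem_adjoin_singleton _ _⟩

include hG in
/-- **Step 2a**: if `x ∉ dom G` then the kernel of `f` generates the unit ideal of `A[x]`. -/
theorem map_ker_eq_top {x : K} (hx : x ∉ dom G) :
    (RingHom.ker (fn hG.prop)).map (algebraMap (dom G) (Algebra.adjoin (dom G) {x})) = ⊤ := by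
  haveI hmax := ker_isMaximal hG
  by_contra hne
  let S := Algebra.adjoin (dom G) {x}
  obtain ⟨Q, hQ, hle⟩ := Ideal.exists_le_maximal _ hne
  have hle' : RingHom.ker (fn hG.prop) ≤ Q.comap (algebraMap (dom G) S) :=
    Ideal.map_le_iff_le_comap.1 hle
  have hcomap : Q.comap (algebraMap (dom G) S) ≠ ⊤ := Ideal.comap_ne_top _ hQ.ne_top
  haveI : Q.LiesOver (RingHom.ker (fn hG.prop)) := ⟨hmax.eq_of_le hcomap hle'⟩
  letI : Field (dom G ⧸ RingHom.ker (fn hG.prop)) := Ideal.Quotient.field _
  letI : Field (S ⧸ Q) := Ideal.Quotient.field _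
  haveI : Algebra.FiniteType (dom G) S :=
    (Subalgebra.fg_iff_finiteType S).1 ⟨{x}, by simp [S]⟩
  haveI : Algebra.FiniteType (dom G) (S ⧸ Q) :=
    Algebra.FiniteType.of_surjective (Ideal.Quotient.mkₐ (dom G) Q)
      (Ideal.Quotient.mkₐ_surjective _ _)
  haveI : Algebra.FiniteType (dom G ⧸ RingHom.ker (fn hG.prop)) (S ⧸ Q) :=
    Algebra.FiniteType.of_restrictScalars_finiteType (dom G) _ _
  haveI : Module.Finite (dom G ⧸ RingHom.ker (fn hG.prop)) (S ⧸ Q) :=
    finite_of_finite_type_of_isJacobsonRing _ _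
  haveI : Algebra.IsAlgebraic (dom G ⧸ RingHom.ker (fn hG.prop)) (S ⧸ Q) :=
    Algebra.IsAlgebraic.of_finite _ _
  obtain ⟨f', hf'⟩ := exists_extension (fn hG.prop) Q
  exact hx (mem_dom_of_extension hG S f' hf' ⟨x, Algebra.self_mem_adjoin_singleton _ _⟩)

include hG in
/-- **Step 2**: the domain of a maximal functional subring is a valuation ring of `K`. -/
theorem mem_or_inv_mem_dom (x : K) : x ∈ dom G ∨ x⁻¹ ∈ dom G := by
  by_cases hx : x ∈ dom G
  · exact Or.inl hx
  right
  haveI hmax := ker_isMaximal hG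
  have hx0 : x ≠ 0 := fun e => hx (e ▸ zero_mem _)
  letI := invertibleOfNonzero hx0
  obtain ⟨p, hp, hpx⟩ := Algebra.exists_aeval_invOf_eq_zero_of_idealMap_adjoin_sup_span_eq_top x
    (RingHom.ker (fn hG.prop)) hmax.ne_top
    (top_unique <| (map_ker_eq_top hG hx).ge.trans le_sup_left)
  have hlc : fn hG.prop p.leadingCoeff ≠ 0 := by
    have h1 : fn hG.prop p.leadingCoeff = 1 := by
      have := (RingHom.mem_ker).1 hp
      rwa [map_sub, map_one, sub_eq_zero] at this
    rw [h1]
    exact one_ne_zero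
  have H : IsUnit p.leadingCoeff := isUnit_of_fn_ne_zero hG _ hlc
  have hint : IsIntegral (dom G) (⅟x) :=
    ⟨.C H.unit⁻¹.1 * p, by simp [Polynomial.Monic], by simpa using .inr hpx⟩
  rw [invOf_eq_inv] at hint
  exact mem_dom_of_isIntegral hG hint

end Max

/-! ### The Chevalley extension theorem -/

section Main

variable [IsAlgClosed k]

/-- **Chevalley's extension theorem.**  A ring homomorphism `χ` from a subring `D` of a field `K`
to an algebraically closed field `k` extends to a valuation subring `U ⊇ D` of `K`, in such a way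
that the kernel of the extension is the maximal ideal of `U`. -/
theorem exists_valuationSubring_extension (D : Subring K) (χ : D →+* k) :
    ∃ (U : ValuationSubring K) (hDU : D ≤ U.toSubring) (e : U →+* k),
      (∀ d : D, e ⟨d, hDU d.2⟩ = χ d) ∧ (∀ y : U, e y ≠ 0 → ((y : K))⁻¹ ∈ U) := by
  have h₀ : Functional (RingHom.prod D.subtype χ).range := by
    rintro x ⟨d, rfl⟩ hx
    have hd : d = 0 := Subtype.ext hx
    simp [hd]
  obtain ⟨G, hG₀, hG⟩ := exists_maximal_functional _ h₀
  let U : ValuationSubring K := { dom G with mem_or_inv_mem' := mem_or_inv_mem_dom hG }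
  have hU : ∀ y : K, y ∈ U ↔ y ∈ dom G := fun _ => Iff.rfl
  have hDU : D ≤ U.toSubring := by
    intro d hd
    exact (mem_dom G).2 ⟨χ ⟨d, hd⟩, hG₀ ⟨⟨d, hd⟩, rfl⟩⟩
  let ι : U →+* dom G := RingHom.codRestrict U.subtype (dom G) (fun y => (hU _).1 y.2)
  refine ⟨U, hDU, (fn hG.prop).comp ι, fun d => ?_, fun y hy => ?_⟩
  · have hmem : ((d : K), χ d) ∈ G := hG₀ ⟨d, rfl⟩
    exact fn_eq hG.prop hmem
  · exact (hU _).2 (inv_mem_dom hG (ι y) hy)

/-- the kernel of the extension is the maximal ideal -/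
theorem exists_valuationSubring_extension' (D : Subring K) (χ : D →+* k) :
    ∃ (U : ValuationSubring K) (hDU : D ≤ U.toSubring) (e : U →+* k),
      (∀ d : D, e ⟨d, hDU d.2⟩ = χ d) ∧ (∀ y : U, e y = 0 ↔ (y : K) ∈ U.nonunits) := by
  obtain ⟨U, hDU, e, he, hinv⟩ := exists_valuationSubring_extension D χ
  refine ⟨U, hDU, e, he, fun y => ⟨fun hy => ?_, fun hy => ?_⟩⟩
  · rw [ValuationSubring.mem_nonunits_iff_exists_mem_maximalIdeal]
    refine ⟨y.2, ?_⟩
    rw [IsLocalRing.mem_maximalIdeal, mem_nonunits_iff]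
    intro hu
    have := hu.map e
    rw [hy] at this
    exact not_isUnit_zero this
  · by_contra hne
    have hinv' := hinv y hne
    have hy0 : (y : K) ≠ 0 := by
      intro h0
      apply hne
      have : y = 0 := Subtype.ext h0
      rw [this, map_zero]
    have hval : U.valuation (y : K) < 1 := (ValuationSubring.mem_nonunits_iff U).1 hy
    have hval' : U.valuation ((y : K))⁻¹ ≤ 1 := (ValuationSubring.valuation_le_one_iff U _).2 hinv'
    rw [map_inv₀] at hval'
    have hpos : 0 < U.valuation (y : K) := by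
      rw [Valuation.pos_iff]; exact hy0
    have : 1 ≤ U.valuation (y : K) := (inv_le_one₀ hpos).1 hval'
    exact absurd hval (not_lt.2 this)

end Main

end Fermat.Agent.GL.Alg.ChevalleyExt
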