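/-
GATE-L prep brick INTCLOSURE-KRULL (helper79).  Mathlib + GL/Alg/IntClosureVal (helper79)
+ GL/Alg/KrullHeightOne (helper7).

Krull form of INTCLOSURE-VAL: `A` a NOETHERIAN integrally closed domain (not necessarily a UFD),
`K = Frac A`, `F / K` algebraic.  The integral closure of `A` in `F` is the intersection of all
valuation subrings `V` of `F` with `V ∩ K = A_p`, `p` a height-one prime of `A`
(equivalently: `V ⊇ A` with centre a height-one prime).  Use: `B` = integral closure of the normal
model `B'` of a lower level in the function field of a higher level (`B'` is not a UFD): the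
vertical/horizontal valuations of `B` are ALL the extensions of those of `B'`.
-/
import Mathlib
import Fermat.Agent.GL.Alg.IntClosureVal
import Fermat.Agent.GL.Alg.KrullHeightOne

set_option autoImplicit false
set_option linter.unusedSectionVars false

namespace Fermat.Agent.GL.IntClosureKrull

open Fermat.Agent.GL.IntClosureVal Fermat.Agent.GL

variable {A : Type*} [CommRing A] [IsDomain A] [IsNoetherianRing A] [IsIntegrallyClosed A]
variable {K : Type*} [Field K] [Algebra A K] [IsFractionRing A K]

/-- dictionary with helper7's fraction-free form. -/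
theorem inLoc_iff_smul (p : Ideal A) (y : K) :
    InLoc p y ↔ ∃ s : A, s ∉ p ∧ s • y ∈ (algebraMap A K).range := by
  constructor
  · rintro ⟨a, s, hs, h⟩
    exact ⟨s, hs, a, by rw [Algebra.smul_def, mul_comm, h]⟩
  · rintro ⟨s, hs, a, h⟩
    exact ⟨a, s, hs, by rw [h, Algebra.smul_def, mul_comm]⟩

/-- `A_p` is a valuation ring for `p` of height one (fraction-free). -/
theorem inLoc_or_inLoc_inv (p : Ideal A) [p.IsPrime] (h1 : p.height = 1) (y : K) :
    InLoc p y ∨ InLoc p y⁻¹ := by
  have hdvr := KrullHeightOne.isDiscreteValuationRing_locSub (F := K) p h1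
  rcases ValuationRing.isInteger_or_isInteger (KrullHeightOne.locSub K p) y with ⟨a, ha⟩ | ⟨a, ha⟩
  · left
    rw [inLoc_iff_smul, ← KrullHeightOne.mem_locSub_iff, ← ha]
    exact a.2
  · right
    rw [inLoc_iff_smul, ← KrullHeightOne.mem_locSub_iff, ← ha]
    exact a.2

/-- `A_p` has rank one for `p` of height one (fraction-free). -/
theorem exists_pow_mul_inLoc (p : Ideal A) [p.IsPrime] (h1 : p.height = 1) {t : A} (ht : t ∈ p)
    (z : K) : ∃ n : ℕ, InLoc p (z * algebraMap A K t ^ n) := by
  have hdvr := KrullHeightOne.isDiscreteValuationRing_locSub (F := K) p h1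
  set O := KrullHeightOne.locSub K p with hO
  obtain ⟨a, b, hb, hab⟩ := IsFractionRing.div_surjective (A := O) z
  have hb0 : b ≠ 0 := nonZeroDivisors.ne_zero hb
  obtain ⟨ϖ, hϖ⟩ := IsDiscreteValuationRing.exists_irreducible O
  obtain ⟨k, u, hbu⟩ := IsDiscreteValuationRing.eq_unit_mul_pow_irreducible hb0 hϖ
  -- `t` lies in the maximal ideal `(ϖ)` of `O`
  have htm : algebraMap A O t ∈ IsLocalRing.maximalIdeal O :=
    (IsLocalization.AtPrime.to_map_mem_maximal_iff O p t _).mpr ht
  rw [hϖ.maximalIdeal_eq, Ideal.mem_span_singleton] at htm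
  obtain ⟨c, hc⟩ := htm
  refine ⟨k, ?_⟩
  rw [inLoc_iff_smul, ← KrullHeightOne.mem_locSub_iff]
  -- `z * t ^ k = a * u⁻¹ * c ^ k`
  have hbK : algebraMap O K b ≠ 0 := fun h0 =>
    hb0 ((map_eq_zero_iff _ (IsFractionRing.injective O K)).mp h0)
  have htK : algebraMap A K t = algebraMap O K (algebraMap A O t) :=
    IsScalarTower.algebraMap_apply A O K t
  have key : z * algebraMap A K t ^ k = algebraMap O K (a * ↑u⁻¹ * c ^ k) := by
    rw [← hab, htK, hc, div_mul_eq_mul_div, div_eq_iff hbK, ← map_pow, ← map_mul, ← map_mul, hbu]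
    congr 1
    have hu : (↑u⁻¹ : O) * ↑u = 1 := Units.inv_mul u
    linear_combination (-(a * ϖ ^ k * c ^ k)) * hu
  rw [key]
  exact (a * ↑u⁻¹ * c ^ k).2

variable {F : Type*} [Field F] [Algebra A F] [Algebra K F] [IsScalarTower A K F]
  [Algebra.IsAlgebraic K F]

/-- **Krull form, `V ∩ K = A_p`**: an element of `F` lying in every valuation subring `V` with
`V ∩ K = A_p` for some height-one prime `p` of the noetherian normal domain `A` is integral
over `A`. -/
theorem isIntegral_of_forall_heightOne (x : F)
    (hx : ∀ V : ValuationSubring F, ∀ p : Ideal A, p.IsPrime → p.height = 1 →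
      (∀ y : K, algebraMap K F y ∈ V ↔ InLoc p y) → x ∈ V) : IsIntegral A x := by
  refine isIntegral_of_forall_mem (K := K) {p | p.IsPrime ∧ p.height = 1}
    (fun p hp => hp.1) ?_ ?_ ?_ x (fun V p hp hV => hx V p hp.1 hp.2 hV)
  · rintro p ⟨hp, h1⟩ y -
    exact inLoc_or_inLoc_inv p h1 y
  · rintro p ⟨hp, h1⟩ t ht - z
    exact exists_pow_mul_inLoc p h1 ht z
  · intro c hc
    refine KrullHeightOne.mem_range_of_forall_heightOne c (fun p hp h1 => ?_)
    exact (inLoc_iff_smul p c).mp (hc p ⟨hp, h1⟩)

include K in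
/-- **Krull form, centre version**: `x ∈ F` is integral over the noetherian normal domain `A` iff
it lies in every valuation subring `V ⊇ A` of `F` whose centre on `A` is a height-one prime. -/
theorem isIntegral_iff_forall_centre_heightOne (x : F) :
    IsIntegral A x ↔ ∀ V : ValuationSubring F, (∀ a : A, algebraMap A F a ∈ V) →
      (∃ p : Ideal A, p.IsPrime ∧ p.height = 1 ∧
        ∀ a : A, algebraMap A F a ∈ V.nonunits ↔ a ∈ p) → x ∈ V := by
  constructor
  · intro hx V hA _
    exact mem_of_isIntegral V hA hx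
  · intro h
    refine isIntegral_of_forall_heightOne (K := K) x (fun V p hp h1 hV => ?_)
    obtain ⟨hA, hc⟩ := centre_of_comap_eq p V hV
    exact h V hA ⟨p, hp, h1, hc⟩

/-- a valuation subring `V ⊇ A` of `F` whose centre on `A` is the height-one prime `p` restricts
to `A_p` on `K`. -/
theorem comap_eq_of_centre_heightOne (p : Ideal A) [p.IsPrime] (h1 : p.height = 1)
    (V : ValuationSubring F) (hA : ∀ a : A, algebraMap A F a ∈ V)
    (hc : ∀ a : A, algebraMap A F a ∈ V.nonunits ↔ a ∈ p) (y : K) :
    algebraMap K F y ∈ V ↔ InLoc p y :=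
  comap_eq_of_centre p (fun y _ => inLoc_or_inLoc_inv p h1 y) V hA hc y

end Fermat.Agent.GL.IntClosureKrull
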