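/-
GATE-L (helper63): KOLCHIN IN DIMENSION TWO.

A multiplicatively closed set of endomorphisms of a free module of rank two over a domain, all of
whose elements have characteristic polynomial `(X - 1)²`, has a common nonzero fixed vector.

* `KolchinTwo.exists_fixed_matrix`  : matrix form (`Matrix (Fin 2) (Fin 2) R`, `tr = 2`, `det = 1`);
* `KolchinTwo.exists_fixed_of_charpoly` : linear-map form (`Module.finrank R V = 2`);
* `KolchinTwo.exists_fixed_of_monoidHom` : for the image of a subgroup under a monoid hom
  `ρ : G →* Module.End R V`;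
* `KolchinTwo.exists_fixed_of_isUnipotentOnInertia` : for `ρ : GaloisRepAdic A` and the inertia group
  of a place `P` — the form consumed by the TATE side of S36 (unipotent inertia ⟹ `V^{I} ≠ 0`).

Mathlib + the prelude definition of `GaloisRepAdic` only.
-/
import Mathlib
import Fermat.Prelude.Def_GaloisRep_LocalConditions

set_option autoImplicit false

open Polynomial

namespace Fermat.Agent.GL.KolchinTwo

section Mat

variable {R : Type*} [CommRing R] [IsDomain R]

/-- a `2×2` matrix with characteristic polynomial `(X-1)²` has trace `2` and determinant `1` -/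
theorem trace_det_of_charpoly {M : Matrix (Fin 2) (Fin 2) R}
    (h : M.charpoly = (X - 1) ^ 2) : M.trace = 2 ∧ M.det = 1 := by
  rw [Matrix.charpoly_fin_two] at h
  have h0 := congrArg (fun f => Polynomial.coeff f 0) h
  have h1 := congrArg (fun f => Polynomial.coeff f 1) h
  have e : ((X : R[X]) - 1) ^ 2 = X ^ 2 - C 2 * X + C 1 := by
    rw [map_ofNat, map_one]; ring
  rw [e] at h0 h1
  simp only [coeff_add, coeff_sub, coeff_X_pow, coeff_C_mul, coeff_X_zero, coeff_X_one,
    coeff_C_zero, coeff_C_succ] at h0 h1
  norm_num at h0 h1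
  exact ⟨h1, h0⟩

/-- **Kolchin, `2×2`, matrix form**: a set of matrices closed under products, all with trace `2`
and determinant `1`, has a common nonzero fixed vector. -/
theorem exists_fixed_matrix (H : Set (Matrix (Fin 2) (Fin 2) R))
    (hmul : ∀ M ∈ H, ∀ M' ∈ H, M * M' ∈ H)
    (htr : ∀ M ∈ H, M.trace = 2) (hdet : ∀ M ∈ H, M.det = 1) :
    ∃ v : Fin 2 → R, v ≠ 0 ∧ ∀ M ∈ H, M.mulVec v = v := by
  classical
  by_cases hall : ∀ M ∈ H, M = 1
  · refine ⟨![1, 0], ?_, fun M hM => by rw [hall M hM, Matrix.one_mulVec]⟩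
    intro h
    have := congrFun h 0
    simp at this
  · push Not at hall
    obtain ⟨M₀, hM₀, hne⟩ := hall
    -- entries of `M₀ - 1`
    set x := M₀ 0 0 - 1 with hx
    set y := M₀ 0 1 with hy
    set z := M₀ 1 0 with hz
    have ht0 := htr M₀ hM₀
    have hd0 := hdet M₀ hM₀
    rw [Matrix.trace_fin_two] at ht0
    rw [Matrix.det_fin_two] at hd0
    have h11 : M₀ 1 1 = 1 - x := by rw [hx]; linear_combination ht0
    have hxyz : x * x + y * z = 0 := by
      rw [h11] at hd0
      have : M₀ 0 0 = x + 1 := by rw [hx]; ring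
      rw [this] at hd0
      linear_combination -hd0
    -- the key relation for every `M ∈ H`
    have key : ∀ M ∈ H, 2 * (M 0 0 - 1) * x + M 0 1 * z + M 1 0 * y = 0 ∧
        (M 0 0 - 1) * (M 0 0 - 1) + M 0 1 * M 1 0 = 0 ∧ M 1 1 = 1 - (M 0 0 - 1) := by
      intro M hM
      have ht := htr M hM
      have hd := hdet M hM
      have htm := htr (M * M₀) (hmul M hM M₀ hM₀)
      rw [Matrix.trace_fin_two] at ht htm
      rw [Matrix.det_fin_two] at hd
      rw [Matrix.mul_apply, Matrix.mul_apply, Fin.sum_univ_two, Fin.sum_univ_two] at htm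
      have hM11 : M 1 1 = 1 - (M 0 0 - 1) := by linear_combination ht
      have hM₀00 : M₀ 0 0 = x + 1 := by rw [hx]; ring
      refine ⟨?_, ?_, hM11⟩
      · rw [hM11, h11, hM₀00, ← hy, ← hz] at htm
        linear_combination htm
      · rw [hM11] at hd
        linear_combination -hd
    by_cases hv : x = 0 ∧ z = 0
    · -- then `y ≠ 0`, fixed vector `(y, -x) = (y, 0)`
      obtain ⟨hx0, hz0⟩ := hv
      have hy0 : y ≠ 0 := by
        intro hy0
        apply hne
        ext i j
        fin_cases i <;> fin_cases j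
        · show M₀ 0 0 = 1
          have : M₀ 0 0 - 1 = 0 := hx0
          linear_combination this
        · show M₀ 0 1 = 0
          exact hy0
        · show M₀ 1 0 = 0
          exact hz0
        · show M₀ 1 1 = 1
          rw [h11, hx0]; ring
      refine ⟨![y, 0], ?_, ?_⟩
      · intro h
        have := congrFun h 0
        simp at this
        exact hy0 this
      · intro M hM
        obtain ⟨k1, k2, k3⟩ := key M hM
        rw [hx0, hz0] at k1
        have hr : M 1 0 = 0 := by
          have : M 1 0 * y = 0 := by linear_combination k1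
          rcases mul_eq_zero.mp this with h | h
          · exact h
          · exact absurd h hy0
        have hp : M 0 0 - 1 = 0 := by
          have : (M 0 0 - 1) * (M 0 0 - 1) = 0 := by rw [hr] at k2; linear_combination k2
          exact mul_self_eq_zero.mp this
        ext i
        fin_cases i
        · show (M.mulVec ![y, 0]) 0 = y
          rw [Matrix.mulVec, dotProduct, Fin.sum_univ_two]
          simp only [Matrix.cons_val_zero, Matrix.cons_val_one, mul_zero, add_zero]
          linear_combination y * hp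
        · show (M.mulVec ![y, 0]) 1 = 0
          rw [Matrix.mulVec, dotProduct, Fin.sum_univ_two]
          simp only [Matrix.cons_val_zero, Matrix.cons_val_one, mul_zero, add_zero]
          rw [hr, zero_mul]
    · -- fixed vector `(x, z)`
      refine ⟨![x, z], ?_, ?_⟩
      · intro h
        apply hv
        have h0 := congrFun h 0
        have h1 := congrFun h 1
        simp at h0 h1
        exact ⟨h0, h1⟩
      · intro M hM
        obtain ⟨k1, k2, k3⟩ := key M hM
        have e1 : ((M 0 0 - 1) * x + M 0 1 * z) * ((M 0 0 - 1) * x + M 0 1 * z) = 0 := by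
          linear_combination (M 0 1 * z) * k1 + (x * x) * k2 - (M 0 1 * M 1 0) * hxyz
        have e2 : (M 1 0 * x - (M 0 0 - 1) * z) * (M 1 0 * x - (M 0 0 - 1) * z) = 0 := by
          linear_combination (-(M 1 0 * z)) * k1 + (z * z) * k2 + (M 1 0 * M 1 0) * hxyz
        have f1 := mul_self_eq_zero.mp e1
        have f2 := mul_self_eq_zero.mp e2
        ext i
        fin_cases i
        · show (M.mulVec ![x, z]) 0 = x
          rw [Matrix.mulVec, dotProduct, Fin.sum_univ_two]
          simp only [Matrix.cons_val_zero, Matrix.cons_val_one]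
          linear_combination f1
        · show (M.mulVec ![x, z]) 1 = z
          rw [Matrix.mulVec, dotProduct, Fin.sum_univ_two]
          simp only [Matrix.cons_val_zero, Matrix.cons_val_one]
          rw [k3]
          linear_combination f2

end Mat

section Lin

variable {R : Type*} [CommRing R] [IsDomain R]
variable {V : Type*} [AddCommGroup V] [Module R V] [Module.Free R V] [Module.Finite R V]

/-- **Kolchin in rank two, linear-map form**: a multiplicatively closed set of endomorphisms of a
free module of rank `2` over a domain, all with characteristic polynomial `(X - 1)²`, has a common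
nonzero fixed vector. -/
theorem exists_fixed_of_charpoly (h2 : Module.finrank R V = 2) (H : Set (Module.End R V))
    (hmul : ∀ f ∈ H, ∀ g ∈ H, f * g ∈ H)
    (hcp : ∀ f ∈ H, LinearMap.charpoly f = (X - 1) ^ 2) :
    ∃ v : V, v ≠ 0 ∧ ∀ f ∈ H, f v = v := by
  classical
  let b : Module.Basis (Fin 2) R V := Module.finBasisOfFinrankEq R V h2
  let T : Module.End R V ≃ₐ[R] Matrix (Fin 2) (Fin 2) R := LinearMap.toMatrixAlgEquiv b
  have hT : ∀ f : Module.End R V, T f = LinearMap.toMatrix b b f := fun f => rfl
  obtain ⟨w, hw0, hw⟩ := exists_fixed_matrix (T '' H)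
    (by
      rintro _ ⟨f, hf, rfl⟩ _ ⟨g, hg, rfl⟩
      exact ⟨f * g, hmul f hf g hg, map_mul T f g⟩)
    (by
      rintro _ ⟨f, hf, rfl⟩
      refine (trace_det_of_charpoly ?_).1
      rw [hT, LinearMap.charpoly_toMatrix]
      exact hcp f hf)
    (by
      rintro _ ⟨f, hf, rfl⟩
      refine (trace_det_of_charpoly ?_).2
      rw [hT, LinearMap.charpoly_toMatrix]
      exact hcp f hf)
  refine ⟨b.equivFun.symm w, ?_, ?_⟩
  · intro h
    apply hw0
    have := congrArg b.equivFun h
    rwa [LinearEquiv.apply_symm_apply, map_zero] at this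
  · intro f hf
    have h1 := hw (T f) ⟨f, hf, rfl⟩
    rw [hT] at h1
    apply b.equivFun.injective
    rw [LinearEquiv.apply_symm_apply]
    have := LinearMap.toMatrix_mulVec_repr b b f (b.equivFun.symm w)
    have hrepr : (⇑(b.repr (b.equivFun.symm w)) : Fin 2 → R) = w := by
      ext j
      rw [← Module.Basis.equivFun_apply, LinearEquiv.apply_symm_apply]
    rw [hrepr, h1] at this
    ext i
    rw [Module.Basis.equivFun_apply, ← this]

/-- the same for the image of a subset closed under products under a monoid homomorphism -/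
theorem exists_fixed_of_monoidHom {G : Type*} [Monoid G] (ρ : G →* Module.End R V)
    (h2 : Module.finrank R V = 2) (I : Submonoid G)
    (hcp : ∀ σ ∈ I, LinearMap.charpoly (ρ σ) = (X - 1) ^ 2) :
    ∃ v : V, v ≠ 0 ∧ ∀ σ ∈ I, ρ σ v = v := by
  obtain ⟨v, hv0, hv⟩ := exists_fixed_of_charpoly h2 (ρ '' (I : Set G))
    (by
      rintro _ ⟨σ, hσ, rfl⟩ _ ⟨τ, hτ, rfl⟩
      exact ⟨σ * τ, I.mul_mem hσ hτ, map_mul ρ σ τ⟩)
    (by
      rintro _ ⟨σ, hσ, rfl⟩
      exact hcp σ hσ)
  exact ⟨v, hv0, fun σ hσ => hv _ ⟨σ, hσ, rfl⟩⟩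

end Lin

section Galois

/-- **the S36 form**: if every element of the inertia group of `P` acts on a `GaloisRepAdic` over a
local domain with characteristic polynomial `(X - 1)²`, the inertia group has a common nonzero
fixed vector. -/
theorem exists_fixed_of_isUnipotentOnInertia {A : Type} [CommRing A] [IsLocalRing A] [IsDomain A]
    (ρ : GaloisRepAdic A) (P : ValuationSubring (AlgebraicClosure ℚ))
    (h : ∀ σ ∈ P.inertiaSubgroupIn ℚ, LinearMap.charpoly (ρ.ρ σ) = (X - 1) ^ 2) :
    ∃ v : ρ.V, v ≠ 0 ∧ ∀ σ ∈ P.inertiaSubgroupIn ℚ, ρ.ρ σ v = v :=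
  exists_fixed_of_monoidHom ρ.ρ ρ.finrank_eq (P.inertiaSubgroupIn ℚ).toSubmonoid h

/-- contrapositive packaging: no nonzero inertia-invariant vector at some place over `q` ⟹ not
unipotent on inertia at `q`. -/
theorem not_isUnipotentOnInertiaAt {A : Type} [CommRing A] [IsLocalRing A] [IsDomain A]
    (ρ : GaloisRepAdic A) (q : ℕ) (P : ValuationSubring (AlgebraicClosure ℚ))
    (hP : P.LiesOverPrime q)
    (hinv : ∀ v : ρ.V, (∀ σ ∈ P.inertiaSubgroupIn ℚ, ρ.ρ σ v = v) → v = 0) :
    ¬ ρ.IsUnipotentOnInertiaAt q := by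
  intro hU
  obtain ⟨v, hv0, hv⟩ := exists_fixed_of_isUnipotentOnInertia ρ P (hU P hP)
  exact hv0 (hinv v hv)

end Galois

end Fermat.Agent.GL.KolchinTwo
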