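/-
GATE-L / PREP (helper60): unique `m`-th roots in `1 + I`.

Commutative-algebra brick for the steps (e)(f) of the S36 blueprint (non-reduced special fibre
`C₁ + (q-1)·C₃ + C₂` with non-seminormal crossing points): for `m` invertible,

* `eq_of_pow_eq`            : `m`-th roots in `1 + I` are unique as soon as `1 + I ⊆ units`;
* `existsUnique_pow_eq_of_isAdicComplete` : existence + uniqueness when the ring is `I`-adically
  complete (Hensel);
* `isAdicComplete_of_isNilpotent`, `existsUnique_pow_eq_of_nilpotent` : the nilpotent case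
  ("`1 + nilradical` is uniquely `m`-divisible");
* `mem_subring_of_pow_mem`  : SUBRING DESCENT.  `A ⊆ B`, `c` an ideal of `B` contained in `A`
  (conductor), `J ^ N ≤ c`, `v ≡ 1 mod J`, `v ^ m ∈ A`  ⟹  `v ∈ A`
  ("`(Oˢⁿ)ˣ / Oˣ` and `Õˣ/Oˣ` have `m`-torsion only in the torus part").

Mathlib only.
-/
import Mathlib

set_option autoImplicit false

open Polynomial

namespace Fermat.Agent.GL.NilRoot

variable {A : Type*} [CommRing A]

/-- `(a + b)^m = a^m + m a^(m-1) b + c b²`. -/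
theorem exists_add_pow_eq (a b : A) (m : ℕ) :
    ∃ c : A, (a + b) ^ m = a ^ m + (m : A) * a ^ (m - 1) * b + c * b ^ 2 := by
  obtain ⟨k, hk⟩ := Polynomial.binomExpansion (X ^ m : A[X]) a b
  refine ⟨k, ?_⟩
  simpa [Polynomial.derivative_X_pow] using hk

/-- `v ≡ 1 mod I ⟹ v ^ n ≡ 1 mod I`. -/
theorem pow_sub_one_mem (I : Ideal A) {v : A} (hv : v - 1 ∈ I) (n : ℕ) : v ^ n - 1 ∈ I := by
  have h : v - 1 ∣ v ^ n - 1 := by
    simpa using sub_dvd_pow_sub_pow v 1 n
  obtain ⟨c, hc⟩ := h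
  rw [hc]
  exact I.mul_mem_right _ hv

/-- The geometric sum `∑_{i<m} v^i w^(m-1-i)` is `≡ m` modulo `I` when `v ≡ w ≡ 1`. -/
theorem geom_sum₂_sub_mem (I : Ideal A) {v w : A} (hv : v - 1 ∈ I) (hw : w - 1 ∈ I) (m : ℕ) :
    (∑ i ∈ Finset.range m, v ^ i * w ^ (m - 1 - i)) - (m : A) ∈ I := by
  have h : (∑ i ∈ Finset.range m, v ^ i * w ^ (m - 1 - i)) - (m : A) =
      ∑ i ∈ Finset.range m, (v ^ i * w ^ (m - 1 - i) - 1) := by
    rw [Finset.sum_sub_distrib]
    simp
  rw [h]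
  refine I.sum_mem fun i _ => ?_
  have h1 := pow_sub_one_mem I hv i
  have h2 := pow_sub_one_mem I hw (m - 1 - i)
  have : v ^ i * w ^ (m - 1 - i) - 1 = (v ^ i - 1) * w ^ (m - 1 - i) + (w ^ (m - 1 - i) - 1) := by
    ring
  rw [this]
  exact I.add_mem (I.mul_mem_right _ h1) h2

/-- **Uniqueness of `m`-th roots in `1 + I`** (`m` a unit, `1 + I` consisting of units). -/
theorem eq_of_pow_eq (I : Ideal A) (m : ℕ) (hm : IsUnit (m : A))
    (hI : ∀ x ∈ I, IsUnit (1 + x)) {v w : A} (hv : v - 1 ∈ I) (hw : w - 1 ∈ I)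
    (h : v ^ m = w ^ m) : v = w := by
  set S := ∑ i ∈ Finset.range m, v ^ i * w ^ (m - 1 - i) with hS
  have hmul : S * (v - w) = 0 := by
    rw [hS, geom_sum₂_mul, h, sub_self]
  have hSm : S - (m : A) ∈ I := geom_sum₂_sub_mem I hv hw m
  obtain ⟨mu, hmu⟩ := hm
  have hSunit : IsUnit S := by
    have h1 : S = (m : A) * (1 + (↑mu⁻¹ : A) * (S - (m : A))) := by
      rw [← hmu, mul_add, mul_one, ← mul_assoc, Units.mul_inv, one_mul]
      ring
    rw [h1]
    exact (hmu ▸ mu.isUnit).mul (hI _ (I.mul_mem_left _ hSm))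
  have := hSunit.mul_right_eq_zero.1 hmul
  exact sub_eq_zero.1 this

/-- In an `I`-adically complete ring `1 + I` consists of units. -/
theorem isUnit_one_add_of_isAdicComplete (I : Ideal A) [IsAdicComplete I A] :
    ∀ x ∈ I, IsUnit (1 + x) := by
  intro x hx
  have hj : x ∈ Ideal.jacobson (⊥ : Ideal A) := IsAdicComplete.le_jacobson_bot I hx
  have := Ideal.mem_jacobson_bot.1 hj 1
  rwa [mul_one, add_comm] at this

/-- **Existence and uniqueness of `m`-th roots in `1 + I`**, `A` `I`-adically complete, `m` a unit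
of `A`. -/
theorem existsUnique_pow_eq_of_isAdicComplete (I : Ideal A) [IsAdicComplete I A] (m : ℕ)
    (hm : IsUnit (m : A)) (u : A) (hu : u - 1 ∈ I) :
    ∃! v : A, v - 1 ∈ I ∧ v ^ m = u := by
  have hex : ∃ v : A, v - 1 ∈ I ∧ v ^ m = u := by
    rcases Nat.eq_zero_or_pos m with h0 | hpos
    · -- `0` is a unit: the ring is trivial
      subst h0
      have hsub : Subsingleton A := by
        rw [Nat.cast_zero] at hm
        exact subsingleton_of_zero_eq_one (isUnit_zero_iff.1 hm)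
      exact ⟨1, by simp, Subsingleton.elim _ _⟩
    · have hmon : (X ^ m - C u : A[X]).Monic := monic_X_pow_sub_C u hpos.ne'
      have h1 : (X ^ m - C u : A[X]).eval 1 ∈ I := by
        simp only [eval_sub, eval_pow, eval_X, one_pow, eval_C]
        have : (1 : A) - u = -(u - 1) := by ring
        rw [this]
        exact I.neg_mem hu
      have h2 : IsUnit (Ideal.Quotient.mk I ((X ^ m - C u : A[X]).derivative.eval 1)) := by
        simp only [derivative_sub, derivative_X_pow, derivative_C, sub_zero, eval_mul, eval_C,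
          eval_pow, eval_X, one_pow, mul_one]
        exact hm.map _
      obtain ⟨a, ha, ha1⟩ := HenselianRing.is_henselian (R := A) (I := I) _ hmon 1 h1 h2
      refine ⟨a, ha1, ?_⟩
      have : (X ^ m - C u : A[X]).eval a = 0 := ha
      simpa [sub_eq_zero] using this
  obtain ⟨v, hv, hvm⟩ := hex
  refine ⟨v, ⟨hv, hvm⟩, ?_⟩
  rintro w ⟨hw, hwm⟩
  exact eq_of_pow_eq I m hm (isUnit_one_add_of_isAdicComplete I) hw hv (hwm.trans hvm.symm)

/-- A ring is `I`-adically complete for every nilpotent ideal `I`. -/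
theorem isAdicComplete_of_isNilpotent (I : Ideal A) (hI : IsNilpotent I) : IsAdicComplete I A := by
  obtain ⟨N, hN⟩ := hI
  have hN' : I ^ N = ⊥ := by rwa [Ideal.zero_eq_bot] at hN
  have hbot : ∀ x y : A, x ≡ y [SMOD (I ^ N • ⊤ : Submodule A A)] → x = y := by
    intro x y hxy
    rw [hN', Submodule.bot_smul] at hxy
    rw [SModEq.def, Submodule.Quotient.eq, Submodule.mem_bot] at hxy
    exact sub_eq_zero.1 hxy
  refine @IsAdicComplete.mk _ _ _ _ _ _ ⟨fun x hx => ?_⟩ ⟨fun f hf => ⟨f N, fun n => ?_⟩⟩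
  · exact hbot x 0 (hx N)
  · rcases le_total n N with h | h
    · exact hf h
    · rw [hbot _ _ (hf h)]

/-- For a nilpotent ideal `1 + I` consists of units. -/
theorem isUnit_one_add_of_isNilpotent (I : Ideal A) (hI : IsNilpotent I) :
    ∀ x ∈ I, IsUnit (1 + x) := by
  intro x hx
  obtain ⟨N, hN⟩ := hI
  refine IsNilpotent.isUnit_one_add ⟨N, ?_⟩
  have : x ^ N ∈ I ^ N := Ideal.pow_mem_pow hx N
  rw [hN, Ideal.zero_eq_bot] at this
  exact this

/-- **`1 + I` is uniquely `m`-divisible** for `I` nilpotent and `m` a unit. -/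
theorem existsUnique_pow_eq_of_nilpotent (I : Ideal A) (hI : IsNilpotent I) (m : ℕ)
    (hm : IsUnit (m : A)) (u : A) (hu : u - 1 ∈ I) :
    ∃! v : A, v - 1 ∈ I ∧ v ^ m = u := by
  have := isAdicComplete_of_isNilpotent I hI
  exact existsUnique_pow_eq_of_isAdicComplete I m hm u hu

/-- **Subring descent.** `A ⊆ B` a subring, `c` an ideal of `B` contained in `A` (e.g. the
conductor), `J` an ideal of `B` with `J ^ N ≤ c`, `m` invertible in `A`.  If `v ≡ 1 mod J` and
`v ^ m ∈ A` then `v ∈ A`. -/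
theorem mem_subring_of_pow_mem {B : Type*} [CommRing B] (A : Subring B) (J c : Ideal B)
    (hcA : ∀ x ∈ c, x ∈ A) (N : ℕ) (hJ : J ^ N ≤ c) (m : ℕ) (hm : IsUnit ((m : ℕ) : A))
    (v : B) (hv : v - 1 ∈ J) (hvm : v ^ m ∈ A) : v ∈ A := by
  -- ideals of `A`
  set cA : Ideal A := c.comap A.subtype with hcA'
  set JA : Ideal A := J.comap A.subtype with hJA'
  set I : Ideal (A ⧸ cA) := JA.map (Ideal.Quotient.mk cA) with hI'
  have hInil : IsNilpotent I := by
    refine ⟨N, ?_⟩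
    rw [Ideal.zero_eq_bot, eq_bot_iff, hI', ← Ideal.map_pow]
    rw [Ideal.map_le_iff_le_comap]
    intro x hx
    rw [Ideal.mem_comap, Ideal.mem_bot, Ideal.Quotient.eq_zero_iff_mem]
    have h1 : x ∈ (J ^ N).comap A.subtype := Ideal.le_comap_pow _ N hx
    exact hJ h1
  -- the element `u = v ^ m` of `A`
  set u : A := ⟨v ^ m, hvm⟩ with hu'
  have hu1 : u - 1 ∈ JA := by
    rw [hJA', Ideal.mem_comap]
    simpa [hu'] using pow_sub_one_mem J hv m
  have hmq : IsUnit ((m : ℕ) : A ⧸ cA) := by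
    have := hm.map (Ideal.Quotient.mk cA)
    simpa using this
  obtain ⟨wbar, ⟨hw1, hwm⟩, -⟩ := existsUnique_pow_eq_of_nilpotent I hInil m hmq
    (Ideal.Quotient.mk cA u) (by
      have := Ideal.mem_map_of_mem (Ideal.Quotient.mk cA) hu1
      simpa using this)
  obtain ⟨w, rfl⟩ := Ideal.Quotient.mk_surjective wbar
  -- `w - 1 = x + y`, `x ∈ JA`, `y ∈ cA`
  have hw1' : Ideal.Quotient.mk cA (w - 1) ∈ I := by simpa using hw1
  obtain ⟨x, hx, hxw⟩ := (Ideal.mem_map_iff_of_surjective _ Ideal.Quotient.mk_surjective).1 hw1'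
  have hy : x - (w - 1) ∈ cA := Ideal.Quotient.eq.1 hxw
  have hwmc : w ^ m - u ∈ cA := by
    apply Ideal.Quotient.eq.1
    simpa using hwm
  -- compare `v` and `w` in `B ⧸ c`
  set Jb : Ideal (B ⧸ c) := J.map (Ideal.Quotient.mk c) with hJb
  have hJbnil : IsNilpotent Jb := by
    refine ⟨N, ?_⟩
    rw [Ideal.zero_eq_bot, eq_bot_iff, hJb, ← Ideal.map_pow, Ideal.map_le_iff_le_comap]
    intro z hz
    rw [Ideal.mem_comap, Ideal.mem_bot, Ideal.Quotient.eq_zero_iff_mem]
    exact hJ hz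
  have hmB : IsUnit ((m : ℕ) : B ⧸ c) := by
    have := (hm.map A.subtype).map (Ideal.Quotient.mk c)
    simpa using this
  have hvb : Ideal.Quotient.mk c v - 1 ∈ Jb := by
    have := Ideal.mem_map_of_mem (Ideal.Quotient.mk c) hv
    simpa using this
  have hwb : Ideal.Quotient.mk c (w : B) - 1 ∈ Jb := by
    have hxJ : (x : B) ∈ J := hx
    have hyc : ((x : B) - ((w : B) - 1)) ∈ c := hy
    have h1 : Ideal.Quotient.mk c ((w : B) - 1) = Ideal.Quotient.mk c (x : B) :=
      (Ideal.Quotient.eq.2 hyc).symm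
    have h2 := Ideal.mem_map_of_mem (Ideal.Quotient.mk c) hxJ
    rw [← h1] at h2
    simpa using h2
  have hpow : Ideal.Quotient.mk c v ^ m = Ideal.Quotient.mk c (w : B) ^ m := by
    have hc : ((w : B) ^ m - v ^ m) ∈ c := hwmc
    rw [← map_pow, ← map_pow]
    exact (Ideal.Quotient.eq.2 hc).symm
  have heq := eq_of_pow_eq Jb m hmB (isUnit_one_add_of_isNilpotent Jb hJbnil) hvb hwb hpow
  have hvw : v - (w : B) ∈ c := Ideal.Quotient.eq.1 heq
  have : v = (v - (w : B)) + (w : B) := by ring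
  rw [this]
  exact A.add_mem (hcA _ hvw) w.2

/-- `m`-torsion of `1 + I` is trivial (`m` a unit, `1 + I ⊆ units`). -/
theorem eq_one_of_pow_eq_one (I : Ideal A) (m : ℕ) (hm : IsUnit (m : A))
    (hI : ∀ x ∈ I, IsUnit (1 + x)) {v : A} (hv : v - 1 ∈ I) (h : v ^ m = 1) : v = 1 :=
  eq_of_pow_eq I m hm hI hv (by simp) (by rw [h, one_pow])

/-- Subring descent, relative form: `e ≡ a mod J` with `a` a unit of `A`, `e ^ m ∈ A` ⟹ `e ∈ A`.
(`e` = local gluing datum in `Õˣ`, `a` = its "torus part".) -/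
theorem mem_subring_of_pow_mem_of_sub_mem {B : Type*} [CommRing B] (A : Subring B) (J c : Ideal B)
    (hcA : ∀ x ∈ c, x ∈ A) (N : ℕ) (hJ : J ^ N ≤ c) (m : ℕ) (hm : IsUnit ((m : ℕ) : A))
    (e : B) (a : Aˣ) (hea : e - ((a : A) : B) ∈ J) (hem : e ^ m ∈ A) : e ∈ A := by
  have hinv : (((a⁻¹ : Aˣ) : A) : B) * ((a : A) : B) = 1 := by
    have h1 : ((a⁻¹ : Aˣ) : A) * (a : A) = 1 := a.inv_mul
    have h2 : A.subtype (((a⁻¹ : Aˣ) : A) * (a : A)) = A.subtype 1 := congrArg (A.subtype) h1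
    rw [map_mul, map_one] at h2
    exact h2
  have hv1 : e * (((a⁻¹ : Aˣ) : A) : B) - 1 ∈ J := by
    have : e * (((a⁻¹ : Aˣ) : A) : B) - 1 = (e - ((a : A) : B)) * (((a⁻¹ : Aˣ) : A) : B) := by
      rw [sub_mul, mul_comm ((a : A) : B), hinv]
    rw [this]
    exact J.mul_mem_right _ hea
  have hvm : (e * (((a⁻¹ : Aˣ) : A) : B)) ^ m ∈ A := by
    rw [mul_pow]
    exact A.mul_mem hem (A.pow_mem (SetLike.coe_mem _) m)
  have hv := mem_subring_of_pow_mem A J c hcA N hJ m hm _ hv1 hvm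
  have : e = e * (((a⁻¹ : Aˣ) : A) : B) * ((a : A) : B) := by
    rw [mul_assoc, hinv, mul_one]
  rw [this]
  exact A.mul_mem hv (SetLike.coe_mem _)

end Fermat.Agent.GL.NilRoot
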