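/-
GATE-L / ABS-1 (helper48): SEMILOCAL PATCHING = the algebra of MOVE (board 2542 (1), STACK RULING 1).

`B` a commutative ring, `F ⊇ B` a field (in the application `B = B_R`, `F = F_L`), `M ⊆ F` a
`B`-submodule (`M = I_R(D)`).  Everything is stated WITHOUT localisation types:

* `LocPrincipalAt P M f` : `M_P = f · B_P` (`f ≠ 0`; every `x ∈ M` has a multiple `s • x ∈ B f` with
  `s ∉ P`; some multiple `s • f`, `s ∉ P`, lies in `M`).
* `exists_locPrincipalAt_finset` (PATCH): finitely many MAXIMAL ideals, `M` locally principal at each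
  of them ⟹ ONE `f ∈ M` generating `M` at all of them.
* `locPrincipalAt_one_comap` (MOVE): then `M' := {x | f * x ∈ M}` (`= I_R(D + div f)`) is locally
  TRIVIAL at all of them: `(∀ x ∈ M', ∃ s ∉ P, s • x ∈ B) ∧ (∃ s ∉ P, (s : F) ∈ M')`.
* `exists_smul_mem_range` : for finitely generated `M'` a single `s ∉ P` with `s • M' ⊆ B`.
* `exists_locPrincipalAt_of_local` (BRIDGE to L5): if `O` is a localisation of `B` at `P` inside `F`
  all of whose finitely generated divisorial submodules (helper84 `DvrQuot.IsDivisorial`) are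
  principal, then every finitely generated divisorial `B`-submodule `M ≠ 0` of `F` is locally
  principal at `P` (`B` noetherian domain, `F = Frac B`).

Mathlib + `GL/Local/DvrQuot.lean` (definition of `IsDivisorial` only).
-/
import Mathlib
import Fermat.Agent.GL.Local.DvrQuot

set_option autoImplicit false
set_option linter.unusedSectionVars false

namespace Fermat.Agent.GL.Move

open Fermat.Agent.GL.DvrQuot

variable {B F : Type*} [CommRing B] [Field F] [Algebra B F]

/-- `M` is generated by `f` locally at the prime `P`. -/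
def LocPrincipalAt (P : Ideal B) (M : Submodule B F) (f : F) : Prop :=
  f ≠ 0 ∧ (∀ x ∈ M, ∃ s : B, s ∉ P ∧ s • x ∈ Submodule.span B {f}) ∧
    ∃ s : B, s ∉ P ∧ s • f ∈ M

theorem smul_ne_zero_of_injective (hinj : Function.Injective (algebraMap B F)) {s : B} {x : F}
    (hs : s ≠ 0) (hx : x ≠ 0) : s • x ≠ 0 := by
  rw [Algebra.smul_def]
  exact mul_ne_zero (fun h => hs (hinj (by rw [h, map_zero]))) hx

/-- a local generator can be chosen inside `M` -/
theorem LocPrincipalAt.exists_mem (hinj : Function.Injective (algebraMap B F)) {P : Ideal B}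
    [P.IsPrime] {M : Submodule B F} {f : F} (h : LocPrincipalAt P M f) :
    ∃ g ∈ M, LocPrincipalAt P M g := by
  obtain ⟨hf0, hM, s0, hs0, hs0M⟩ := h
  have hs00 : s0 ≠ 0 := fun h0 => hs0 (h0 ▸ P.zero_mem)
  refine ⟨s0 • f, hs0M, smul_ne_zero_of_injective hinj hs00 hf0, fun x hx => ?_,
    ⟨1, (Ideal.ne_top_iff_one P).1 (Ideal.IsPrime.ne_top inferInstance), by rwa [one_smul]⟩⟩
  obtain ⟨s, hs, hsx⟩ := hM x hx
  obtain ⟨b, hb⟩ := Submodule.mem_span_singleton.1 hsx
  refine ⟨s0 * s, fun h => (Ideal.IsPrime.mem_or_mem inferInstance h).elim hs0 hs, ?_⟩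
  rw [Submodule.mem_span_singleton]
  refine ⟨b, ?_⟩
  rw [mul_smul, ← hb, smul_comm]

/-- for distinct maximal ideals there is an element of all the others outside `P` -/
theorem exists_mem_others_not_mem [DecidableEq (Ideal B)] (S : Finset (Ideal B))
    (hmax : ∀ P ∈ S, P.IsMaximal) (P : Ideal B) (hP : P ∈ S) :
    ∃ a : B, a ∉ P ∧ ∀ Q ∈ S, Q ≠ P → a ∈ Q := by
  have hPmax := hmax P hP
  have key : ∀ Q ∈ S, Q ≠ P → ∃ c : B, c ∈ Q ∧ c ∉ P := by
    intro Q hQ hne
    by_contra hcon
    push Not at hcon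
    have hle : Q ≤ P := fun c hc => hcon c hc
    exact hne ((hmax Q hQ).eq_of_le hPmax.ne_top hle)
  choose! c hcQ hcP using key
  refine ⟨∏ Q ∈ S.erase P, c Q, ?_, fun Q hQ hne => ?_⟩
  · intro hmem
    have hprime : P.IsPrime := hPmax.isPrime
    obtain ⟨Q, hQ, hQP⟩ := (Ideal.IsPrime.prod_mem_iff).1 hmem
    rw [Finset.mem_erase] at hQ
    exact hcP Q hQ.2 hQ.1 hQP
  · have hQ' : Q ∈ S.erase P := Finset.mem_erase.2 ⟨hne, hQ⟩
    rw [← Finset.mul_prod_erase _ _ hQ']
    exact Ideal.mul_mem_right _ _ (hcQ Q hQ hne)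

/-- **PATCH**: finitely many maximal ideals, `M` locally principal at each of them ⟹ one element
`f ∈ M` generates `M` locally at all of them. -/
theorem exists_locPrincipalAt_finset (hinj : Function.Injective (algebraMap B F))
    (S : Finset (Ideal B)) (hmax : ∀ P ∈ S, P.IsMaximal) (M : Submodule B F)
    (h : ∀ P ∈ S, ∃ f : F, LocPrincipalAt P M f) :
    ∃ f ∈ M, ∀ P ∈ S, LocPrincipalAt P M f := by
  classical
  -- local generators inside `M`
  have h' : ∀ P ∈ S, ∃ g ∈ M, LocPrincipalAt P M g := by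
    intro P hP
    obtain ⟨f, hf⟩ := h P hP
    have : P.IsPrime := (hmax P hP).isPrime
    exact hf.exists_mem hinj
  choose! g hgM hg using h'
  choose! a haP haQ using exists_mem_others_not_mem S hmax
  refine ⟨∑ P ∈ S, a P • g P, M.sum_mem fun P hP => M.smul_mem _ (hgM P hP), ?_⟩
  intro P0 hP0
  have hprime : P0.IsPrime := (hmax P0 hP0).isPrime
  obtain ⟨hg0, hgen, -⟩ := hg P0 hP0
  -- every `g Q` is a multiple of `g P0` locally at `P0`
  have key : ∀ Q ∈ S, ∃ s : B, s ∉ P0 ∧ ∃ b : B, s • g Q = b • g P0 := by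
    intro Q hQ
    obtain ⟨s, hs, hsx⟩ := hgen (g Q) (hgM Q hQ)
    obtain ⟨b, hb⟩ := Submodule.mem_span_singleton.1 hsx
    exact ⟨s, hs, b, hb.symm⟩
  choose! s hsP hsb using key
  choose! b hb using hsb
  -- the common denominator over `Q ≠ P0`
  set σ : B := ∏ Q ∈ S.erase P0, s Q with hσ
  have hσP : σ ∉ P0 := by
    intro hmem
    obtain ⟨Q, hQ, hQP⟩ := (Ideal.IsPrime.prod_mem_iff).1 hmem
    exact hsP Q (Finset.mem_of_mem_erase hQ) hQP
  -- `σ • g Q = d Q • g P0` for `Q ≠ P0`
  have hd : ∀ Q ∈ S.erase P0, σ • g Q = ((∏ Q' ∈ (S.erase P0).erase Q, s Q') * b Q) • g P0 := by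
    intro Q hQ
    rw [hσ, ← Finset.mul_prod_erase _ _ hQ, mul_comm (s Q), mul_smul,
      hb Q (Finset.mem_of_mem_erase hQ), ← mul_smul]
  set c : B := a P0 * σ + ∑ Q ∈ S.erase P0, a Q * ((∏ Q' ∈ (S.erase P0).erase Q, s Q') * b Q)
    with hc
  have hcP : c ∉ P0 := by
    intro hmem
    have h2 : ∑ Q ∈ S.erase P0, a Q * ((∏ Q' ∈ (S.erase P0).erase Q, s Q') * b Q) ∈ P0 := by
      refine P0.sum_mem fun Q hQ => Ideal.mul_mem_right _ _ ?_
      rw [Finset.mem_erase] at hQ
      exact haQ Q hQ.2 P0 hP0 (Ne.symm hQ.1)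
    have h1 : a P0 * σ ∈ P0 := by
      have := P0.sub_mem hmem h2
      rwa [hc, add_sub_cancel_right] at this
    exact (Ideal.IsPrime.mem_or_mem hprime h1).elim (haP P0 hP0) hσP
  have hσf : σ • ∑ P ∈ S, a P • g P = c • g P0 := by
    rw [← Finset.add_sum_erase _ _ hP0, smul_add, Finset.smul_sum, hc, add_smul, Finset.sum_smul]
    congr 1
    · rw [smul_smul, mul_comm]
    · refine Finset.sum_congr rfl fun Q hQ => ?_
      rw [smul_comm, hd Q hQ, smul_smul]
  have hc0 : c ≠ 0 := fun h0 => hcP (h0 ▸ P0.zero_mem)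
  have hσ0 : σ ≠ 0 := fun h0 => hσP (h0 ▸ P0.zero_mem)
  refine ⟨?_, fun x hx => ?_, ⟨1, (Ideal.ne_top_iff_one P0).1 hprime.ne_top, ?_⟩⟩
  · intro hf0
    have := smul_ne_zero_of_injective hinj hc0 hg0
    rw [← hσf, hf0, smul_zero] at this
    exact this rfl
  · obtain ⟨s1, hs1, hs1x⟩ := hgen x hx
    obtain ⟨b1, hb1⟩ := Submodule.mem_span_singleton.1 hs1x
    refine ⟨c * s1, fun h => (Ideal.IsPrime.mem_or_mem hprime h).elim hcP hs1, ?_⟩
    rw [Submodule.mem_span_singleton]
    refine ⟨b1 * σ, ?_⟩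
    rw [mul_smul, hσf, mul_smul, ← hb1, smul_comm]
  · rw [one_smul]
    exact M.sum_mem fun P hP => M.smul_mem _ (hgM P hP)

/-- the twisted module `f⁻¹ M = {x | f * x ∈ M}` -/
def twist (M : Submodule B F) (f : F) : Submodule B F :=
  M.comap (LinearMap.mulLeft B f)

theorem mem_twist {M : Submodule B F} {f x : F} : x ∈ twist M f ↔ f * x ∈ M := Iff.rfl

/-- **MOVE**: if `f` generates `M` locally at `P`, then `f⁻¹ M` is locally trivial at `P`. -/
theorem locPrincipalAt_one_twist {P : Ideal B} {M : Submodule B F} {f : F}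
    (h : LocPrincipalAt P M f) : LocPrincipalAt P (twist M f) 1 := by
  obtain ⟨hf0, hgen, s0, hs0, hs0M⟩ := h
  refine ⟨one_ne_zero, fun x hx => ?_, ⟨s0, hs0, ?_⟩⟩
  · obtain ⟨s, hs, hsx⟩ := hgen (f * x) hx
    obtain ⟨b, hb⟩ := Submodule.mem_span_singleton.1 hsx
    refine ⟨s, hs, Submodule.mem_span_singleton.2 ⟨b, ?_⟩⟩
    have h1 : f * (b • (1 : F)) = f * (s • x) := by
      rw [mul_smul_comm, mul_one, hb, mul_smul_comm]
    exact mul_left_cancel₀ hf0 h1
  · rw [mem_twist, mul_smul_comm, mul_one]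
    exact hs0M

/-- local triviality, unfolded: every element of `M'` has a multiple in `B` with denominator
outside `P`, and `M'` contains (the image of) an element of `B` outside `P`. -/
theorem LocPrincipalAt.one_iff {P : Ideal B} {M' : Submodule B F} :
    LocPrincipalAt P M' 1 ↔
      (∀ x ∈ M', ∃ s : B, s ∉ P ∧ s • x ∈ (algebraMap B F).range) ∧
        ∃ s : B, s ∉ P ∧ algebraMap B F s ∈ M' := by
  have hspan : ∀ y : F, y ∈ Submodule.span B {(1 : F)} ↔ y ∈ (algebraMap B F).range := by
    intro y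
    rw [Submodule.mem_span_singleton]
    constructor
    · rintro ⟨b, rfl⟩
      exact ⟨b, by rw [Algebra.smul_def, mul_one]⟩
    · rintro ⟨b, rfl⟩
      exact ⟨b, by rw [Algebra.smul_def, mul_one]⟩
  constructor
  · rintro ⟨-, h1, s, hs, hsM⟩
    refine ⟨fun x hx => ?_, ⟨s, hs, ?_⟩⟩
    · obtain ⟨s', hs', h⟩ := h1 x hx
      exact ⟨s', hs', (hspan _).1 h⟩
    · rwa [Algebra.smul_def, mul_one] at hsM
  · rintro ⟨h1, s, hs, hsM⟩
    refine ⟨one_ne_zero, fun x hx => ?_, ⟨s, hs, ?_⟩⟩
    · obtain ⟨s', hs', h⟩ := h1 x hx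
      exact ⟨s', hs', (hspan _).2 h⟩
    · rwa [Algebra.smul_def, mul_one]

/-- for a finitely generated locally trivial `M'` ONE denominator works: `s • M' ⊆ B`. -/
theorem exists_smul_mem_range {P : Ideal B} [P.IsPrime] {M' : Submodule B F} (hfg : M'.FG)
    (h : ∀ x ∈ M', ∃ s : B, s ∉ P ∧ s • x ∈ (algebraMap B F).range) :
    ∃ s : B, s ∉ P ∧ ∀ x ∈ M', s • x ∈ (algebraMap B F).range := by
  classical
  obtain ⟨G, hG⟩ := hfg
  have hGM : ∀ x ∈ G, x ∈ M' := fun x hx => hG ▸ Submodule.subset_span hx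
  choose! s hsP hs using fun x (hx : x ∈ G) => h x (hGM x hx)
  refine ⟨∏ x ∈ G, s x, ?_, ?_⟩
  · intro hmem
    obtain ⟨x, hx, hxP⟩ := (Ideal.IsPrime.prod_mem_iff).1 hmem
    exact hsP x hx hxP
  · intro x hx
    rw [← hG] at hx
    -- the set of `x` with `(∏ s) • x ∈ B` is a submodule containing `G`
    let N : Submodule B F :=
      (Subalgebra.toSubmodule (⊥ : Subalgebra B F)).comap
        (LinearMap.lsmul B F (∏ x ∈ G, s x))
    have hN : ∀ y : F, y ∈ N ↔ (∏ x ∈ G, s x) • y ∈ (algebraMap B F).range := by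
      intro y
      show (∏ x ∈ G, s x) • y ∈ (⊥ : Subalgebra B F) ↔ _
      rw [Algebra.mem_bot]
      rfl
    have hle : Submodule.span B (G : Set F) ≤ N := by
      rw [Submodule.span_le]
      intro y hy
      rw [SetLike.mem_coe, hN, ← Finset.mul_prod_erase _ _ hy, mul_comm, mul_smul,
        Algebra.smul_def]
      exact (algebraMap B F).range.mul_mem ⟨_, rfl⟩ (hs y hy)
    exact (hN x).1 (hle hx)

section Bridge

variable [IsDomain B] [IsFractionRing B F] [IsNoetherianRing B]

/-- the inverse module `{n | n M ⊆ B}` -/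
def invModule (M : Submodule B F) : Submodule B F where
  carrier := {n | ∀ f ∈ M, n * f ∈ (algebraMap B F).range}
  add_mem' := by
    intro a b ha hb f hf
    rw [add_mul]
    exact (algebraMap B F).range.add_mem (ha f hf) (hb f hf)
  zero_mem' := fun f _ => by rw [zero_mul]; exact (algebraMap B F).range.zero_mem
  smul_mem' := by
    intro c n hn f hf
    rw [Algebra.smul_def, mul_assoc]
    exact (algebraMap B F).range.mul_mem ⟨c, rfl⟩ (hn f hf)

theorem mem_invModule {M : Submodule B F} {n : F} :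
    n ∈ invModule M ↔ ∀ f ∈ M, n * f ∈ (algebraMap B F).range := Iff.rfl

/-- the inverse module of a nonzero submodule is finitely generated (`B` noetherian) -/
theorem invModule_fg {M : Submodule B F} {f0 : F} (hf0 : f0 ∈ M) (hf00 : f0 ≠ 0) :
    (invModule M).FG := by
  -- `n ↦ n * f0` embeds `invModule M` into `B ⊆ F`
  let φ : F →ₗ[B] F := LinearMap.mulRight B f0
  have hφinj : Function.Injective φ := fun a b hab => mul_right_cancel₀ hf00 hab
  have hle : (invModule M).map φ ≤ LinearMap.range (Algebra.linearMap B F) := by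
    rintro _ ⟨n, hn, rfl⟩
    obtain ⟨b, hb⟩ := hn f0 hf0
    exact ⟨b, hb⟩
  have hfgB : ((invModule M).map φ).FG := by
    have e : B ≃ₗ[B] LinearMap.range (Algebra.linearMap B F) :=
      LinearEquiv.ofInjective (Algebra.linearMap B F) (IsFractionRing.injective B F)
    have : IsNoetherian B (LinearMap.range (Algebra.linearMap B F)) :=
      isNoetherian_of_linearEquiv e
    have h1 := (isNoetherian_def.1 this)
      (((invModule M).map φ).comap (LinearMap.range (Algebra.linearMap B F)).subtype)
    have h2 := h1.map (LinearMap.range (Algebra.linearMap B F)).subtype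
    rwa [Submodule.map_comap_subtype, inf_eq_right.2 hle] at h2
  exact Submodule.fg_of_fg_map_injective φ hφinj hfgB

/-- **BRIDGE**: `O` a localisation of `B` at the prime `P`, inside `F`, such that every finitely
generated divisorial `O`-submodule of `F` is principal (e.g. helper84
`DvrQuot.exists_eq_span_singleton_of_dvr`, helper93 `RegTwo`); then every finitely generated
divisorial `B`-submodule `M ≠ 0` of `F` is locally principal at `P`. -/
theorem exists_locPrincipalAt_of_local (P : Ideal B) [P.IsPrime]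
    (O : Type*) [CommRing O] [IsDomain O] [Algebra B O] [Algebra O F] [IsScalarTower B O F]
    [IsLocalization.AtPrime O P] [IsFractionRing O F]
    (hO : ∀ N : Submodule O F, N.FG → IsDivisorial N → ∃ g ∈ N, N = Submodule.span O {g})
    {M : Submodule B F} (hfg : M.FG) (hdiv : IsDivisorial M) {f0 : F} (hf0 : f0 ∈ M)
    (hf00 : f0 ≠ 0) : ∃ f : F, LocPrincipalAt P M f := by
  classical
  -- the `O`-module generated by `M`
  set N : Submodule O F := Submodule.span O (M : Set F) with hN
  have hNfg : N.FG := by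
    obtain ⟨G, hG⟩ := hfg
    refine ⟨G, le_antisymm (Submodule.span_mono fun x hx => ?_) (Submodule.span_le.2 ?_)⟩
    · exact hG ▸ Submodule.subset_span hx
    · intro x hx
      have hx' : x ∈ Submodule.span B (G : Set F) := by rw [hG]; exact hx
      exact Submodule.span_le_restrictScalars B O (G : Set F) hx'
  -- every element of `N` has a multiple in `M` with denominator outside `P`
  have hNM : ∀ x ∈ N, ∃ s : B, s ∉ P ∧ s • x ∈ M := by
    intro x hx
    induction hx using Submodule.span_induction with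
    | mem x hx => exact ⟨1, (Ideal.ne_top_iff_one P).1 (Ideal.IsPrime.ne_top inferInstance),
        by rwa [one_smul]⟩
    | zero => exact ⟨1, (Ideal.ne_top_iff_one P).1 (Ideal.IsPrime.ne_top inferInstance),
        by rw [smul_zero]; exact M.zero_mem⟩
    | add x y _ _ hx hy =>
      obtain ⟨s, hs, hsx⟩ := hx
      obtain ⟨s', hs', hsy⟩ := hy
      refine ⟨s * s', fun h => (Ideal.IsPrime.mem_or_mem inferInstance h).elim hs hs', ?_⟩
      have h3 : (s * s') • (x + y) = s' • (s • x) + s • (s' • y) := by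
        simp only [Algebra.smul_def, map_mul]
        ring
      rw [h3]
      exact M.add_mem (M.smul_mem _ hsx) (M.smul_mem _ hsy)
    | smul o x _ hx =>
      obtain ⟨s, hs, hsx⟩ := hx
      obtain ⟨⟨b, s'⟩, hbs⟩ := IsLocalization.surj P.primeCompl o
      refine ⟨(s' : B) * s, fun h => (Ideal.IsPrime.mem_or_mem inferInstance h).elim
        (fun h' => s'.2 h') hs, ?_⟩
      have h1 : ((s' : B) * s) • (o • x) = b • (s • x) := by
        simp only [Algebra.smul_def, IsScalarTower.algebraMap_apply B O F, map_mul] at hbs ⊢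
        have hbs' : algebraMap O F o * algebraMap O F (algebraMap B O (s' : B)) =
            algebraMap O F (algebraMap B O b) := by rw [← map_mul, hbs]
        linear_combination (algebraMap O F (algebraMap B O s) * x) * hbs'
      rw [h1]
      exact M.smul_mem _ hsx
  -- `N` is divisorial over `O`
  have hNdiv : IsDivisorial N := by
    intro t ht
    obtain ⟨G, hG⟩ := invModule_fg hf0 hf00
    -- each generator of the inverse module multiplies `t` into `O`
    have h1 : ∀ n ∈ G, ∃ s : B, s ∉ P ∧ n * (s • t) ∈ (algebraMap B F).range := by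
      intro n hn
      have hnM : n ∈ invModule M := hG ▸ Submodule.subset_span hn
      have hnN : ∀ f ∈ N, n * f ∈ (algebraMap O F).range := by
        intro f hf
        induction hf using Submodule.span_induction with
        | mem x hx =>
          obtain ⟨b, hb⟩ := hnM x hx
          exact ⟨algebraMap B O b, by rw [← IsScalarTower.algebraMap_apply, hb]⟩
        | zero => rw [mul_zero]; exact (algebraMap O F).range.zero_mem
        | add x y _ _ hx hy => rw [mul_add]; exact (algebraMap O F).range.add_mem hx hy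
        | smul o x _ hx =>
          rw [Algebra.smul_def, mul_left_comm]
          exact (algebraMap O F).range.mul_mem ⟨o, rfl⟩ hx
      obtain ⟨o, ho⟩ := ht n hnN
      obtain ⟨⟨b, s'⟩, hbs⟩ := IsLocalization.surj P.primeCompl o
      refine ⟨(s' : B), s'.2, b, ?_⟩
      have hbs' : algebraMap O F o * algebraMap O F (algebraMap B O (s' : B)) =
          algebraMap O F (algebraMap B O b) := by rw [← map_mul, hbs]
      rw [IsScalarTower.algebraMap_apply B O F, ← hbs', ho, Algebra.smul_def,
        IsScalarTower.algebraMap_apply B O F]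
      ring
    choose! s hsP hs using h1
    set σ : B := ∏ n ∈ G, s n with hσ
    have hσP : σ ∉ P := by
      intro hmem
      obtain ⟨n, hn, hnP⟩ := (Ideal.IsPrime.prod_mem_iff).1 hmem
      exact hsP n hn hnP
    -- `σ • t ∈ M`
    have hσt : σ • t ∈ M := by
      have hall : ∀ n ∈ Submodule.span B (G : Set F),
          n * (σ • t) ∈ (algebraMap B F).range := by
        intro n hn'
        induction hn' using Submodule.span_induction with
        | mem n hnG =>
          obtain ⟨b, hb⟩ := hs n hnG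
          refine ⟨(∏ n' ∈ G.erase n, s n') * b, ?_⟩
          rw [map_mul, hb, hσ, ← Finset.mul_prod_erase _ _ hnG, mul_comm (s n), mul_smul,
            Algebra.smul_def (∏ n' ∈ G.erase n, s n')]
          ring
        | zero => rw [zero_mul]; exact (algebraMap B F).range.zero_mem
        | add x y _ _ hx hy => rw [add_mul]; exact (algebraMap B F).range.add_mem hx hy
        | smul c x _ hx =>
          rw [Algebra.smul_def, mul_assoc]
          exact (algebraMap B F).range.mul_mem ⟨c, rfl⟩ hx
      apply hdiv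
      intro n hn
      exact hall n (hG ▸ (hn : n ∈ invModule M))
    -- divide by `σ` in `O`
    have hunit : IsUnit (algebraMap B O σ) :=
      IsLocalization.map_units O (⟨σ, hσP⟩ : P.primeCompl)
    obtain ⟨v, hv⟩ := hunit
    have : t = (↑v⁻¹ : O) • (σ • t) := by
      rw [Algebra.smul_def, Algebra.smul_def, IsScalarTower.algebraMap_apply B O F, ← hv,
        ← mul_assoc, ← map_mul, Units.inv_mul, map_one, one_mul]
    rw [this]
    exact N.smul_mem _ (Submodule.subset_span hσt)
  obtain ⟨g, hgN, hNg⟩ := hO N hNfg hNdiv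
  have hg0 : g ≠ 0 := by
    intro h0
    have : f0 ∈ N := Submodule.subset_span hf0
    rw [hNg, h0, Submodule.mem_span_singleton] at this
    obtain ⟨o, ho⟩ := this
    rw [smul_zero] at ho
    exact hf00 ho.symm
  refine ⟨g, hg0, fun x hx => ?_, hNM g hgN⟩
  have hxN : x ∈ N := Submodule.subset_span hx
  rw [hNg, Submodule.mem_span_singleton] at hxN
  obtain ⟨o, ho⟩ := hxN
  obtain ⟨⟨b, s'⟩, hbs⟩ := IsLocalization.surj P.primeCompl o
  refine ⟨(s' : B), s'.2, Submodule.mem_span_singleton.2 ⟨b, ?_⟩⟩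
  have hbs' : algebraMap O F o * algebraMap O F (algebraMap B O (s' : B)) =
      algebraMap O F (algebraMap B O b) := by rw [← map_mul, hbs]
  rw [← ho]
  simp only [Algebra.smul_def, IsScalarTower.algebraMap_apply B O F]
  linear_combination (-g) * hbs'

end Bridge

end Fermat.Agent.GL.Move
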