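/-
GATE-L / PREP (helper18): unipotent units have no prime-to-characteristic torsion modulo a subring.

Abstract, Mathlib only.  `B ⊆ C` a subring, `I` an ideal of `C` with `I ^ r ⊆ B` (think: `C = O~` the
normalisation of a reduced curve singularity `B = O`, `I = rad O~`, `I ^ r ⊆` conductor), `1 + I ⊆ Cˣ`,
`m` invertible in `B`.  Then

* `one_add_mem_of_pow_mem` : `n ∈ I`, `(1 + n) ^ m ∈ B` ⟹ `1 + n ∈ B`;
* `mem_of_pow_mem_of_sub_mem` : `w ∈ C`, `b` a unit of `B`, `w - b ∈ I`, `w ^ m ∈ B` ⟹ `w ∈ B`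
  ("trivial torus part + `m`-th power glued ⟹ glued": the non-seminormal part of a singularity
  contributes no `m`-torsion to `O~ˣ / Oˣ`).
-/
import Mathlib

set_option autoImplicit false

namespace Fermat.Agent.GL.UnipotentRoot

variable {C : Type*} [CommRing C]

/-- `(1 + n) ^ m = 1 + m n + n² c`. -/
theorem one_add_pow_eq (n : C) (m : ℕ) : ∃ c : C, (1 + n) ^ m = 1 + (m : C) * n + n ^ 2 * c := by
  induction m with
  | zero => exact ⟨0, by simp⟩
  | succ m ih =>
    obtain ⟨c, hc⟩ := ih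
    refine ⟨c + c * n + m, ?_⟩
    rw [pow_succ, hc]
    push_cast
    ring

/-- a unit `1 + β` of `C` with `β ∈ I ∩ B`, `I ^ r ⊆ B`: the inverse lies in `B`. -/
theorem inv_mem_of_one_add (B : Subring C) (I : Ideal C) (r : ℕ)
    (hIr : ∀ x ∈ I ^ r, x ∈ B) {β : C} (hβI : β ∈ I) (hβB : β ∈ B) {v : C}
    (hv : (1 + β) * v = 1) : v ∈ B := by
  -- `v = ∑_{j<r} (-β)^j + (-β)^r v`
  have key : ∀ k : ℕ, v = (∑ j ∈ Finset.range k, (-β) ^ j) + (-β) ^ k * v := by
    intro k
    induction k with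
    | zero => simp
    | succ k ih =>
      rw [Finset.sum_range_succ, pow_succ]
      have h1 : v = 1 - β * v := by
        have : v + β * v = 1 := by rw [← hv]; ring
        rw [← this]; ring
      calc v = (∑ j ∈ Finset.range k, (-β) ^ j) + (-β) ^ k * v := ih
        _ = (∑ j ∈ Finset.range k, (-β) ^ j) + (-β) ^ k * (1 - β * v) := by rw [← h1]
        _ = _ := by ring
  rw [key r]
  refine B.add_mem (B.sum_mem fun j _ => B.pow_mem (B.neg_mem hβB) j) (hIr _ ?_)
  exact Ideal.mul_mem_right _ _ (Ideal.pow_mem_pow (I.neg_mem hβI) r)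

/-- **Main lemma.**  `n ∈ I`, `(1 + n) ^ m ∈ B`, `m` invertible in `B`, `I ^ r ⊆ B`, `1 + I ⊆ Cˣ`
⟹ `1 + n ∈ B`. -/
theorem one_add_mem_of_pow_mem (B : Subring C) (I : Ideal C) (r : ℕ)
    (hIr : ∀ x ∈ I ^ r, x ∈ B) (hunit : ∀ x ∈ I, IsUnit (1 + x))
    (m : ℕ) (hm : ∃ c ∈ B, (m : C) * c = 1)
    {n : C} (hn : n ∈ I) (h : (1 + n) ^ m ∈ B) : 1 + n ∈ B := by
  obtain ⟨minv, hminvB, hminv⟩ := hm
  -- downward induction on the filtration degree
  have main : ∀ d : ℕ, ∀ i : ℕ, i + d = r + 1 → 1 ≤ i →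
      ∀ n : C, n ∈ I ^ i → (1 + n) ^ m ∈ B → 1 + n ∈ B := by
    intro d
    induction d with
    | zero =>
      intro i hi _ n hn _
      have hir : r ≤ i := by omega
      exact B.add_mem B.one_mem (hIr n (Ideal.pow_le_pow_right hir hn))
    | succ d ih =>
      intro i hi hi1 n hn hpow
      obtain ⟨c, hc⟩ := one_add_pow_eq n m
      -- `n² c ∈ I^(i+1)`
      have hn2 : n ^ 2 * c ∈ I ^ (i + 1) := by
        have h2 : n ^ 2 ∈ I ^ (i + i) := by
          rw [pow_two, pow_add]; exact Ideal.mul_mem_mul hn hn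
        exact Ideal.mul_mem_right _ _ (Ideal.pow_le_pow_right (by omega) h2)
      -- `β := m n + n² c ∈ B ∩ I^i`
      set β : C := (m : C) * n + n ^ 2 * c with hβ
      have hβB : β ∈ B := by
        have : β = (1 + n) ^ m - 1 := by rw [hc, hβ]; ring
        rw [this]; exact B.sub_mem hpow B.one_mem
      have hβi : β ∈ I ^ i :=
        (I ^ i).add_mem (Ideal.mul_mem_left _ _ hn)
          (Ideal.pow_le_pow_right (Nat.le_succ i) hn2)
      have hi_le : I ^ i ≤ I := by
        calc I ^ i ≤ I ^ 1 := Ideal.pow_le_pow_right hi1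
          _ = I := pow_one I
      -- `b := 1 + m⁻¹ β`
      set γ : C := minv * β with hγ
      have hγB : γ ∈ B := B.mul_mem hminvB hβB
      have hγi : γ ∈ I ^ i := Ideal.mul_mem_left _ _ hβi
      obtain ⟨u, hu⟩ := hunit γ (hi_le hγi)
      have huv : (1 + γ) * (↑u⁻¹ : C) = 1 := by rw [← hu]; exact u.mul_inv
      have hvB : (↑u⁻¹ : C) ∈ B := inv_mem_of_one_add B I r hIr (hi_le hγi) hγB huv
      -- `n' := (n - γ) v ∈ I^(i+1)`
      set n' : C := (n - γ) * (↑u⁻¹ : C) with hn'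
      have hnγ : n - γ ∈ I ^ (i + 1) := by
        have : n - γ = -(minv * (n ^ 2 * c)) := by
          have h1 : γ = minv * (m : C) * n + minv * (n ^ 2 * c) := by rw [hγ, hβ]; ring
          have h2 : minv * (m : C) = 1 := by rw [mul_comm]; exact hminv
          rw [h1, h2]; ring
        rw [this]
        exact (I ^ (i + 1)).neg_mem (Ideal.mul_mem_left _ _ hn2)
      have hn'i : n' ∈ I ^ (i + 1) := Ideal.mul_mem_right _ _ hnγ
      have hfac : 1 + n = (1 + n') * (1 + γ) := by
        have : (1 + n') * (1 + γ) = (1 + γ) + (n - γ) * ((1 + γ) * (↑u⁻¹ : C)) := by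
          rw [hn']; ring
        rw [this, huv]; ring
      have hpow' : (1 + n') ^ m ∈ B := by
        have : (1 + n') ^ m = (1 + n) ^ m * (↑u⁻¹ : C) ^ m := by
          have h3 : 1 + n' = (1 + n) * (↑u⁻¹ : C) := by
            rw [hfac, mul_assoc, huv, mul_one]
          rw [h3, mul_pow]
        rw [this]
        exact B.mul_mem hpow (B.pow_mem hvB m)
      have := ih (i + 1) (by omega) (by omega) n' hn'i hpow'
      rw [hfac]
      exact B.mul_mem this (B.add_mem B.one_mem hγB)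
  exact main r 1 (by omega) le_rfl n (by rwa [pow_one]) h

/-- **Unit form.**  `w ∈ C`, `b, b' ∈ B` with `b b' = 1`, `w - b ∈ I`, `w ^ m ∈ B` ⟹ `w ∈ B`. -/
theorem mem_of_pow_mem_of_sub_mem (B : Subring C) (I : Ideal C) (r : ℕ)
    (hIr : ∀ x ∈ I ^ r, x ∈ B) (hunit : ∀ x ∈ I, IsUnit (1 + x))
    (m : ℕ) (hm : ∃ c ∈ B, (m : C) * c = 1)
    {w b b' : C} (hb : b ∈ B) (hb' : b' ∈ B) (hbb' : b * b' = 1)
    (hwb : w - b ∈ I) (h : w ^ m ∈ B) : w ∈ B := by
  have hn : b' * (w - b) ∈ I := Ideal.mul_mem_left _ _ hwb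
  have h1 : 1 + b' * (w - b) = b' * w := by
    have : b' * b = 1 := by rw [mul_comm]; exact hbb'
    rw [mul_sub, this]; ring
  have hpow : (1 + b' * (w - b)) ^ m ∈ B := by
    rw [h1, mul_pow]; exact B.mul_mem (B.pow_mem hb' m) h
  have := one_add_mem_of_pow_mem B I r hIr hunit m hm hn hpow
  rw [h1] at this
  have h2 : w = b * (b' * w) := by rw [← mul_assoc, hbb', one_mul]
  rw [h2]
  exact B.mul_mem hb this

/-- `m`-torsion-freeness of `1 + I` for a nilpotent-modulo-`B`... special case `B = ⊥`-free form: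
if `I ^ r = ⊥`, `n ∈ I`, `(1 + n) ^ m = 1` and `m` is invertible in `C` then `n = 0`. -/
theorem eq_zero_of_one_add_pow_eq_one (I : Ideal C) (r : ℕ) (hIr : I ^ r = ⊥)
    (m : ℕ) (hm : IsUnit (m : C)) {n : C} (hn : n ∈ I) (h : (1 + n) ^ m = 1) : n = 0 := by
  obtain ⟨minv, hminv⟩ := hm.exists_right_inv
  have main : ∀ d : ℕ, ∀ i : ℕ, i + d = r → 1 ≤ i → n ∈ I ^ i → n = 0 := by
    intro d
    induction d with
    | zero =>
      intro i hi _ hni
      have : n ∈ I ^ r := by rw [← hi]; simpa using hni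
      rw [hIr] at this
      exact (Submodule.mem_bot C).mp this
    | succ d ih =>
      intro i hi hi1 hni
      obtain ⟨c, hc⟩ := one_add_pow_eq n m
      have h0 : (m : C) * n + n ^ 2 * c = 0 := by
        have : (1 + n) ^ m - 1 = (m : C) * n + n ^ 2 * c := by rw [hc]; ring
        rw [← this, h, sub_self]
      have hn2 : n ^ 2 * c ∈ I ^ (i + 1) := by
        have h2 : n ^ 2 ∈ I ^ (i + i) := by
          rw [pow_two, pow_add]; exact Ideal.mul_mem_mul hni hni
        exact Ideal.mul_mem_right _ _ (Ideal.pow_le_pow_right (by omega) h2)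
      have hn' : n ∈ I ^ (i + 1) := by
        have : n = -(minv * (n ^ 2 * c)) := by
          have h2 : (m : C) * n = -(n ^ 2 * c) := eq_neg_of_add_eq_zero_left h0
          calc n = ((m : C) * minv) * n := by rw [hminv, one_mul]
            _ = minv * ((m : C) * n) := by ring
            _ = minv * (-(n ^ 2 * c)) := by rw [h2]
            _ = -(minv * (n ^ 2 * c)) := by ring
        rw [this]
        exact (I ^ (i + 1)).neg_mem (Ideal.mul_mem_left _ _ hn2)
      exact ih (i + 1) (by omega) (by omega) hn'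
  by_cases hr : r = 0
  · -- `I^0 = ⊤ = ⊥`: the ring is trivial
    subst hr
    have : (1 : C) ∈ (⊥ : Ideal C) := by rw [← hIr]; simp
    have h1 : (1 : C) = 0 := (Submodule.mem_bot C).mp this
    calc n = n * 1 := (mul_one n).symm
      _ = 0 := by rw [h1, mul_zero]
  · exact main (r - 1) 1 (by omega) le_rfl (by rwa [pow_one])

end Fermat.Agent.GL.UnipotentRoot
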